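import Fermat.Agent.MC.Lvl.Interp

/-!
# Rationality for a general level

The equation `phiGQ` of the separating function has rational coefficients and degree the index, and
the interpolation denominator `denQ` is nonzero; `Field` builds the field from them.
-/

set_option autoImplicit false

attribute [local instance 10000] SubalgebraClass.toAlgebra HahnSeries.powerSeriesAlgebra

noncomputable section

open Polynomial
open ModularCurve (coeffEmb coeffMap jq)
open scoped Polynomial MatrixGroups

namespace Fermat.MC.Lvl

variable (G : Subgroup SL(2, ℤ)) [LevelGen G]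

/-- Polynomials in `j`, the generator as complex q-series. -/
def biQ : ℂ[X][X] →+* LaurentSeries ℂ := (qW G).toRingHom.comp (bW G)

/-- Polynomials in `j`, the generator as rational q-series. -/
def biQQ : ℚ[X][X] →+* LaurentSeries ℚ :=
  eval₂RingHom (aeval jq).toRingHom (genQ G)

/-- The series of a monomial. -/
lemma biQ_monomial (b a : ℕ) (c : ℂ) :
    biQ G (monomial b (monomial a c)) =
      algebraMap ℂ (LaurentSeries ℂ) c * coeffEmb ℂ (jq ^ a * genQ G ^ b) := by
  rw [biQ, RingHom.comp_apply, bW, coe_eval₂RingHom, eval₂_monomial, AlgHom.toRingHom_eq_coe,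
    RingHom.coe_coe, AlgHom.toRingHom_eq_coe, RingHom.coe_coe, aeval_monomial, map_mul, map_mul,
    map_pow, map_pow, qW_jW, qW_genY, AlgHom.commutes, map_mul, map_pow, map_pow, mul_assoc]

/-- The rational series of a monomial. -/
lemma biQQ_monomial (b a : ℕ) (c : ℚ) :
    biQQ G (monomial b (monomial a c)) =
      algebraMap ℚ (LaurentSeries ℚ) c * (jq ^ a * genQ G ^ b) := by
  rw [biQQ, coe_eval₂RingHom, eval₂_monomial, AlgHom.toRingHom_eq_coe,
    RingHom.coe_coe, aeval_monomial, mul_assoc]

/-- Retraction on polynomials in the two series. -/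
lemma biQQ_retP (H : ℂ[X][X]) : biQQ G (retP H) = retL (biQ G H) :=
  map_retP (biQ_monomial G) (biQQ_monomial G) H

/-- A rational polynomial gives a rational series. -/
lemma biQ_extQ (P : ℚ[X][X]) : biQ G (extQ P) = coeffEmb ℂ (biQQ G P) :=
  map_extQ (biQ_monomial G) (biQQ_monomial G) P

/-- Conjugating the series conjugates the polynomial. -/
lemma coeffMap_biQ (σ : ℂ →+* ℂ) (H : ℂ[X][X]) :
    coeffMap σ (biQ G H) = biQ G (H.map (mapRingHom σ)) := by
  induction H using Polynomial.induction_on' with
  | add p q hp hq => simp [hp, hq]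
  | monomial b p =>
    induction p using Polynomial.induction_on' with
    | add p q hp hq => simp [hp, hq]
    | monomial a c =>
      rw [map_monomial, coe_mapRingHom, map_monomial, biQ_monomial, biQ_monomial, map_mul,
        coeffMap_coeffEmbC, ModularCurve.coeffMap_algebraMap]

/-- No relation between the series has degree below the index. -/
lemma biQ_eq_zero_imp {H : ℂ[X][X]} (h : H.natDegree < psiG G) (h0 : biQ G H = 0) : H = 0 :=
  bW_eq_zero_imp G h ((map_eq_zero_iff _ (qW_injective G)).mp h0)

/-- The modular equation has rational coefficients. -/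
theorem exists_phiG_rat : ∃ P : ℚ[X][X], P.Monic ∧ P.natDegree = psiG G ∧ extQ P = phiG G :=
  exists_rat_relation (biQ_monomial G) (biQQ_monomial G) (psiG_pos G) (phiG_monic G)
    (natDegree_phiG G) (fun _ => biQ_eq_zero_imp G)
    (by rw [biQ, RingHom.comp_apply, bW_phiG, map_zero])

/-- The modular equation over `ℚ`. -/
def phiGQ : ℚ[X][X] := (exists_phiG_rat G).choose

/-- The rational equation is monic. -/
lemma phiGQ_monic : (phiGQ G).Monic := (exists_phiG_rat G).choose_spec.1
/-- The rational equation has degree the index. -/
lemma natDegree_phiGQ : (phiGQ G).natDegree = psiG G := (exists_phiG_rat G).choose_spec.2.1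
/-- It extends to the complex equation. -/
lemma extQ_phiGQ : extQ (phiGQ G) = phiG G := (exists_phiG_rat G).choose_spec.2.2

/-- The rational q-series of the interpolation denominator. -/
def denQ : LaurentSeries ℚ := biQQ G (derivative (phiGQ G))

/-- The series of the denominator. -/
lemma qW_denG : qW G (denG G) = coeffEmb ℂ (denQ G) := by
  rw [denQ, ← biQ_extQ, denG, ← extQ_phiGQ]
  rw [biQ, RingHom.comp_apply, Fermat.MC.extQ, coe_mapRingHom, derivative_map]
  rfl

/-- The interpolation denominator is nonzero. -/
lemma denQ_ne_zero : denQ G ≠ 0 := fun h =>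
  denG_ne_zero G (qW_injective G (by rw [qW_denG, h, map_zero, map_zero]))

end Fermat.MC.Lvl
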