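import Fermat.Agent.MC.Expansions
import Fermat.Agent.MC.Lvl.Rational

/-!
# Expansions at points and cusps for a general level

The expansion at a point is `evPtQ`, and `dvd_order_evInfQ` constrains the orders at cusps.
-/

set_option autoImplicit false

noncomputable section

open Filter Function
open UpperHalfPlane hiding I
open ModularCurve (coeffEmb qExpand jq)
open scoped MatrixGroups

namespace Fermat.MC.Lvl

/-- Expansion of the conjugate `q` at `z`. -/
def evPtQ (G : Subgroup SL(2, ℤ)) (z : ℍ) (q : Coset G) : W G →+* LaurentSeries ℂ :=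
  (evPt z).comp (conjHom G q).toRingHom

/-- The expansion of a conjugate at a point is injective. -/
lemma evPtQ_injective (G : Subgroup SL(2, ℤ)) (z : ℍ) (q : Coset G) : Injective (evPtQ G z q) :=
  (evPt_injective z).comp (conjHom_injective G q)

/-- The generator separates the conjugates at a point. -/
lemma evPtQ_genY_injective (G : Subgroup SL(2, ℤ)) [LevelGen G] (z : ℍ) :
    Injective fun q => evPtQ G z q (genY G) := fun _ _ h =>
  genY_injective G (evPt_injective z h)

/-- The order at a fixed point is constant on the orbits of its stabiliser. -/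
lemma order_evPtQ_smul (G : Subgroup SL(2, ℤ)) (z : ℍ) {δ : SL(2, ℤ)} (hz : δ • z = z) (q : Coset G)
    {f : W G} (hf : f ≠ 0) :
    (evPtQ G z (δ⁻¹ • q) f).order = (evPtQ G z q f).order := by
  have hne : conjHom G q f ≠ 0 := (map_ne_zero_iff _ (conjHom_injective G q)).mpr hf
  change (evPt z (conjHom G (δ⁻¹ • q) f)).order = (evPt z (conjHom G q f)).order
  rw [← compHom_conjHom, order_evPt_eq_analyticOrderNatAt z
      ((map_ne_zero_iff _ (compHom_injective δ)).mpr hne),
    order_evPt_eq_analyticOrderNatAt z hne, analyticOrderNatAt, analyticOrderNatAt]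
  have h := (order_compSL (conjHom G q f).2.1 δ z).1
  rw [hz] at h
  exact congrArg (fun a : ℕ∞ => ((a.toNat : ℕ) : ℤ)) h

/-- At a conjugate fixed by a rotation of order `n` orders are divisible by `n`. -/
lemma dvd_order_evPtQ (G : Subgroup SL(2, ℤ)) (z : ℍ) {δ : SL(2, ℤ)} (hz : δ • z = z) {n : ℕ}
    (hn : IsPrimitiveRoot (denom δ z ^ 2) n) {q : Coset G} (hq : δ⁻¹ • q = q)
    {f : W G} (hf : f ≠ 0) : (n : ℤ) ∣ (evPtQ G z q f).order := by
  have hne : conjHom G q f ≠ 0 := (map_ne_zero_iff _ (conjHom_injective G q)).mpr hf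
  obtain ⟨k, hk⟩ := ENat.ne_top_iff_exists.mp (analyticOrderAt_ext_ne_top (conjHom G q f).2.1
    (fun h => hne (Subtype.ext h)) z)
  have hinv : compSL δ (conjHom G q f : ℍ → ℂ) = (conjHom G q f : ℍ → ℂ) :=
    congrArg Subtype.val ((compHom_conjHom G δ q f).trans (by rw [hq]))
  have h1 := (order_compSL (conjHom G q f).2.1 δ z).2 hz hinv k hk.symm
  change (n : ℤ) ∣ (evPt z (conjHom G q f)).order
  rw [order_evPt hk.symm]
  exact_mod_cast (hn.pow_eq_one_iff_dvd k).mp h1

/-- `j - j z` vanishes at `z` to the order `multJ z`. -/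
lemma order_evPtQ_jW (G : Subgroup SL(2, ℤ)) (z : ℍ) (q : Coset G) :
    (evPtQ G z q (jW G - algebraMap ℂ (W G) (jA z))).order = (multJ z : ℤ) := by
  refine order_evPt (Eq.trans (congrArg (fun g => analyticOrderAt g (z : ℂ)) ?_)
    (analyticOrderAt_jA z).1)
  funext w
  change ext (compSL _ (jA - fun _ => jA z)) w = _
  simp only [ext, compSL, comp_apply, Pi.sub_apply]
  rw [jA_smul]

/-! ### Expansion at infinity -/

/-- A common width of all cusps of `G`. -/
def wid (G : Subgroup SL(2, ℤ)) : ℕ := G.normalCore.index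

/-- The width is not zero. -/
instance neZero_wid (G : Subgroup SL(2, ℤ)) [LevelBase G] : NeZero (wid G) := by
  have := LevelBase.finiteIndex (G := G)
  exact ⟨Subgroup.FiniteIndex.index_ne_zero⟩

/-- Every conjugate of the translation by the width is in `G`. -/
lemma T_pow_wid_mem (G : Subgroup SL(2, ℤ)) [LevelBase G] (γ : SL(2, ℤ)) :
    γ⁻¹ * ModularGroup.T ^ (wid G : ℤ) * γ ∈ G := by
  have := LevelBase.finiteIndex (G := G)
  refine G.normalCore_le ?_
  have h : ModularGroup.T ^ (wid G : ℤ) ∈ G.normalCore := by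
    rw [zpow_natCast]
    exact G.normalCore.pow_index_mem _
  have h' := (Subgroup.normalCore_normal G).conj_mem _ h γ⁻¹
  rwa [inv_inv] at h'

/-- A conjugate function has period the width. -/
lemma compSL_T_zpow_conjHom (G : Subgroup SL(2, ℤ)) [LevelBase G] (q : Coset G) (f : W G) :
    compSL (ModularGroup.T ^ (wid G : ℤ)) (conjHom G q f : ℍ → ℂ) = (conjHom G q f : ℍ → ℂ) := by
  induction q using QuotientGroup.induction_on with
  | H γ =>
    rw [conjHom_mk]
    change compSL _ (compSL γ⁻¹ (f : ℍ → ℂ)) = compSL γ⁻¹ (f : ℍ → ℂ)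
    conv_rhs => rw [← f.2.2.1 _ (T_pow_wid_mem G γ)]
    simp only [← compSL_mul]
    rw [mul_assoc (γ⁻¹ * ModularGroup.T ^ (wid G : ℤ)), mul_inv_cancel, mul_one]

variable (G : Subgroup SL(2, ℤ)) [LevelGen G]

/-- A conjugate has period one in `z / wid G`. -/
lemma comp_posN_mem (q : Coset G) (f : W G) :
    (conjHom G q f : ℍ → ℂ) ∘ affH (posN (wid G)) 0 ∈ perAlg :=
  mem_perAlg_of_periodic (wid G) (conjHom G q f).2 (compSL_T_zpow_conjHom G q f)

/-- Expansion of the conjugate `q` at infinity, in `exp (2 π i z / wid G)`. -/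
def evInfQ (q : Coset G) : W G →+* LaurentSeries ℂ :=
  qL.toRingHom.comp
    { toFun := fun f => ⟨_, comp_posN_mem G q f⟩
      map_one' := Subtype.ext (funext fun z => by simp)
      map_mul' := fun f g => Subtype.ext (funext fun z => by simp)
      map_zero' := Subtype.ext (funext fun z => by simp)
      map_add' := fun f g => Subtype.ext (funext fun z => by simp) }

/-- The value of the expansion at infinity. -/
lemma evInfQ_apply (q : Coset G) (f : W G) :
    evInfQ G q f = qL ⟨_, comp_posN_mem G q f⟩ := rfl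

/-- The expansion at a cusp is injective. -/
lemma evInfQ_injective (q : Coset G) : Injective (evInfQ G q) :=
  (injective_iff_map_eq_zero _).mpr fun _ h =>
    conjHom_injective G q ((eq_zero_of_qL_comp_posN (wid G) h).trans (map_zero _).symm)

/-- The generator separates the conjugates at infinity. -/
lemma evInfQ_genY_injective : Injective fun q => evInfQ G q (genY G) := fun q q' h => by
  refine genY_injective G (sub_eq_zero.mp (eq_zero_of_qL_comp_posN (wid G)
    (g := conjHom G q (genY G) -
    conjHom G q' (genY G)) (h := ?_) ?_))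
  · exact sub_mem (comp_posN_mem G q (genY G)) (comp_posN_mem G q' (genY G))
  · dsimp only at h
    have := sub_eq_zero.mpr h
    rw [evInfQ_apply, evInfQ_apply, ← map_sub] at this
    exact this

/-- `j` has the series of `j (wid G * τ)` at every cusp. -/
lemma evInfQ_jW (q : Coset G) : evInfQ G q (jW G) = coeffEmb ℂ (qExpand ℚ (wid G) jq) := by
  rw [evInfQ_apply]
  refine Eq.trans (congrArg qL (Subtype.ext ?_))
    (qW_apply (⟨jN (wid G), jN_mem_W (wid G)⟩ : Fermat.MC.W (wid G)) ▸ qW_jN (wid G))
  change (conjHom G q (jW G) : ℍ → ℂ) ∘ affH (posN (wid G)) 0 = jN (wid G)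
  funext z
  exact jA_smul _ _

/-- `j` has order minus the width at every cusp. -/
lemma order_evInfQ_jW (q : Coset G) : (evInfQ G q (jW G)).order = -(wid G : ℤ) := by
  rw [evInfQ_jW, ModularCurve.coeffEmb, ModularCurve.coeffMap_qExpand, order_qExpand,
    ← ModularCurve.coeffEmb, order_coeffEmb_jq]
  ring

/-- Translations do not change orders at infinity. -/
lemma order_evInfQ_smul (k : ℤ) (q : Coset G) (f : W G) :
    (evInfQ G ((ModularGroup.T ^ k)⁻¹ • q) f).order = (evInfQ G q f).order := by
  rw [evInfQ_apply, evInfQ_apply, ← order_qL_trH ⟨_, comp_posN_mem G q f⟩ ((k : ℝ) / wid G)]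
  congr 2
  refine Subtype.ext ?_
  funext z
  simp only [comp_apply, ← compHom_conjHom]
  change (conjHom G q f : ℍ → ℂ) (ModularGroup.T ^ k • _) = _
  refine congrArg (conjHom G q f : ℍ → ℂ) (UpperHalfPlane.ext ?_)
  have hN : (wid G : ℂ) ≠ 0 := by exact_mod_cast NeZero.ne (wid G)
  simp only [UpperHalfPlane.modular_T_zpow_smul, coe_affH, coe_vadd, coe_trH, posN]
  push_cast
  field_simp
  ring

/-- At a cusp of width dividing `s` the order times `s` is divisible by the common width. -/
lemma dvd_order_evInfQ (s : ℕ) [NeZero s] {q : Coset G}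
    (hq : (ModularGroup.T ^ (s : ℤ))⁻¹ • q = q) (f : W G) :
    (wid G : ℤ) ∣ (s : ℤ) * (evInfQ G q f).order := by
  have h := compHom_conjHom G (ModularGroup.T ^ (s : ℤ)) q f
  rw [hq] at h
  have hinv : compSL (ModularGroup.T ^ (s : ℤ)) (conjHom G q f : ℍ → ℂ) = (conjHom G q f : ℍ → ℂ) :=
    congrArg Subtype.val h
  exact dvd_order_periodic (wid G) s (mem_perAlg_of_periodic s (conjHom G q f).2 hinv)
    (comp_posN_mem G q f)

end Fermat.MC.Lvl
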