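import Fermat.Prelude.Def_ModularCurve_ArithmeticGalois
import Fermat.Agent.MC.Field
import Fermat.Agent.MC.Lvl.Expansions

/-!
# The field of modular functions with rational q-series, for a general level

`finrank_FL`, `isFunctionField_FL`: the field has degree the index over `L(j)`. It is the curve of
every level in `JAC/XH`, `RED/Full` and `BAD`; `MC/X0/Field` is its case `Γ₀(N)`.
-/

set_option autoImplicit false

noncomputable section

open Function Polynomial IntermediateField
open ModularCurve (coeffEmb coeffMap jq laurentBaseChange coeffEmb_mem_laurentBaseChange)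
open scoped Polynomial MatrixGroups

-- tried first: the other routes unfold the fraction field and take seconds
attribute [local instance 10000] RingHomClass.toAddMonoidHomClass AddMonoidHomClass.toAddHomClass

namespace Fermat.MC.Lvl

section Base

variable (G : Subgroup SL(2, ℤ))

/-- The field of meromorphic modular functions on `G`. -/
abbrev KW : Type := FractionRing (W G)

/-- Modular functions embed in their fractions. -/
lemma algebraMap_W_injective : Injective (algebraMap (W G) (KW G)) :=
  IsFractionRing.injective (W G) (KW G)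

variable [LevelBase G]

/-- The q-expansion on meromorphic modular functions. -/
def qK : KW G →+* LaurentSeries ℂ :=
  IsFractionRing.lift (A := W G) (g := (qW G).toRingHom) (qW_injective G)

/-- The expansion of a modular function as a fraction. -/
@[simp] lemma qK_algebraMap (f : W G) : qK G (algebraMap (W G) (KW G) f) = qW G f :=
  IsFractionRing.lift_algebraMap (K := KW G) (g := (qW G).toRingHom) (qW_injective G) f

/-- Rational Laurent series which are expansions of meromorphic modular functions on `G`. -/
def FQ : IntermediateField ℚ (LaurentSeries ℚ) :=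
  ((qK G).fieldRange.comap (coeffEmb ℂ)).toIntermediateField fun c =>
    ⟨algebraMap (W G) (KW G) (algebraMap ℂ (W G) (algebraMap ℚ ℂ c)), by
      rw [qK_algebraMap, AlgHom.commutes, ModularCurve.algebraMap_laurentSeries_eq_single,
        ModularCurve.algebraMap_laurentSeries_eq_single, ModularCurve.coeffEmb,
        ModularCurve.coeffMap_single]⟩

/-- Membership in the rational field. -/
lemma mem_FQ {x : LaurentSeries ℚ} : x ∈ FQ G ↔ coeffEmb ℂ x ∈ (qK G).fieldRange := Iff.rfl

/-- A rational series is in the field iff times the series of some nonzero modular function it is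
the series of another. -/
lemma mem_FQ_iff {x : LaurentSeries ℚ} :
    x ∈ FQ G ↔ ∃ a b : W G, b ≠ 0 ∧ coeffEmb ℂ x * qW G b = qW G a := by
  rw [mem_FQ]
  constructor
  · rintro ⟨z, hz⟩
    obtain ⟨a, b, hb, rfl⟩ := IsFractionRing.div_surjective (A := W G) z
    refine ⟨a, b, nonZeroDivisors.ne_zero hb, ?_⟩
    rw [← hz, map_div₀, qK_algebraMap, qK_algebraMap,
      div_mul_cancel₀ _ ((map_ne_zero_iff _ (qW_injective G)).mpr (nonZeroDivisors.ne_zero hb))]
  · rintro ⟨a, b, hb, h⟩
    refine ⟨algebraMap (W G) (KW G) a / algebraMap (W G) (KW G) b, ?_⟩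
    rw [map_div₀, qK_algebraMap, qK_algebraMap,
      div_eq_iff ((map_ne_zero_iff _ (qW_injective G)).mpr hb)]
    exact h.symm

/-- The rational series of a modular function is in the field. -/
lemma mem_FQ_of_qW {x : LaurentSeries ℚ} (f : W G) (h : qW G f = coeffEmb ℂ x) : x ∈ FQ G :=
  (mem_FQ_iff G).mpr ⟨f, 1, one_ne_zero, by rw [map_one, mul_one, h]⟩

/-- `j` is in the field. -/
lemma jq_mem_FQ : jq ∈ FQ G := mem_FQ_of_qW G (jW G) (qW_jW G)

/-- A smaller group has a larger field. -/
theorem FQ_anti {G' : Subgroup SL(2, ℤ)} [LevelBase G'] (h : G' ≤ G) : FQ G ≤ FQ G' := by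
  intro x hx
  obtain ⟨a, b, hb, hab⟩ := (mem_FQ_iff G).mp hx
  exact (mem_FQ_iff G').mpr ⟨Subalgebra.inclusion (W_anti h) a, Subalgebra.inclusion (W_anti h) b,
    fun h0 => hb (Subalgebra.inclusion_injective (W_anti h) (h0.trans (map_zero _).symm)), hab⟩

end Base

variable (G : Subgroup SL(2, ℤ)) [LevelGen G]

/-- The generator is in the field. -/
lemma genQ_mem_FQ : genQ G ∈ FQ G := mem_FQ_of_qW G (genY G) (qW_genY G)

/-- A polynomial in `j` and the generator is in the field they generate. -/
lemma biQQ_mem (P : ℚ[X][X]) : biQQ G P ∈ adjoin ℚ ({jq, genQ G} : Set (LaurentSeries ℚ)) := by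
  set E : IntermediateField ℚ (LaurentSeries ℚ) := adjoin ℚ ({jq, genQ G} : Set (LaurentSeries ℚ))
    with hE
  have hj : jq ∈ E := subset_adjoin ℚ _ (Set.mem_insert _ _)
  have hy : genQ G ∈ E := subset_adjoin ℚ _ (Set.mem_insert_of_mem _ rfl)
  clear_value E
  induction P using Polynomial.induction_on' with
  | add p q hp hq => rw [map_add]; exact add_mem hp hq
  | monomial b p =>
    induction p using Polynomial.induction_on' with
    | add p q hp hq => rw [map_add, map_add]; exact add_mem hp hq
    | monomial a c =>
      rw [biQQ_monomial]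
      exact mul_mem (E.algebraMap_mem c) (mul_mem (pow_mem hj a) (pow_mem hy b))

/-- Every modular function with rational q-series is a rational function of `j` and the
generator. -/
theorem FQ_eq_adjoin : FQ G = adjoin ℚ ({jq, genQ G} : Set (LaurentSeries ℚ)) := by
  refine le_antisymm (fun x hx => ?_) (adjoin_le_iff.mpr ?_)
  · obtain ⟨a, b, hb, hab⟩ := (mem_FQ_iff G).mp hx
    obtain ⟨Ha, -, ha⟩ := exists_interp G a
    obtain ⟨Hb, -, hb'⟩ := exists_interp G b
    have hBne : biQ G Hb ≠ 0 := by
      rw [biQ, RingHom.comp_apply, ← hb']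
      exact (map_ne_zero_iff _ (qW_injective G)).mpr (mul_ne_zero hb (denG_ne_zero G))
    have h1 : biQ G Hb * coeffEmb ℂ x = biQ G Ha := by
      simp only [biQ, RingHom.comp_apply, ← ha, ← hb', AlgHom.toRingHom_eq_coe, RingHom.coe_coe,
        map_mul, ← hab]
      ring
    -- normalise the leading coefficient to `1` so that the rational parts do not vanish
    set c : ℂ := ((biQ G Hb).coeff (biQ G Hb).order)⁻¹
    have hc : algebraMap ℂ (LaurentSeries ℂ) c = biQ G (C (C c)) := by
      rw [← monomial_zero_left, ← monomial_zero_left, biQ_monomial, pow_zero, pow_zero, one_mul,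
        map_one, mul_one]
    have h2 : retL (biQ G (C (C c) * Hb)) * x = retL (biQ G (C (C c) * Ha)) := by
      rw [← retL_mul_coeffEmb]
      refine congrArg retL ?_
      rw [map_mul, map_mul, mul_assoc, h1]
    have h3 : retL (biQ G (C (C c) * Hb)) ≠ 0 := by
      intro h0
      have h4 := congrArg (fun z => HahnSeries.coeff z (biQ G Hb).order) h0
      rw [map_mul, ← hc, retL_coeff, ModularCurve.algebraMap_laurentSeries_eq_single,
        HahnSeries.coeff_single_zero_mul,
        inv_mul_cancel₀ (HahnSeries.coeff_order_eq_zero.not.mpr hBne), retQ_one] at h4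
      exact one_ne_zero (h4.trans HahnSeries.coeff_zero)
    rw [← biQQ_retP] at h3
    rw [← biQQ_retP, ← biQQ_retP] at h2
    rw [show x = biQQ G (retP (C (C c) * Ha)) / biQQ G (retP (C (C c) * Hb)) from
      eq_div_of_mul_eq h3 (by rw [mul_comm]; exact h2)]
    exact div_mem (biQQ_mem G _) (biQQ_mem G _)
  · rintro x (rfl | rfl)
    · exact jq_mem_FQ G
    · exact genQ_mem_FQ G

variable (L : Type*) [Field L] [Algebra ℚ L]

/-- The function field of level `G` over `L`. -/
abbrev FL : IntermediateField L (LaurentSeries L) := laurentBaseChange L (FQ G)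

/-- The field of the level is a tower over its constants; found at once instead of through
the inclusion in Laurent series, which takes a second. -/
instance (priority := 10001) isScalarTowerFL : IsScalarTower L L (FL G L) := IsScalarTower.left L

/-- The series of `j` is in the function field. -/
lemma jq_mem_FL : coeffEmb L jq ∈ FL G L := coeffEmb_mem_laurentBaseChange L (jq_mem_FQ G)

/-- The series of the generator is in the function field. -/
lemma genQ_mem_FL : coeffEmb L (genQ G) ∈ FL G L :=
  coeffEmb_mem_laurentBaseChange L (genQ_mem_FQ G)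

/-- `j` in the function field. -/
def jL : FL G L := ⟨coeffEmb L jq, jq_mem_FL G L⟩

/-- The generator in the function field. -/
def yL : FL G L := ⟨coeffEmb L (genQ G), genQ_mem_FL G L⟩

/-- The function field is generated over `L` by `j` and the generator. -/
theorem FL_eq_adjoin :
    FL G L = adjoin L {coeffEmb L jq, coeffEmb L (genQ G)} := by
  refine le_antisymm ?_ (adjoin_le_iff.mpr ?_)
  · rw [FL, laurentBaseChange, adjoin_le_iff, FQ_eq_adjoin]
    rintro _ ⟨x, hx, rfl⟩
    rw [SetLike.mem_coe] at hx ⊢
    simpa only [Set.image_insert_eq, Set.image_singleton] using coeffEmb_mem_adjoin_image hx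
  · rintro x (rfl | rfl)
    · exact jq_mem_FL G L
    · exact genQ_mem_FL G L

variable {L} (ι : L →+* ℂ)

/-- A function over `L` is the expansion of a meromorphic modular function. -/
lemma coeffMap_mem_range_qK (x : FL G L) :
    coeffMap ι (x : LaurentSeries L) ∈ (qK G).fieldRange := by
  have hx : (x : LaurentSeries L) ∈ adjoin L {coeffEmb L jq, coeffEmb L (genQ G)} := by
    rw [← FL_eq_adjoin]; exact x.2
  refine IntermediateField.adjoin_induction L (fun y hy => ?_) (fun c => ?_)
    (fun _ _ _ _ h h' => ?_) (fun _ _ h => ?_) (fun _ _ _ _ h h' => ?_) hx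
  · rcases hy with rfl | rfl
    · exact ⟨algebraMap (W G) (KW G) (jW G), by rw [qK_algebraMap, qW_jW, coeffMap_ι_coeffEmb]⟩
    · exact ⟨algebraMap (W G) (KW G) (genY G), by rw [qK_algebraMap, qW_genY, coeffMap_ι_coeffEmb]⟩
  · exact ⟨algebraMap (W G) (KW G) (algebraMap ℂ (W G) (ι c)),
      by rw [qK_algebraMap, AlgHom.commutes, coeffMap_ι_algebraMap]⟩
  · rw [map_add]; exact add_mem h h'
  · rw [map_inv₀]; exact inv_mem h
  · rw [map_mul]; exact mul_mem h h'

/-- A function as a meromorphic modular function. -/
def toKWFun (x : FL G L) : KW G := (coeffMap_mem_range_qK G ι x).choose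

/-- The chosen modular function has the given expansion. -/
lemma qK_toKWFun (x : FL G L) : qK G (toKWFun G ι x) = coeffMap ι (x : LaurentSeries L) :=
  (coeffMap_mem_range_qK G ι x).choose_spec

/-- The embedding into the field of meromorphic modular functions. -/
def toKW : FL G L →+* KW G where
  toFun := toKWFun G ι
  map_one' := (qK G).injective (by rw [qK_toKWFun, map_one, OneMemClass.coe_one, map_one])
  map_mul' x y := (qK G).injective (by
    rw [map_mul, qK_toKWFun, qK_toKWFun, qK_toKWFun, MulMemClass.coe_mul, map_mul])
  map_zero' := (qK G).injective (by rw [qK_toKWFun, map_zero, ZeroMemClass.coe_zero, map_zero])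
  map_add' x y := (qK G).injective (by
    rw [map_add, qK_toKWFun, qK_toKWFun, qK_toKWFun, AddMemClass.coe_add, map_add])

/-- The embedding preserves expansions. -/
lemma qK_toKW (x : FL G L) : qK G (toKW G ι x) = coeffMap ι (x : LaurentSeries L) :=
  qK_toKWFun G ι x

/-- The embedding sends `j` to `j`. -/
lemma toKW_jL : toKW G ι (jL G L) = algebraMap (W G) (KW G) (jW G) :=
  (qK G).injective (by rw [qK_toKW, qK_algebraMap, qW_jW]; exact coeffMap_ι_coeffEmb ι jq)

/-- The embedding sends the generator to the generator. -/
lemma toKW_yL : toKW G ι (yL G L) = algebraMap (W G) (KW G) (genY G) :=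
  (qK G).injective (by rw [qK_toKW, qK_algebraMap, qW_genY]; exact coeffMap_ι_coeffEmb ι _)

/-- The embedding acts on constants by `ι`. -/
lemma toKW_algebraMap (c : L) :
    toKW G ι (algebraMap L (FL G L) c) = algebraMap (W G) (KW G) (algebraMap ℂ (W G) (ι c)) :=
  (qK G).injective (by
    rw [qK_toKW, qK_algebraMap, AlgHom.commutes]
    exact coeffMap_ι_algebraMap ι c)

/-- The expansion of a function along an expansion of modular functions. -/
def tau (ev : W G →+* LaurentSeries ℂ) (hev : Injective ev) : FL G L →+* LaurentSeries ℂ :=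
  (IsFractionRing.lift (A := W G) (K := KW G) (g := ev) hev).comp (toKW G ι)

section Tau

variable (ev : W G →+* LaurentSeries ℂ) (hev : Injective ev)

/-- The expansion of a function that is holomorphic on the half plane. -/
lemma tau_of_toKW {x : FL G L} {f : W G} (h : toKW G ι x = algebraMap (W G) (KW G) f) :
    tau G ι ev hev x = ev f := by
  rw [tau, RingHom.comp_apply, h, IsFractionRing.lift_algebraMap]

/-- The expansion of `j`. -/
lemma tau_jL : tau G ι ev hev (jL G L) = ev (jW G) := tau_of_toKW G ι ev hev (toKW_jL G ι)

/-- The expansion of the generator. -/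
lemma tau_yL : tau G ι ev hev (yL G L) = ev (genY G) := tau_of_toKW G ι ev hev (toKW_yL G ι)

/-- The expansion of a constant. -/
lemma tau_algebraMap (c : L) :
    tau G ι ev hev (algebraMap L (FL G L) c) = ev (algebraMap ℂ (W G) (ι c)) :=
  tau_of_toKW G ι ev hev (toKW_algebraMap G ι c)

/-- Fractions of modular functions. -/
lemma tau_div {x : FL G L} {a b : W G}
    (h : toKW G ι x = algebraMap (W G) (KW G) a / algebraMap (W G) (KW G) b) :
    tau G ι ev hev x = ev a / ev b := by
  rw [tau, RingHom.comp_apply, h, map_div₀, IsFractionRing.lift_algebraMap,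
    IsFractionRing.lift_algebraMap]

/-- The order along any expansion is the difference of those of a numerator and denominator. -/
lemma ordT_tau {x : FL G L} (hx : x ≠ 0) :
    ∃ a b : W G, a ≠ 0 ∧ b ≠ 0 ∧
      toKW G ι x = algebraMap (W G) (KW G) a / algebraMap (W G) (KW G) b ∧
      ∀ (ev : W G →+* LaurentSeries ℂ) (hev : Injective ev),
        ordT (tau G ι ev hev) x = (ev a).order - (ev b).order :=
  exists_ordT_lift (toKW G ι) hx

end Tau

omit [LevelGen G] in
/-- The expansion of a constant at a point is the constant. -/
lemma evPtQ_algebraMap (z : UpperHalfPlane) (q : Coset G) (c : ℂ) :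
    evPtQ G z q (algebraMap ℂ (W G) c) = algebraMap ℂ (LaurentSeries ℂ) c := by
  change evPt z (conjHom G q (algebraMap ℂ (W G) c)) = _
  rw [AlgHom.commutes, ModularCurve.algebraMap_laurentSeries_eq_single]
  change HahnSeries.ofPowerSeries ℤ ℂ (taylorPS (fun _ => c) _) = _
  rw [taylorPS_const, HahnSeries.ofPowerSeries_C]
  rfl

/-- The expansion of a constant at a cusp is the constant. -/
lemma evInfQ_algebraMap (q : Coset G) (c : ℂ) :
    evInfQ G q (algebraMap ℂ (W G) c) = algebraMap ℂ (LaurentSeries ℂ) c := by
  rw [evInfQ_apply, ← qL.commutes c]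
  refine congrArg qL (Subtype.ext ?_)
  change ((conjHom G q (algebraMap ℂ (W G) c) : Wfull) : UpperHalfPlane → ℂ) ∘ _ = _
  rw [AlgHom.commutes]
  rfl

/-- The expansion at the point `z` of the conjugate `q`. -/
def tauPt (z : UpperHalfPlane) (q : Coset G) : FL G L →+* LaurentSeries ℂ :=
  tau G ι (evPtQ G z q) (evPtQ_injective G z q)

/-- The expansion at infinity of the conjugate `q`. -/
def tauInf (q : Coset G) : FL G L →+* LaurentSeries ℂ :=
  tau G ι (evInfQ G q) (evInfQ_injective G q)

/-- Nonzero constants have order zero at every point. -/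
lemma ordT_tauPt_algebraMap (z : UpperHalfPlane) (q : Coset G) {c : L} (hc : c ≠ 0) :
    ordT (tauPt G ι z q) (algebraMap L (FL G L) c) = 0 := by
  rw [ordT, tauPt, tau_algebraMap, evPtQ_algebraMap, order_algebraMap_C ((map_ne_zero ι).mpr hc)]

/-- Nonzero constants have order zero at every cusp. -/
lemma ordT_tauInf_algebraMap (q : Coset G) {c : L} (hc : c ≠ 0) :
    ordT (tauInf G ι q) (algebraMap L (FL G L) c) = 0 := by
  rw [ordT, tauInf, tau_algebraMap, evInfQ_algebraMap, order_algebraMap_C ((map_ne_zero ι).mpr hc)]

/-- The expansion of a constant at a point. -/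
lemma tauPt_algebraMap (z : UpperHalfPlane) (q : Coset G) (c : L) :
    tauPt G ι z q (algebraMap L (FL G L) c) = algebraMap ℂ (LaurentSeries ℂ) (ι c) := by
  rw [tauPt, tau_algebraMap, evPtQ_algebraMap]

/-- The expansion of a constant at a cusp. -/
lemma tauInf_algebraMap (q : Coset G) (c : L) :
    tauInf G ι q (algebraMap L (FL G L) c) = algebraMap ℂ (LaurentSeries ℂ) (ι c) := by
  rw [tauInf, tau_algebraMap, evInfQ_algebraMap]

/-- `j` has the same expansion at all conjugates of a point. -/
lemma tauPt_jL (z : UpperHalfPlane) (q q' : Coset G) :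
    tauPt G ι z q (jL G L) = tauPt G ι z q' (jL G L) := by
  rw [tauPt, tauPt, tau_jL, tau_jL]
  change evPt z (conjHom G q (jW G)) = evPt z (conjHom G q' (jW G))
  exact congrArg (evPt z) (Subtype.ext (funext fun w => (jA_smul _ w).trans (jA_smul _ w).symm))

/-- `j` has the same expansion at all conjugates of `∞`. -/
lemma tauInf_jL (q q' : Coset G) : tauInf G ι q (jL G L) = tauInf G ι q' (jL G L) := by
  rw [tauInf, tauInf, tau_jL, tau_jL, evInfQ_jW, evInfQ_jW]

/-- The generator has distinct expansions at the conjugates of a point. -/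
lemma tauPt_injective (z : UpperHalfPlane) : Injective fun q => tauPt G ι z q (yL G L) := by
  simp only [tauPt, tau_yL]
  exact evPtQ_genY_injective G z

/-- The generator has distinct expansions at the conjugates of `∞`. -/
lemma tauInf_injective : Injective fun q => tauInf G ι q (yL G L) := by
  simp only [tauInf, tau_yL]
  exact evInfQ_genY_injective G

section Degree

variable [IsAlgClosed L]
include ι

omit ι in
/-- `j` is transcendental. -/
lemma transcendental_jL : Transcendental L (jL G L) :=
  transcendental_of_coe_eq_jq rfl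

omit [IsAlgClosed L] ι in
/-- `j` and the generator generate the function field. -/
lemma adjoin_pair_eq_top : adjoin L {jL G L, yL G L} = (⊤ : IntermediateField L (FL G L)) := by
  refine IntermediateField.map_injective (FL G L).val ?_
  rw [adjoin_map, Set.image_insert_eq, Set.image_singleton, ← AlgHom.fieldRange_eq_map,
    fieldRange_val]
  exact (FL_eq_adjoin G L).symm

omit [IsAlgClosed L] ι in
/-- The generator generates the function field over `L(j)`. -/
lemma adjoin_yL_eq_top :
    adjoin L⟮jL G L⟯ {yL G L} = (⊤ : IntermediateField L⟮jL G L⟯ (FL G L)) := by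
  refine restrictScalars_injective L ?_
  rw [adjoin_simple_adjoin_simple, restrictScalars_top, adjoin_pair_eq_top]

/-- The rational modular equation, over `L(j)`. -/
def phiL : Polynomial L⟮jL G L⟯ :=
  (phiGQ G).map (eval₂RingHom ((algebraMap L L⟮jL G L⟯).comp (algebraMap ℚ L))
    (AdjoinSimple.gen L (jL G L)))

omit [IsAlgClosed L] ι in
/-- The equation holds between the rational series of `j` and the generator. -/
lemma biQQ_phiGQ : biQQ G (phiGQ G) = 0 := by
  apply coeffEmb_injective
  rw [← biQ_extQ, extQ_phiGQ, biQ, RingHom.comp_apply, bW_phiG, map_zero, map_zero]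

omit [IsAlgClosed L] ι in
/-- The generator is a root of the equation. -/
lemma aeval_phiL : aeval (yL G L) (phiL G (L := L)) = 0 :=
  aeval_map_eq_zero rfl rfl (biQQ_phiGQ G)

omit [IsAlgClosed L] in
/-- The function field has degree the index of the group over `L(j)`. -/
theorem finrank_FL : Module.finrank L⟮jL G L⟯ (FL G L) = psiG G ∧
    FiniteDimensional L⟮jL G L⟯ (FL G L) :=
  finrank_of_embeddings (σ := fun q => tauPt G ι UpperHalfPlane.I q) (phiL G (L := L))
    ((phiGQ_monic G).map _) (aeval_phiL G)
    (by rw [phiL, (phiGQ_monic G).natDegree_map, natDegree_phiGQ, psiG_eq_card])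
    (adjoin_yL_eq_top G)
    (fun q q' a => eq_on_adjoin (fun c => by rw [tauPt_algebraMap, tauPt_algebraMap])
      (tauPt_jL G ι _ q q') a)
    (tauPt_injective G ι _) (psiG_eq_card G).symm

/-- The function field is a function field of one variable. -/
theorem isFunctionField_FL : Fermat.FF.IsFunctionField L (FL G L) := by
  have : CharZero L := charZero_of_injective_algebraMap (algebraMap ℚ L).injective
  exact Fermat.FF.isFunctionField_of_finite (transcendental_jL G) (finrank_FL G ι).2

end Degree

end Fermat.MC.Lvl
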