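import Mathlib.NumberTheory.ModularForms.CongruenceSubgroups

/-!
# The levels between `Γ₁(N)` and `Γ₀(N)`

`GammaH` lies between `Γ(N)` and `SL(2, ℤ)` with finite index, contains `T`, and `-1` when `H` does;
`LevelH` makes it a level.
-/

namespace Fermat.MC.Lvl

open scoped MatrixGroups
open CongruenceSubgroup ModularGroup

/-- The matrices of `Γ₀(N)` whose lower right entry modulo `N` lies in `H`. -/
def GammaH (N : ℕ) (H : Subgroup (ZMod N)ˣ) : Subgroup SL(2, ℤ) :=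
  (H.comap (Gamma0Map N).toHomUnits).map (Gamma0 N).subtype

variable {N : ℕ} {H H' : Subgroup (ZMod N)ˣ}

/-- Membership in `Γ_H(N)` by the lower right entry. -/
theorem mem_GammaH_iff {g : SL(2, ℤ)} :
    g ∈ GammaH N H ↔ g ∈ Gamma0 N ∧ ∃ h ∈ H, (h : ZMod N) = ((g 1 1 : ℤ) : ZMod N) := by
  constructor
  · rintro ⟨x, hx, rfl⟩
    exact ⟨x.2, _, hx, rfl⟩
  · rintro ⟨hg, h, hH, hh⟩
    refine ⟨⟨g, hg⟩, ?_, rfl⟩
    change (Gamma0Map N).toHomUnits ⟨g, hg⟩ ∈ H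
    rwa [show (Gamma0Map N).toHomUnits ⟨g, hg⟩ = h from Units.ext hh.symm]

/-- The diagonal entries of an element of `Γ₀(N)` are inverse modulo `N`. -/
theorem Gamma0_entries {g : SL(2, ℤ)} (hg : g ∈ Gamma0 N) :
    ((g 0 0 : ℤ) : ZMod N) * ((g 1 1 : ℤ) : ZMod N) = 1 := by
  have h := g.2
  rw [Matrix.det_fin_two] at h
  have h' := congrArg (fun x : ℤ => (x : ZMod N)) h
  simp only [Int.cast_sub, Int.cast_mul, Int.cast_one, Gamma0_mem.mp hg, mul_zero, sub_zero] at h'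
  exact h'

/-- The upper left entry may be used instead. -/
theorem mem_GammaH_iff_upper {g : SL(2, ℤ)} :
    g ∈ GammaH N H ↔ g ∈ Gamma0 N ∧ ∃ h ∈ H, (h : ZMod N) = ((g 0 0 : ℤ) : ZMod N) := by
  rw [mem_GammaH_iff]
  refine ⟨fun ⟨hg, h, hH, hh⟩ => ⟨hg, h⁻¹, inv_mem hH, ?_⟩,
    fun ⟨hg, h, hH, hh⟩ => ⟨hg, h⁻¹, inv_mem hH, ?_⟩⟩
  · refine Units.inv_eq_of_mul_eq_one_right ?_
    rw [hh, mul_comm, Gamma0_entries hg]
  · refine Units.inv_eq_of_mul_eq_one_right ?_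
    rw [hh, Gamma0_entries hg]

/-- `Γ_H(N)` lies in `Γ₀(N)`. -/
theorem GammaH_le_Gamma0 : GammaH N H ≤ Gamma0 N := fun _ hg => (mem_GammaH_iff.mp hg).1

/-- Every unit is the upper left entry of some element of `Γ₀(N)`. -/
theorem exists_gamma0_lift [NeZero N] (u : (ZMod N)ˣ) :
    ∃ g : SL(2, ℤ), g ∈ Gamma0 N ∧ ((g 0 0 : ℤ) : ZMod N) = (u : ZMod N) := by
  obtain ⟨b, hb⟩ : (N : ℤ) ∣ (u : ZMod N).val * (((u⁻¹ : (ZMod N)ˣ) : ZMod N).val : ℤ) - 1 := by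
    rw [← ZMod.intCast_zmod_eq_zero_iff_dvd]
    simp
  exact ⟨⟨!![((u : ZMod N).val : ℤ), b; (N : ℤ), (((u⁻¹ : (ZMod N)ˣ) : ZMod N).val : ℤ)], by
      rw [Matrix.det_fin_two_of]; linear_combination hb⟩,
    Gamma0_mem.mpr (by simp), by simp⟩

/-- `Γ_H(N)` is monotone in `H`. -/
theorem GammaH_mono (h : H ≤ H') : GammaH N H ≤ GammaH N H' := fun _ hg => by
  obtain ⟨hg0, x, hx, hx'⟩ := mem_GammaH_iff.mp hg
  exact mem_GammaH_iff.mpr ⟨hg0, x, h hx, hx'⟩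

/-- For all units `Γ_H(N)` is `Γ₀(N)`. -/
theorem GammaH_top : GammaH N ⊤ = Gamma0 N :=
  le_antisymm GammaH_le_Gamma0 fun g hg => mem_GammaH_iff.mpr ⟨hg,
    Units.mkOfMulEqOne _ _
      (show ((g 1 1 : ℤ) : ZMod N) * _ = 1 by rw [mul_comm, Gamma0_entries hg]),
    Subgroup.mem_top _, rfl⟩

/-- `Γ₁(N)` lies in `Γ_H(N)`. -/
theorem Gamma1_le_GammaH : Gamma1 N ≤ GammaH N H := fun g hg => by
  obtain ⟨-, h11, h10⟩ := (Gamma1_mem N g).mp hg
  exact mem_GammaH_iff.mpr ⟨Gamma0_mem.mpr h10, 1, one_mem H, by rw [Units.val_one, h11]⟩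

/-- The translation is in `Γ_H(N)`. -/
theorem T_mem_GammaH : T ∈ GammaH N H := Gamma1_le_GammaH ((Gamma1_mem N T).mpr
  ⟨by simp [coe_T], by simp [coe_T], by simp [coe_T]⟩)

/-- `-1` is in `Γ_H(N)` if it is in `H`. -/
theorem neg_one_mem_GammaH (h : -1 ∈ H) : -1 ∈ GammaH N H :=
  mem_GammaH_iff.mpr ⟨Gamma0_mem.mpr (by simp), -1, h, by simp⟩

/-- `Γ(N)` lies in `Γ_H(N)`. -/
theorem Gamma_le_GammaH : Gamma N ≤ GammaH N H := fun g hg => by
  obtain ⟨-, -, h10, h11⟩ := Gamma_mem.mp hg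
  exact mem_GammaH_iff.mpr ⟨Gamma0_mem.mpr h10, 1, one_mem H, by rw [Units.val_one, h11]⟩

/-- `Γ_H(N)` has finite index. -/
instance finiteIndex_GammaH [NeZero N] : (GammaH N H).FiniteIndex :=
  Subgroup.finiteIndex_of_le Gamma_le_GammaH

/-- `Γ(M)` lies in `Γ(N)` for `N ∣ M`. -/
theorem Gamma_le_of_dvd {M : ℕ} (h : N ∣ M) : Gamma M ≤ Gamma N := fun γ hγ => by
  rw [Gamma_mem] at hγ ⊢
  obtain ⟨a, b, c, d⟩ := hγ
  refine ⟨?_, ?_, ?_, ?_⟩
  · simpa only [map_intCast, map_one, map_zero] using congrArg (ZMod.castHom h (ZMod N)) a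
  · simpa only [map_intCast, map_one, map_zero] using congrArg (ZMod.castHom h (ZMod N)) b
  · simpa only [map_intCast, map_one, map_zero] using congrArg (ZMod.castHom h (ZMod N)) c
  · simpa only [map_intCast, map_one, map_zero] using congrArg (ZMod.castHom h (ZMod N)) d

end Fermat.MC.Lvl
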