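import Mathlib.NumberTheory.ModularForms.EisensteinSeries.QExpansion
import Mathlib.NumberTheory.TsumDivisorsAntidiagonal
import Fermat.Agent.MC.Conjugate

/-!
# Weight four series over congruence classes of lattice vectors

`hasSum_gSum` gives their integral expansions. Combinations of them separate the cosets of `Γ_H(N)`
in `Generator`.
-/

set_option autoImplicit false

noncomputable section

open Filter Topology Complex Function
open UpperHalfPlane hiding I
open EisensteinSeries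
open scoped Manifold MatrixGroups Real Matrix

namespace Fermat.MC.Lvl

variable {N : ℕ}

open Classical in
/-- A term of the series. -/
def gTerm (S : Set (Fin 2 → ZMod N)) (z : ℍ) (v : Fin 2 → ℤ) : ℂ :=
  if ((↑) : ℤ → ZMod N) ∘ v ∈ S then eisSummand 4 v z else 0

/-- The sum of `(m τ + n) ^ (-4)` over the vectors `(m, n)` whose class lies in `S`. -/
def gSum (S : Set (Fin 2 → ZMod N)) (z : ℍ) : ℂ := ∑' v : Fin 2 → ℤ, gTerm S z v

/-- The action of `SL(2, ℤ)` on sets of classes. -/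
def actS (A : SL(2, ℤ)) (S : Set (Fin 2 → ZMod N)) : Set (Fin 2 → ZMod N) :=
  {w | w ᵥ* ((A⁻¹ : SL(2, ℤ)) : Matrix (Fin 2) (Fin 2) ℤ).map ((↑) : ℤ → ZMod N) ∈ S}

/-- Each term is dominated by the Eisenstein summand. -/
lemma norm_gTerm_le (S : Set (Fin 2 → ZMod N)) (z : ℍ) (v : Fin 2 → ℤ) :
    ‖gTerm S z v‖ ≤ ‖eisSummand 4 v z‖ := by
  unfold gTerm
  split_ifs <;> simp

/-- The series converges absolutely. -/
lemma summable_gTerm (S : Set (Fin 2 → ZMod N)) (z : ℍ) : Summable (gTerm S z) :=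
  .of_norm_bounded (summable_norm_eisSummand (k := 4) (by norm_num) z) (norm_gTerm_le S z)

/-- Reduction modulo `N` commutes with the action on row vectors. -/
lemma cast_vecMul (v : Fin 2 → ℤ) (A : Matrix (Fin 2) (Fin 2) ℤ) :
    ((↑) : ℤ → ZMod N) ∘ (v ᵥ* A) = (((↑) : ℤ → ZMod N) ∘ v) ᵥ* A.map ((↑) : ℤ → ZMod N) := by
  funext i
  simp [Matrix.vecMul, dotProduct]

/-- The modular group permutes the terms. -/
lemma gTerm_smul (S : Set (Fin 2 → ZMod N)) (A : SL(2, ℤ)) (z : ℍ) (v : Fin 2 → ℤ) :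
    gTerm S (A • z) v = denom A z ^ (4 : ℤ) *
      gTerm (actS A S) z (v ᵥ* (A : Matrix (Fin 2) (Fin 2) ℤ)) := by
  have hiff : ((↑) : ℤ → ZMod N) ∘ (v ᵥ* (A : Matrix (Fin 2) (Fin 2) ℤ)) ∈ actS A S ↔
      ((↑) : ℤ → ZMod N) ∘ v ∈ S := by
    rw [actS, Set.mem_ofPred_eq, ← cast_vecMul, Matrix.vecMul_vecMul,
      ← Matrix.SpecialLinearGroup.coe_mul, mul_inv_cancel, Matrix.SpecialLinearGroup.coe_one,
      Matrix.vecMul_one]
  unfold gTerm
  by_cases h : ((↑) : ℤ → ZMod N) ∘ v ∈ S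
  · rw [if_pos h, if_pos (hiff.mpr h), eisSummand_SL2_apply]
  · rw [if_neg h, if_neg (fun h' => h (hiff.mp h')), mul_zero]

/-- Right multiplication on vectors. -/
def vecMulEquiv (A : SL(2, ℤ)) : (Fin 2 → ℤ) ≃ (Fin 2 → ℤ) where
  toFun v := v ᵥ* (A : Matrix (Fin 2) (Fin 2) ℤ)
  invFun v := v ᵥ* ((A⁻¹ : SL(2, ℤ)) : Matrix (Fin 2) (Fin 2) ℤ)
  left_inv v := by
    simp only [Matrix.vecMul_vecMul, ← Matrix.SpecialLinearGroup.coe_mul, mul_inv_cancel,
      Matrix.SpecialLinearGroup.coe_one, Matrix.vecMul_one]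
  right_inv v := by
    simp only [Matrix.vecMul_vecMul, ← Matrix.SpecialLinearGroup.coe_mul, inv_mul_cancel,
      Matrix.SpecialLinearGroup.coe_one, Matrix.vecMul_one]

/-- The series has weight four, with the set of classes moved. -/
theorem gSum_smul (S : Set (Fin 2 → ZMod N)) (A : SL(2, ℤ)) (z : ℍ) :
    gSum S (A • z) = denom A z ^ (4 : ℤ) * gSum (actS A S) z := by
  simp only [gSum, gTerm_smul]
  rw [tsum_mul_left]
  congr 1
  exact (vecMulEquiv A).tsum_eq (gTerm (actS A S) z)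

/-- The series of weight four is holomorphic. -/
theorem mdiff_gSum (S : Set (Fin 2 → ZMod N)) : MDiff (gSum S) := by
  refine mdiff_of_analyticAt_ext fun z => ?_
  have hz0 : 0 < (z : ℂ).im := z.im_pos
  set U : Set ℂ := {w | |w.re| < |(z : ℂ).re| + 1 ∧ (z : ℂ).im / 2 < w.im} with hU
  have hUo : IsOpen U := (isOpen_lt (continuous_abs.comp Complex.continuous_re)
    continuous_const).inter
    (isOpen_lt continuous_const Complex.continuous_im)
  have hzU : (z : ℂ) ∈ U := ⟨by linarith, by linarith⟩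
  have hUpos : ∀ w ∈ U, 0 < w.im := fun w hw => by linarith [hw.2]
  set p₀ : ℍ := ⟨⟨|(z : ℂ).re| + 1, (z : ℂ).im / 2⟩, by simpa using half_pos z.im_pos⟩
  have hu : Summable fun v : Fin 2 → ℤ => r p₀ ^ (-(4 : ℝ)) * ‖v‖ ^ (-(4 : ℝ)) :=
    (summable_one_div_norm_rpow (by norm_num : (2 : ℝ) < 4)).mul_left _
  have hd : DifferentiableOn ℂ (fun w : ℂ => ∑' v : Fin 2 → ℤ, gTerm S (ofComplex w) v) U := by
    refine differentiableOn_tsum_of_summable_norm hu (fun v => ?_) hUo fun v w hw => ?_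
    · by_cases h : ((↑) : ℤ → ZMod N) ∘ v ∈ S
      · refine ((eisSummand_extension_differentiableOn 4 v).mono fun w hw => hUpos w hw).congr
          fun w _ => ?_
        simp [gTerm, h]
      · refine (differentiableOn_const (0 : ℂ)).congr fun w _ => ?_
        simp [gTerm, h]
    · refine (norm_gTerm_le S _ v).trans ?_
      rw [ofComplex_apply_of_im_pos (hUpos w hw), eisSummand, norm_zpow]
      have := summand_bound_of_mem_verticalStrip (z := ⟨w, hUpos w hw⟩)
        (by norm_num : (0 : ℝ) ≤ 4) v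
        (half_pos z.im_pos) (A := |(z : ℂ).re| + 1) ⟨hw.1.le, hw.2.le⟩
      exact_mod_cast this
  exact hd.analyticAt (hUo.mem_nhds hzU)

/-- `Γ(N)` fixes every set of classes. -/
lemma actS_of_map_eq_one {A : SL(2, ℤ)} (hA : A ∈ CongruenceSubgroup.Gamma N)
    (S : Set (Fin 2 → ZMod N)) : actS A S = S := by
  ext w
  obtain ⟨h00, h01, h10, h11⟩ := CongruenceSubgroup.Gamma_mem.mp (inv_mem hA)
  rw [actS, Set.mem_ofPred_eq, show (((A⁻¹ : SL(2, ℤ)) : Matrix (Fin 2) (Fin 2) ℤ).map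
    ((↑) : ℤ → ZMod N)) = 1 from by
      ext i j
      rw [Matrix.map_apply]
      fin_cases i <;> fin_cases j <;> first | exact h00 | exact h01 | exact h10 | exact h11,
    Matrix.vecMul_one]

/-- The series of weight four is bounded at `∞`. -/
theorem isBoundedAtImInfty_gSum [NeZero N] (S : Set (Fin 2 → ZMod N)) :
    IsBoundedAtImInfty (gSum S) := by
  rw [UpperHalfPlane.isBoundedAtImInfty_iff]
  set p₀ : ℍ := ⟨⟨N, 2⟩, Nat.ofNat_pos⟩
  refine ⟨∑' v : Fin 2 → ℤ, r p₀ ^ (-(4 : ℝ)) * ‖v‖ ^ (-(4 : ℝ)), 2, fun z hz => ?_⟩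
  obtain ⟨n, hn⟩ := ModularGroup_T_zpow_mem_verticalStrip z (NeZero.pos N)
  have hmem : ModularGroup.T ^ ((N : ℤ) * n) ∈ CongruenceSubgroup.Gamma N := by
    have h := CongruenceSubgroup.ModularGroup_T_pow_mem_Gamma (N : ℤ) ((N : ℤ) * n)
      (dvd_mul_right _ _)
    rwa [Int.natAbs_natCast] at h
  have hper : gSum S z = gSum S (ModularGroup.T ^ ((N : ℤ) * n) • z) := by
    rw [gSum_smul, actS_of_map_eq_one hmem]
    have hT := ModularGroup.coe_T_zpow ((N : ℤ) * n)
    generalize ModularGroup.T ^ ((N : ℤ) * n) = A at hT ⊢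
    simp [denom, hT]
  rw [hper]
  have hu : Summable fun v : Fin 2 → ℤ => r p₀ ^ (-(4 : ℝ)) * ‖v‖ ^ (-(4 : ℝ)) :=
    (summable_one_div_norm_rpow (by norm_num : (2 : ℝ) < 4)).mul_left _
  refine tsum_of_norm_bounded hu.hasSum fun v => ?_
  refine (norm_gTerm_le S _ v).trans ?_
  rw [eisSummand, norm_zpow]
  exact_mod_cast summand_bound_of_mem_verticalStrip (by norm_num : (0 : ℝ) ≤ 4) v two_pos
    (verticalStrip_anti_right N hz hn)

/-- The vectors whose first class lies in `U`. -/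
def rowSet (U : Set (ZMod N)) : Set (Fin 2 → ZMod N) := {w | w 0 ∈ U}

open Classical in
/-- The coefficients of the normalised series of `rowSet U`. -/
def eisCoeff (U : Set (ZMod N)) (n : ℕ) : ℕ :=
  ∑ x ∈ n.divisorsAntidiagonal, if (x.1 : ZMod N) ∈ U then x.2 ^ 3 else 0

/-- The normalising constant. -/
def gConst : ℂ := 2 * ((-2 * π * I) ^ 4 / 6)

/-- The normalising constant is nonzero. -/
lemma gConst_ne_zero : gConst ≠ 0 := by
  simp [gConst, Real.pi_ne_zero, I_ne_zero]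

open Classical in
/-- The normalised series of a symmetric set of residues has the integral expansion `eisCoeff`. -/
lemma hasSum_gSum {U : Set (ZMod N)} (h0 : (0 : ZMod N) ∉ U)
    (hneg : ∀ u ∈ U, -u ∈ U) (z : ℍ) :
    HasSum (fun n : ℕ => (eisCoeff U n : ℂ) * cexp (2 * π * I * z) ^ n)
      (gSum (rowSet U) z / gConst) := by
  set q := cexp (2 * π * I * z) with hq
  have hq1 : ‖q‖ < 1 := norm_exp_two_pi_I_lt_one z
  -- the sum over rows
  have hsum2 : Summable fun x : ℤ × ℤ => gTerm (rowSet U) z ![x.1, x.2] := by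
    refine (finTwoArrowEquiv ℤ).summable_iff.mp <| (summable_gTerm (rowSet U) z).congr fun v => ?_
    simp [show ![v 0, v 1] = v from List.ofFn_inj.mp rfl]
  have e1 : gSum (rowSet U) z = ∑' M : ℤ, ∑' n : ℤ, gTerm (rowSet U) z ![M, n] := by
    rw [gSum, ← (finTwoArrowEquiv ℤ).symm.tsum_eq, finTwoArrowEquiv_symm_apply,
      Summable.tsum_prod hsum2]
  have hrow : ∀ M : ℤ, ∑' n : ℤ, gTerm (rowSet U) z ![M, n] =
      if (M : ZMod N) ∈ U then ∑' n : ℤ, eisSummand 4 ![M, n] z else 0 := by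
    intro M
    have : ∀ n : ℤ, (((↑) : ℤ → ZMod N) ∘ ![M, n] ∈ rowSet U) ↔ (M : ZMod N) ∈ U := fun n => by
      simp [rowSet]
    unfold gTerm
    by_cases h : (M : ZMod N) ∈ U
    · simp only [this, if_pos h]
    · simp only [this, if_neg h, tsum_zero]
  set F : ℤ → ℂ := fun M => if (M : ZMod N) ∈ U then ∑' n : ℤ, eisSummand 4 ![M, n] z else 0
    with hF
  have hFsum : Summable F := hsum2.prod.congr hrow
  have hFneg : ∀ M : ℤ, F (-M) = F M := by
    intro M
    have hiff : ((-M : ℤ) : ZMod N) ∈ U ↔ (M : ZMod N) ∈ U := by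
      rw [Int.cast_neg]
      exact ⟨fun h => by simpa using hneg _ h, hneg _⟩
    simp only [hF, hiff]
    split_ifs
    · nth_rewrite 1 [← tsum_comp_neg]
      exact tsum_congr fun y => by
        simp [eisSummand, ← neg_add _ (y : ℂ), -neg_add_rev, (show Even 4 from ⟨2, rfl⟩).neg_pow]
    · rfl
  have e2 : gSum (rowSet U) z = 2 * ∑' M : ℕ+, F M := by
    rw [e1, tsum_congr hrow, ← hF, tsum_int_eq_zero_add_two_mul_tsum_pnat hFneg hFsum,
      show F 0 = 0 from if_neg (by simpa using h0), zero_add, nsmul_eq_mul]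
    norm_num
  -- each row
  have e3 : ∀ M : ℕ+, F M = ((-2 * π * I) ^ 4 / 6) *
      ∑' r : ℕ+, if ((M : ℕ) : ZMod N) ∈ U then ((r : ℕ) : ℂ) ^ 3 * q ^ ((M : ℕ) * r : ℕ)
        else 0 := by
    intro M
    simp only [hF, Int.cast_natCast]
    split_ifs with h
    · have H := qExpansion_identity_pnat (k := 3) (by norm_num)
        ⟨(M : ℕ) * z, by simpa using z.2⟩
      norm_num at H
      have e : ∀ n : ℤ, eisSummand 4 ![((M : ℕ) : ℤ), n] z =
          (((M : ℕ) : ℂ) * z + (n : ℂ))⁻¹ ^ 4 := fun n => by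
        simp [eisSummand, zpow_neg]
      rw [tsum_congr e]
      simp only [inv_pow]
      rw [H]
      norm_num [Nat.factorial]
      congr 1
      funext r
      rw [hq, ← Complex.exp_nat_mul, ← Complex.exp_nat_mul]
      push_cast
      ring_nf
    · simp
  set G : ℕ+ × ℕ+ → ℂ := fun x =>
    if ((x.1 : ℕ) : ZMod N) ∈ U then ((x.2 : ℕ) : ℂ) ^ 3 * q ^ ((x.1 : ℕ) * x.2 : ℕ) else 0 with hG
  have hGsum : Summable G := by
    refine Summable.of_norm_bounded (f := G) (summable_prod_mul_pow (𝕜 := ℂ) 3 hq1).norm fun x => ?_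
    simp only [hG]
    split_ifs
    · exact le_rfl
    · simp
  have e4 : gSum (rowSet U) z / gConst = ∑' x : ℕ+ × ℕ+, G x := by
    rw [Summable.tsum_prod hGsum, e2, tsum_congr e3, tsum_mul_left, gConst]
    field_simp
    simp only [hG]
  rw [e4]
  have hsig : HasSum (fun n : ℕ+ => (eisCoeff U n : ℂ) * q ^ (n : ℕ)) (∑' x : ℕ+ × ℕ+, G x) := by
    refine HasSum.sigma (f := G ∘ sigmaAntidiagonalEquivProd)
      (sigmaAntidiagonalEquivProd.hasSum_iff.mpr hGsum.hasSum) fun n => ?_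
    convert hasSum_fintype _ using 1
    rw [eisCoeff, Nat.cast_sum, Finset.sum_mul, Finset.univ_eq_attach,
      ← Finset.sum_attach (n : ℕ).divisorsAntidiagonal]
    refine Finset.sum_congr rfl fun x _ => ?_
    simp only [comp_apply, hG, sigmaAntidiagonalEquivProd, Equiv.coe_fn_mk,
      divisorsAntidiagonalFactors, PNat.mk_coe, (Nat.mem_divisorsAntidiagonal.mp x.2).1]
    split_ifs <;> simp
  have h := (hasSum_pnat_iff (f := fun n : ℕ => (eisCoeff U n : ℂ) * q ^ n)).mp hsig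
  rwa [show ((eisCoeff U 0 : ℂ) * q ^ 0) = 0 by simp [eisCoeff], add_zero] at h

end Fermat.MC.Lvl

end
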