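import Fermat.Agent.MC.Lvl.LevelH
import Fermat.Agent.MC.Lvl.Eis4

/-!
# A separating function with rational q-series for `Γ_H(N)`

`exists_gen_GammaH`, from the series of `Eis4`. With it `Γ_H(N)` has the function field of `Field`,
used in `JAC/XH` and `RED/Full`.
-/

set_option autoImplicit false

noncomputable section

open Filter Function
open UpperHalfPlane hiding I
open CongruenceSubgroup
open ModularCurve (coeffEmb qExpand jq)
open scoped Manifold MatrixGroups

local notation "Δ" => ModularForm.discriminant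

namespace Fermat.MC.Lvl

/-- `(E₄ E₆ / Δ) ^ 2`, of weight `-4`. -/
def wFour : ℍ → ℂ := fun z => (E46 z / Δ z) ^ 2

/-- `wFour` has weight `-4`. -/
lemma wFour_smul (γ : SL(2, ℤ)) (z : ℍ) :
    wFour (γ • z) = (denom γ z ^ (4 : ℤ))⁻¹ * wFour z := by
  have hD : Δ (γ • z) = denom γ z ^ (12 : ℤ) * Δ z :=
    smul_eq_denom_zpow CuspForm.discriminant γ z
  have hd := denom_ne_zero γ z
  simp only [wFour, E46_smul, hD]
  rw [show denom γ z ^ (10 : ℤ) * E46 z / (denom γ z ^ (12 : ℤ) * Δ z) =
    (denom γ z ^ (2 : ℤ))⁻¹ * (E46 z / Δ z) by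
      rw [show (12 : ℤ) = 10 + 2 from rfl, zpow_add₀ hd]
      field_simp, mul_pow, inv_pow, ← zpow_natCast (denom γ z ^ (2 : ℤ)) 2, ← zpow_mul]
  norm_num

/-- `wFour` is holomorphic. -/
lemma mdiff_wFour : MDiff wFour :=
  mdiff_E46_div.pow 2

/-- `wFour` has exponential growth. -/
lemma expGrowth_wFour : ExpGrowth wFour := by
  have h := expGrowth_E46_div.mul expGrowth_E46_div
  rwa [show ((fun z => E46 z / Δ z) * fun z => E46 z / Δ z) = wFour from
    funext fun z => (pow_two _).symm] at h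

variable {N : ℕ}

/-- The normalised series attached to a set of classes of first entries. -/
def gN (U : Set (ZMod N)) : ℍ → ℂ := fun z => gSum (rowSet U) z * gConst⁻¹

/-- The rational power series of `gN U`. -/
def gQ (U : Set (ZMod N)) : LaurentSeries ℚ :=
  HahnSeries.ofPowerSeries ℤ ℚ (PowerSeries.mk fun n => (eisCoeff U n : ℚ))

section Series

variable [NeZero N] {U : Set (ZMod N)} (h0 : (0 : ZMod N) ∉ U) (hneg : ∀ u ∈ U, -u ∈ U)

/-- The normalised series is periodic and bounded at `∞`. -/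
lemma bddPer_gN : BddPer (gN U) := by
  refine ⟨(mdiff_gSum _).mul mdifferentiable_const, ?_, ?_⟩
  · refine ext_add_one _ fun z => ?_
    simp only [gN]
    congr 1
    rw [gSum_smul, show actS ModularGroup.T (rowSet U) = rowSet U from ?_]
    · simp [denom, ModularGroup.coe_T]
    · ext w
      simp [actS, rowSet, Matrix.vecMul, dotProduct, Fin.sum_univ_two, ModularGroup.coe_T,
        Matrix.SpecialLinearGroup.coe_inv, Matrix.adjugate_fin_two]
  · exact ((isBoundedAtImInfty_gSum (rowSet U)).const_mul_left gConst⁻¹).congr_left fun z =>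
      mul_comm _ _

include h0 hneg

/-- The expansion of `gN` is the rational series `gQ`. -/
lemma qS_gN : qS (gN U) = coeffEmb ℂ (gQ U) := by
  have hb := bddPer_gN (U := U)
  have hper : Periodic ((gN U) ∘ ofComplex) ((1 : ℝ) : ℂ) := by exact_mod_cast hb.2.1
  have h1 := (hasFPowerSeriesOnBall_cuspFunction one_pos hb.analyticAt fun τ => by
    have h := hasSum_gSum h0 hneg τ
    simpa [Periodic.qParam, smul_eq_mul, gN, div_eq_mul_inv] using h : HasFPowerSeriesOnBall _
      (FormalMultilinearSeries.ofScalars ℂ fun n => ((eisCoeff U n : ℂ))) 0 1).hasFPowerSeriesAt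
  have h2 := (hasFPowerSeriesOnBall_cuspFunction one_pos hb.analyticAt
    (hasSum_qExpansion one_pos hper hb.1 hb.2.2)).hasFPowerSeriesAt
  ext k
  rcases lt_or_ge k 0 with hk | hk
  · simp [qS, gQ, ModularCurve.coeffEmb_coeff, ModularCurve.ofPowerSeries_coeff_of_neg _ hk]
  lift k to ℕ using hk
  have h := congrArg (fun p => FormalMultilinearSeries.coeff p k)
    (h1.eq_formalMultilinearSeries h2)
  simp only [FormalMultilinearSeries.coeff_ofScalars] at h
  simp [qS, gQ, ModularCurve.coeffEmb_coeff, HahnSeries.ofPowerSeries_apply_coeff, ← h]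

end Series

/-- The first entries `u` with `u * d` in `H`. -/
def hSet (H : Subgroup (ZMod N)ˣ) (d : ZMod N) : Set (ZMod N) :=
  {u | u * d ∈ Units.val '' (H : Set (ZMod N)ˣ)}

variable {H : Subgroup (ZMod N)ˣ}

/-- `hSet H d` does not contain zero. -/
lemma zero_not_mem_hSet (h1 : 1 < N) (d : ZMod N) : (0 : ZMod N) ∉ hSet H d := by
  rintro ⟨u, -, hu⟩
  have : Fact (1 < N) := ⟨h1⟩
  exact u.ne_zero (by rw [hu, zero_mul])

/-- The classes are symmetric. -/
lemma neg_mem_hSet [NegMem H] {d u : ZMod N} (hu : u ∈ hSet H d) : -u ∈ hSet H d := by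
  obtain ⟨v, hv, hv'⟩ := hu
  exact ⟨-1 * v, mul_mem NegMem.neg_one_mem hv, by simp [hv']⟩

/-- `Γ₀(N)` moves the classes by its lower right entry. -/
lemma actS_rowSet_hSet {γ : SL(2, ℤ)} (hγ : γ ∈ Gamma0 N) (d : ZMod N) :
    actS γ (rowSet (hSet H d)) = rowSet (hSet H (d * ((γ 1 1 : ℤ) : ZMod N))) := by
  ext w
  rw [Gamma0_mem] at hγ
  simp [actS, rowSet, hSet, Matrix.vecMul, dotProduct, Fin.sum_univ_two,
    Matrix.SpecialLinearGroup.coe_inv, Matrix.adjugate_fin_two, hγ]
  ring_nf

/-- The weight zero function attached to `hSet H d`. -/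
def gW (H : Subgroup (ZMod N)ˣ) (d : ZMod N) : ℍ → ℂ := fun z => gN (hSet H d) z * wFour z

/-- `Γ₀(N)` permutes the functions `gW`. -/
lemma gW_smul [NeZero N] {γ : SL(2, ℤ)} (hγ : γ ∈ Gamma0 N) (d : ZMod N) (z : ℍ) :
    gW H d (γ • z) = gW H (d * ((γ 1 1 : ℤ) : ZMod N)) z := by
  simp only [gW, gN, gSum_smul, wFour_smul, actS_rowSet_hSet hγ]
  field_simp [denom_ne_zero γ z]

/-- `gW` depends only on the class modulo `H`. -/
lemma gW_mul_of_mem {d u : ZMod N} (hu : u ∈ Units.val '' (H : Set (ZMod N)ˣ)) :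
    gW H (d * u) = gW H d := by
  obtain ⟨u, hu, rfl⟩ := hu
  have : hSet H (d * (u : ZMod N)) = hSet H d := by
    ext x
    constructor
    · rintro ⟨v, hv, hv'⟩
      exact ⟨v * u⁻¹, mul_mem hv (inv_mem hu), by
        rw [Units.val_mul, hv', ← mul_assoc, Units.mul_inv_cancel_right]⟩
    · rintro ⟨v, hv, hv'⟩
      exact ⟨v * u, mul_mem hv hu, by rw [Units.val_mul, hv', mul_assoc]⟩
  funext z
  simp [gW, this]

/-- `gW` is a modular function of level `Γ_H(N)`. -/
lemma gW_mem_W [NeZero N] (d : ZMod N) : gW H d ∈ W (GammaH N H) := by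
  refine ⟨((mdiff_gSum _).mul mdifferentiable_const).mul mdiff_wFour,
    fun γ hγ => funext fun z => ?_,
    fun γ => ?_⟩
  · obtain ⟨h0, hd⟩ := mem_GammaH_iff_coe.mp hγ
    rw [compSL_apply, gW_smul h0, gW_mul_of_mem hd]
  · have e : compSL γ (gW H d) =
        (fun z => gSum (actS γ (rowSet (hSet H d))) z) * (fun _ => gConst⁻¹) * wFour := by
      funext z
      simp only [compSL_apply, gW, gN, gSum_smul, wFour_smul, Pi.mul_apply]
      field_simp [denom_ne_zero γ z]
    rw [e]
    exact ((ExpGrowth.of_isBoundedAtImInfty (isBoundedAtImInfty_gSum _)).mul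
      (.const _)).mul expGrowth_wFour

/-- The expansion of `gW`. -/
lemma qW_gW [NeZero N] (h1 : 1 < N) [NegMem H] (d : ZMod N) :
    qW (GammaH N H) ⟨gW H d, gW_mem_W d⟩ = coeffEmb ℂ (gQ (hSet H d) * xiQ ^ 2) := by
  have hg := bddPer_gN (U := hSet H d)
  have h : gW H d * Δ ^ 2 = gN (hSet H d) * E46 ^ 2 := by
    funext z
    simp only [gW, wFour, Pi.mul_apply, Pi.pow_apply, div_pow, mul_assoc]
    rw [div_mul_cancel₀ _ (pow_ne_zero _ (ModularForm.discriminant_ne_zero z))]
  have hb : IsBoundedAtImInfty (gW H d * Δ ^ 2) := by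
    rw [h]; exact (hg.mul (bddPer_E46.pow 2)).2.2
  rw [qW_apply, qL_apply _ hb, h, qS_mul hg (bddPer_E46.pow 2), qS_pow bddPer_E46,
    qS_gN (zero_not_mem_hSet h1 d) (fun u hu => neg_mem_hSet hu), map_mul, map_pow,
    ← qS_E46_div, div_pow, mul_div_assoc]

open Classical in
/-- The coefficients determine the set of residues. -/
lemma eisCoeff_injective [NeZero N] {U U' : Set (ZMod N)}
    (h : ∀ n, eisCoeff U n = eisCoeff U' n) : U = U' := by
  have key : ∀ n : ℕ, 0 < n → ((n : ZMod N) ∈ U ↔ (n : ZMod N) ∈ U') := by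
    intro n
    induction n using Nat.strong_induction_on with
    | _ n ih =>
      intro hn
      have hmem : (n, 1) ∈ n.divisorsAntidiagonal := by simp [hn.ne']
      have h' := h n
      rw [eisCoeff, eisCoeff, ← Finset.add_sum_erase _ _ hmem, ← Finset.add_sum_erase _ _ hmem,
        Finset.sum_congr rfl fun x hx => ?_] at h'
      rotate_left
      · exact fun x => if (x.1 : ZMod N) ∈ U' then x.2 ^ 3 else 0
      · obtain ⟨hne, hx⟩ := Finset.mem_erase.mp hx
        obtain ⟨hprod, -⟩ := Nat.mem_divisorsAntidiagonal.mp hx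
        have hx1 : 0 < x.1 := Nat.pos_of_ne_zero fun h0 => by simp [h0] at hprod; omega
        have hlt : x.1 < n := by
          refine lt_of_le_of_ne (Nat.le_of_dvd hn ⟨x.2, hprod.symm⟩) fun heq => hne ?_
          have hx2 : x.2 = 1 := mul_left_cancel₀ hn.ne'
            (show n * x.2 = n * 1 by rw [mul_one]; exact heq ▸ hprod)
          exact Prod.ext heq hx2
        simp only [ih x.1 hlt hx1]
      simp only [one_pow, add_left_inj] at h'
      by_cases hU : (n : ZMod N) ∈ U <;> by_cases hU' : (n : ZMod N) ∈ U' <;> simp_all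
  ext u
  have hu := key (u.val + N) (by have := NeZero.pos N; omega)
  simpa using hu

/-- An element of `Γ₀(N)` fixing the generator lies in `Γ_H(N)`. -/
lemma mem_of_gW_eq [NeZero N] (h1 : 1 < N) [NegMem H] {γ : SL(2, ℤ)} (hγ : γ ∈ Gamma0 N)
    (h : compSL γ (gW H 1) = gW H 1) : γ ∈ GammaH N H := by
  have h' : gW H (1 * ((γ 1 1 : ℤ) : ZMod N)) = gW H 1 := by
    rw [← h]; funext z; exact (gW_smul hγ 1 z).symm
  rw [one_mul] at h'
  have hq := congrArg (qW (GammaH N H))
    (show (⟨_, gW_mem_W _⟩ : W (GammaH N H)) = ⟨_, gW_mem_W 1⟩ from Subtype.ext h')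
  rw [qW_gW h1, qW_gW h1] at hq
  have hq' := mul_right_cancel₀ (pow_ne_zero 2 xiQ_ne_zero) (coeffEmb_injective hq)
  have hc : ∀ n, eisCoeff (hSet H ((γ 1 1 : ℤ) : ZMod N)) n = eisCoeff (hSet H 1) n := fun n => by
    have := congrArg (fun x => HahnSeries.coeff x (n : ℤ)) hq'
    simpa [gQ, HahnSeries.ofPowerSeries_apply_coeff] using this
  have hset := eisCoeff_injective hc
  have h1' : (1 : ZMod N) ∈ hSet H 1 := ⟨1, one_mem H, by simp⟩
  rw [← hset, hSet, Set.mem_ofPred_eq, one_mul] at h1'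
  exact mem_GammaH_iff_coe.mpr ⟨hγ, h1'⟩

/-- `j (N τ)` is a modular function of level `Γ_H(N)`. -/
lemma jN_mem_W_GammaH [NeZero N] : jN N ∈ W (GammaH N H) :=
  W_anti (G := Gamma0 N) GammaH_le_Gamma0 (jN_mem_W N)

/-- The candidates for a separating function. -/
def genCand (H : Subgroup (ZMod N)ˣ) [NeZero N] (t : ℕ) : W (GammaH N H) :=
  (⟨gW H 1, gW_mem_W 1⟩ : W (GammaH N H)) + t • (⟨jN N, jN_mem_W_GammaH⟩ : W (GammaH N H))

/-- The candidate as a function. -/
lemma coe_genCand [NeZero N] (t : ℕ) (z : ℍ) :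
    (genCand H t : ℍ → ℂ) z = gW H 1 z + t * jN N z := by
  simp [genCand, nsmul_eq_mul]

/-- A combination of the candidates separates the cosets. -/
lemma exists_genCand [NeZero N] (h1 : 1 < N) [NegMem H] :
    ∃ t : ℕ, Injective fun q => conjHom (GammaH N H) q (genCand H t) := by
  set B : Set ℕ := ⋃ q : Coset (GammaH N H), {t | compSL q.out (jN N) ≠ jN N ∧
    compSL q.out (genCand H t : ℍ → ℂ) = genCand H t}
  -- For each coset moving `j (N ·)` at most one `t` fixes the candidate; avoid them all.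
  have hB : B.Finite := by
    refine Set.finite_iUnion fun q => Set.Subsingleton.finite fun t ⟨hne, ht⟩ t' ⟨_, ht'⟩ => ?_
    by_contra htt
    refine hne (funext fun z => ?_)
    have e1 := congrFun ht z
    have e2 := congrFun ht' z
    simp only [compSL_apply, coe_genCand] at e1 e2 ⊢
    have htt' : (t : ℂ) - t' ≠ 0 := sub_ne_zero.mpr (by exact_mod_cast htt)
    refine mul_left_cancel₀ htt' ?_
    linear_combination e1 - e2
  obtain ⟨t, ht⟩ := hB.exists_notMem
  refine ⟨t, fun q q' hqq => ?_⟩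
  induction q using QuotientGroup.induction_on with
  | H γ =>
  induction q' using QuotientGroup.induction_on with
  | H γ' =>
    simp only [conjHom_mk] at hqq
    apply QuotientGroup.eq.mpr
    have h' := congrArg (compHom γ') hqq
    rw [← compHom_mul, ← compHom_mul, inv_mul_cancel, compHom_one] at h'
    have hinv : compSL (γ⁻¹ * γ') (genCand H t : ℍ → ℂ) = genCand H t :=
      congrArg Subtype.val h'
    obtain ⟨h, hh⟩ := QuotientGroup.mk_out_eq_mul (GammaH N H) (γ⁻¹ * γ')
    set δ := (((γ⁻¹ * γ' : SL(2, ℤ))) : Coset (GammaH N H)).out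
    have hδ : compSL δ (genCand H t : ℍ → ℂ) = genCand H t := by
      rw [hh, compSL_mul, hinv]
      exact (genCand H t).2.2.1 _ h.2
    suffices hδmem : δ ∈ GammaH N H by
      rw [show γ⁻¹ * γ' = δ * (h : SL(2, ℤ))⁻¹ by rw [hh]; group]
      exact mul_mem hδmem (inv_mem h.2)
    -- If `δ` fixes `j (N ·)` it fixes `gW`, so lies in `Γ_H(N)`; otherwise `t` would be in `B`.
    by_cases hj : compSL δ (jN N) = jN N
    · have h0 := mem_Gamma0_of_compSL_jN_eq N hj
      refine mem_of_gW_eq h1 h0 (funext fun z => ?_)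
      have e1 := congrFun hδ z
      have e2 := congrFun hj z
      simp only [compSL_apply, coe_genCand] at e1 e2 ⊢
      linear_combination e1 - (t : ℂ) * e2
    · exact absurd (show t ∈ B from Set.mem_iUnion_of_mem
        ((γ⁻¹ * γ' : SL(2, ℤ)) : Coset (GammaH N H)) ⟨hj, hδ⟩) ht

/-- `Γ_H(N)` has a separating function with rational series. -/
theorem exists_gen_GammaH [NeZero N] [NegMem H] : ∃ (g : W (GammaH N H)) (r : LaurentSeries ℚ),
    qW (GammaH N H) g = coeffEmb ℂ r ∧ Injective fun q => conjHom (GammaH N H) q g := by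
  by_cases h1 : 1 < N
  · obtain ⟨t, ht⟩ := exists_genCand (H := H) h1
    refine ⟨genCand H t, gQ (hSet H 1) * xiQ ^ 2 + t • qExpand ℚ N jq, ?_, ht⟩
    rw [genCand, map_add, map_nsmul, qW_gW h1, map_add, map_nsmul]
    congr 2
    exact qW_jN N
  · have hN : N = 1 := by have := NeZero.pos N; omega
    subst hN
    refine ⟨jW _, jq, qW_jW _, fun q q' _ => ?_⟩
    induction q using QuotientGroup.induction_on with
    | H γ =>
    induction q' using QuotientGroup.induction_on with
    | H γ' =>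
      refine QuotientGroup.eq.mpr (mem_GammaH.mpr ⟨by simp [Gamma0_one], ?_⟩)
      rw [Subsingleton.elim (gamma0Units 1 _) 1]
      exact one_mem H

/-- The chosen separating function of `Γ_H(N)`. -/
instance levelGen_GammaH [NeZero N] [NegMem H] : LevelGen (GammaH N H) where
  gen := (exists_gen_GammaH (H := H)).choose
  genSeries := (exists_gen_GammaH (H := H)).choose_spec.choose
  qW_gen := (exists_gen_GammaH (H := H)).choose_spec.choose_spec.1
  gen_injective := (exists_gen_GammaH (H := H)).choose_spec.choose_spec.2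

end Fermat.MC.Lvl

end
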