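import Fermat.Agent.MC.Lvl.Separating
import Fermat.Agent.MC.Lvl.Generator

/-!
# Diamond operators on the function field of `X_H(N)`

`diamondHom` is trivial on `H` and commutes with the action on coefficients; it gives the diamond
operators of `JAC/XH` and of the reductions in `RED/Full`.
-/

set_option autoImplicit false

noncomputable section

open Function
open CongruenceSubgroup
open UpperHalfPlane hiding I
open ModularCurve (coeffEmb coeffMap qExpand jq)
open scoped MatrixGroups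

namespace Fermat.MC.Lvl

/-- `f ↦ f ∘ δ` for `δ` normalising `G`. -/
def normW {G : Subgroup SL(2, ℤ)} {δ : SL(2, ℤ)} (hconj : ∀ γ ∈ G, δ * γ * δ⁻¹ ∈ G) :
    W G →ₐ[ℂ] W G where
  toFun f := ⟨compSL δ (f : ℍ → ℂ), mdiff_compSL δ f.2.1, fun γ hγ => by
    rw [← compSL_mul, show δ * γ = δ * γ * δ⁻¹ * δ by rw [inv_mul_cancel_right], compSL_mul,
      f.2.2.1 _ (hconj γ hγ)], fun γ => by rw [← compSL_mul]; exact f.2.2.2 _⟩
  map_one' := rfl
  map_mul' _ _ := rfl
  map_zero' := rfl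
  map_add' _ _ := rfl
  commutes' _ := rfl

/-- Translation is injective. -/
lemma normW_injective {G : Subgroup SL(2, ℤ)} {δ : SL(2, ℤ)}
    (hconj : ∀ γ ∈ G, δ * γ * δ⁻¹ ∈ G) : Injective (normW hconj) := fun f g h =>
  toFull_injective G (compHom_injective δ
    (a₁ := toFull G f) (a₂ := toFull G g) (Subtype.ext (congrArg Subtype.val h :)))

/-- Translation keeps the expansion of `j`. -/
lemma qW_normW_jW {G : Subgroup SL(2, ℤ)} [LevelBase G] {δ : SL(2, ℤ)}
    (hconj : ∀ γ ∈ G, δ * γ * δ⁻¹ ∈ G) : qW G (normW hconj (jW G)) = coeffEmb ℂ jq :=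
  (congrArg (qW G) (Subtype.ext (funext fun z => jA_smul δ z))).trans (qW_jW G)

variable {N : ℕ} [NeZero N] {H : Subgroup (ZMod N)ˣ} [NegMem H]

/-- The expansion of `gW` plus a multiple of `j (N τ)`. -/
lemma qW_gW_add (h1 : 1 < N) (d : ZMod N) (t : ℕ) :
    qW (GammaH N H) ((⟨gW H d, gW_mem_W d⟩ : W (GammaH N H)) + t • ⟨jN N, jN_mem_W_GammaH⟩) =
      coeffEmb ℂ (gQ (hSet H d) * xiQ ^ 2 + t • qExpand ℚ N jq) := by
  rw [map_add, map_nsmul, qW_gW h1, map_add, map_nsmul]
  exact congrArg (fun x => _ + t • x) (qW_jN N)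

/-- The expansion of the candidate generator. -/
lemma qW_genCand (h1 : 1 < N) (t : ℕ) :
    qW (GammaH N H) (genCand H t) =
      coeffEmb ℂ (gQ (hSet H 1) * xiQ ^ 2 + t • qExpand ℚ N jq) := qW_gW_add h1 1 t

omit [NegMem H] in
/-- The translate of the candidate generator. -/
lemma normW_genCand {δ : SL(2, ℤ)} (hδ : δ ∈ Gamma0 N)
    (hconj : ∀ γ ∈ GammaH N H, δ * γ * δ⁻¹ ∈ GammaH N H) (t : ℕ) :
    normW hconj (genCand H t) = (⟨gW H ((δ 1 1 : ℤ) : ZMod N), gW_mem_W _⟩ : W (GammaH N H)) +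
      t • ⟨jN N, jN_mem_W_GammaH⟩ := by
  refine Subtype.ext (funext fun z => ?_)
  change compSL δ (genCand H t : ℍ → ℂ) z = _
  rw [compSL_apply, coe_genCand, gW_smul hδ, one_mul, jN_smul N hδ]
  simp [nsmul_eq_mul]

/-- The expansion of the translate. -/
lemma qW_normW_genCand (h1 : 1 < N) {δ : SL(2, ℤ)} (hδ : δ ∈ Gamma0 N)
    (hconj : ∀ γ ∈ GammaH N H, δ * γ * δ⁻¹ ∈ GammaH N H) (t : ℕ) :
    qW (GammaH N H) (normW hconj (genCand H t)) =
      coeffEmb ℂ (gQ (hSet H ((δ 1 1 : ℤ) : ZMod N)) * xiQ ^ 2 + t • qExpand ℚ N jq) := by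
  rw [normW_genCand hδ, qW_gW_add h1]

attribute [local instance 10000] SubalgebraClass.toAlgebra HahnSeries.powerSeriesAlgebra

/-- `Γ₀(N)` normalises `Γ_H(N)` and preserves rationality at the cusp `∞`. -/
theorem ratNormal_Gamma0 {δ : SL(2, ℤ)} (hδ : δ ∈ Gamma0 N) : RatNormal (GammaH N H) δ := by
  have hconj : ∀ γ ∈ GammaH N H, δ * γ * δ⁻¹ ∈ GammaH N H := fun γ hγ => conj_mem_GammaH hδ hγ
  refine ⟨hconj, ?_⟩
  by_cases h1 : 1 < N
  · obtain ⟨t, ht⟩ := exists_genCand (H := H) h1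
    obtain ⟨r, hr⟩ := exists_rat_gen (normW hconj) (normW_injective hconj)
      ⟨jq, qW_normW_jW hconj⟩ (genCand H t) _ (qW_genCand h1 t) ht
      ⟨_, qW_normW_genCand h1 hδ hconj t⟩
    exact ⟨r, fun _ => hr⟩
  · have hN : N = 1 := by have := NeZero.pos N; omega
    subst hN
    have hδ' : δ ∈ GammaH 1 H := mem_GammaH.mpr ⟨by simp [Gamma0_one], by
      rw [Subsingleton.elim (gamma0Units 1 _) 1]; exact one_mem H⟩
    exact ⟨genQ _, fun _ => (congrArg (qW _) (Subtype.ext ((genY _).2.2.1 δ hδ'))).trans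
      (qW_genY _)⟩

variable {L : Type*} [Field L] [Algebra ℚ L] (ι : L →+* ℂ)

/-- The automorphism of the function field of `X_H(N)` given by an element of `Γ₀(N)`. -/
def diamond (δ : Gamma0 N) : FL (GammaH N H) L ≃ₐ[L] FL (GammaH N H) L :=
  transEquiv ι (ratNormal_Gamma0 δ.2) (ratNormal_Gamma0 (inv_mem δ.2))

/-- The diamond as a translation of meromorphic functions. -/
lemma toKW_diamond (δ : Gamma0 N) (x : FL (GammaH N H) L) :
    toKW (GammaH N H) ι (diamond ι δ x) =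
      (transMap (ratNormal_Gamma0 δ.2)).homK (toKW (GammaH N H) ι x) :=
  RatMap.toKW_mapL _ ι x

/-- Composition of diamonds. -/
theorem diamond_diamond (δ δ' : Gamma0 N) (x : FL (GammaH N H) L) :
    diamond ι δ (diamond ι δ' x) = diamond ι (δ' * δ) x := by
  simp only [diamond, transEquiv, AlgEquiv.ofAlgHom_apply]
  exact mapL_transMap_comp ι _ _ _ x

/-- The level acts trivially. -/
theorem diamond_of_mem (δ : Gamma0 N) (h : (δ : SL(2, ℤ)) ∈ GammaH N H)
    (x : FL (GammaH N H) L) : diamond ι δ x = x :=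
  mapL_transMap_of_mem ι (ratNormal_Gamma0 δ.2) h x

/-- The diamond depends only on the class of the lower right entry modulo `H`. -/
theorem diamond_eq_of_units {δ δ' : Gamma0 N}
    (h : gamma0Units N δ * (gamma0Units N δ')⁻¹ ∈ H) :
    diamond ι δ = (diamond ι δ' : FL (GammaH N H) L ≃ₐ[L] _) := by
  refine AlgEquiv.ext fun x => ?_
  have hmem : ((δ'⁻¹ * δ : Gamma0 N) : SL(2, ℤ)) ∈ GammaH N H :=
    mem_GammaH.mpr ⟨(δ'⁻¹ * δ).2, by rwa [Subtype.coe_eta, map_mul, map_inv, mul_comm]⟩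
  conv_lhs => rw [show δ = δ' * (δ'⁻¹ * δ) by group]
  rw [← diamond_diamond, diamond_of_mem ι _ hmem]

/-- A lift of a unit to `Γ₀(N)`. -/
def unitLift (u : (ZMod N)ˣ) : Gamma0 N := (gamma0Units_surjective u).choose

omit [NegMem H] in
/-- The lift has the given entry. -/
@[simp] lemma gamma0Units_unitLift (u : (ZMod N)ˣ) : gamma0Units N (unitLift u) = u :=
  (gamma0Units_surjective u).choose_spec

variable (H) in
/-- The diamond operators. -/
def diamondHom : (ZMod N)ˣ →* (FL (GammaH N H) L ≃ₐ[L] FL (GammaH N H) L) where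
  toFun u := diamond ι (unitLift u)
  map_one' := AlgEquiv.ext fun x => by
    refine diamond_of_mem ι _ (mem_GammaH.mpr ⟨(unitLift 1).2, ?_⟩) x
    rw [Subtype.coe_eta, gamma0Units_unitLift]; exact one_mem H
  map_mul' u v := AlgEquiv.ext fun x => by
    rw [AlgEquiv.mul_apply, diamond_diamond]
    refine congrArg (fun e : FL (GammaH N H) L ≃ₐ[L] FL (GammaH N H) L => e x)
      (diamond_eq_of_units ι ?_)
    simp [mul_comm v u]

/-- The homomorphism at the class of a matrix. -/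
lemma diamondHom_gamma0Units (δ : Gamma0 N) :
    diamondHom H ι (gamma0Units N δ) = diamond ι δ :=
  diamond_eq_of_units ι (by simp)

/-- `H` acts trivially. -/
theorem diamondHom_eq_one {u : (ZMod N)ˣ} (hu : u ∈ H) : diamondHom H ι u = 1 :=
  AlgEquiv.ext fun x =>
    diamond_of_mem ι _ (mem_GammaH.mpr ⟨(unitLift u).2, by simpa using hu⟩) x

/-- Diamonds commute with the action of field maps on coefficients. -/
theorem diamond_coeffMap (δ : Gamma0 N) (σ : L →ₐ[ℚ] L) (x : FL (GammaH N H) L)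
    (h : coeffMap σ.toRingHom (x : LaurentSeries L) ∈ FL (GammaH N H) L) :
    (diamond ι δ ⟨_, h⟩ : LaurentSeries L) =
      coeffMap σ.toRingHom (diamond ι δ x : LaurentSeries L) :=
  RatMap.mapL_coeffMap _ ι σ x h

end Fermat.MC.Lvl

end
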