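import Fermat.Agent.MC.Lvl.DimS2
import Fermat.Agent.MC.Lvl.Diamond
import Fermat.Agent.MC.X0.Field

/-!
# `dim S₂(Γ) = genus`, and the comparison map commutes with diamonds

`finrank_cuspForm_two_eq`, `phiS2_diamond`, `psiG_GammaH`, for `X_H(N)`; they enter the Hecke action
on differentials (`JAC/XH`), periods (`HM`) and the kernels in `BAD`.
-/

set_option autoImplicit false

noncomputable section

open AlgebraicCurve Fermat.FF
open UpperHalfPlane hiding I
open scoped MatrixGroups ModularForm

namespace Fermat.MC.Lvl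

/-- The field over `ℂ` is a function field of one variable. -/
instance isFunctionFieldFLC (G : Subgroup SL(2, ℤ)) [LevelGen G] :
    IsFunctionField ℂ (FL G ℂ) :=
  isFunctionField_FL G (RingHom.id ℂ)

variable (G : Subgroup SL(2, ℤ)) [LevelGen G]

/-- The genus of the field over `ℂ` is given by the genus formula. -/
theorem genusFF_FLC : (genusFF ℂ (FL G ℂ) : ℚ) = genusFormulaG G :=
  genusFF_FL G (RingHom.id ℂ)

/-- Weight two cusp forms form a finite dimensional space. -/
instance finiteDimensional_cuspForm_two : FiniteDimensional ℂ (CuspForm G 2) :=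
  haveI : FiniteDimensional ℂ (riemannRochSpace (divDj G)) := inferInstance
  FiniteDimensional.of_injective
    ((phiS2 G).codRestrict (riemannRochSpace (divDj G)) (phiS2_mem G))
    fun _ _ h => phiS2_injective G (congrArg Subtype.val h)

/-- The dimension of weight two cusp forms is given by the genus formula. -/
theorem finrank_cuspForm_two_eq :
    (Module.finrank ℂ (CuspForm G 2) : ℚ) = genusFormulaG G := by
  rw [finrank_cuspForm_two, genusFF_FLC]

/-- `phiS2` intertwines the slash action of a normaliser with its automorphism. -/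
theorem phiS2_trans {δ : SL(2, ℤ)} (hδ : RatNormal G δ) (f g : CuspForm G 2)
    (hg : ⇑g = ⇑f ∣[(2 : ℤ)] δ) :
    phiS2 G g = (transMap hδ).mapL (RingHom.id ℂ) (phiS2 G f) := by
  refine (toKW G (RingHom.id ℂ)).injective ?_
  rw [RatMap.toKW_mapL, toKW_phiS2, toKW_phiS2, map_div₀, RatMap.homK_algebraMap,
    RatMap.homK_algebraMap]
  have e1 : transW hδ (weightTwo f) = weightTwo g := Subtype.ext (by
    change compSL δ (fun z => f z * (E46 z / ModularForm.discriminant z)) = _
    rw [compSL_weightTwo_aux, ← hg]
    rfl)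
  have e2 : transW hδ (jj G) = jj G := Subtype.ext (funext fun z => jj_smul G δ z)
  rw [show (transMap hδ).hom (weightTwo f) = weightTwo g from e1,
    show (transMap hδ).hom (jj G) = jj G from e2]

/-- `phiS2` intertwines diamonds. -/
theorem phiS2_diamond {N : ℕ} [NeZero N] {H : Subgroup (ZMod N)ˣ} [NegMem H]
    (δ : CongruenceSubgroup.Gamma0 N) (f g : CuspForm (GammaH N H) 2)
    (hg : ⇑g = ⇑f ∣[(2 : ℤ)] (δ : SL(2, ℤ))) :
    phiS2 (GammaH N H) g = diamond (RingHom.id ℂ) δ (phiS2 (GammaH N H) f) :=
  phiS2_trans _ (ratNormal_Gamma0 δ.2) f g hg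

/-- The degree of `X_H(N)` over the `j`-line. -/
theorem psiG_GammaH (N : ℕ) [NeZero N] (H : Subgroup (ZMod N)ˣ) :
    psiG (GammaH N H) = H.index * ModularCurve.dedekindPsi N := by
  change (GammaH N H).index = _
  rw [show GammaH N H = (H.comap (gamma0Units N)).map
    (CongruenceSubgroup.Gamma0 N).subtype from rfl, Subgroup.index_map_subtype,
    H.index_comap_of_surjective gamma0Units_surjective,
    ← Fermat.MC.psiN_eq_dedekindPsi N]
  rfl

end Fermat.MC.Lvl

end
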