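import Fermat.Agent.MC.Lvl.Field

/-!
# Analytic functions inside the function field; cusp forms of a general level

Cusp forms are periodic, bounded and zero at every cusp (`isZeroAtImInfty_slash`), as `DimS2`
needs.
-/

set_option autoImplicit false

noncomputable section

open Filter Function Polynomial
open UpperHalfPlane hiding I
open ModularCurve (coeffEmb_mem_laurentBaseChange)
open scoped Manifold MatrixGroups ModularForm Polynomial

namespace Fermat.MC.Lvl

variable (G : Subgroup SL(2, ℤ))

/-- A level contains `-1`. -/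
lemma neg_one_mem [LevelGen G] : (-1 : SL(2, ℤ)) ∈ G := by
  have h : conjHom G ((-1 : SL(2, ℤ)) : Coset G) (genY G) =
      conjHom G ((1 : SL(2, ℤ)) : Coset G) (genY G) := by
    rw [conjHom_mk, conjHom_one]
    refine Subtype.ext (funext fun z => ?_)
    change (genY G : ℍ → ℂ) (((-1 : SL(2, ℤ))⁻¹) • z) = _
    rw [inv_neg, inv_one, ModularGroup.SL_neg_smul, one_smul]
    rfl
  have h1 := QuotientGroup.eq.mp (genY_injective G h)
  rw [mul_one] at h1
  exact inv_mem_iff.mp h1

/-- Polynomials in the two series lie in the field. -/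
lemma biQ_mem_FL [LevelGen G] (P : ℂ[X][X]) : biQ G P ∈ FL G ℂ := by
  induction P using Polynomial.induction_on' with
  | add p q hp hq => rw [map_add]; exact add_mem hp hq
  | monomial b p =>
    induction p using Polynomial.induction_on' with
    | add p q hp hq => rw [map_add, map_add]; exact add_mem hp hq
    | monomial a c =>
      rw [biQ_monomial]
      exact mul_mem ((FL G ℂ).algebraMap_mem c) (coeffEmb_mem_laurentBaseChange ℂ
        (mul_mem (pow_mem (jq_mem_FQ G) a) (pow_mem (genQ_mem_FQ G) b)))

/-- Expansions of modular functions lie in the field. -/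
lemma qW_mem_FL [LevelGen G] (f : W G) : qW G f ∈ FL G ℂ := by
  obtain ⟨H, -, hH⟩ := exists_interp G f
  have h1 := congrArg (qW G) hH
  rw [map_mul] at h1
  have hden : qW G (denG G) ≠ 0 := (map_ne_zero_iff _ (qW_injective G)).mpr (denG_ne_zero G)
  rw [eq_div_of_mul_eq hden h1]
  exact div_mem (biQ_mem_FL G H) (biQ_mem_FL G _)

/-- Weakly holomorphic modular functions inside the function field. -/
def wG [LevelGen G] : W G →ₐ[ℂ] FL G ℂ :=
  (qW G).codRestrict (FL G ℂ).toSubalgebra (qW_mem_FL G)

/-- The underlying series is the expansion. -/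
@[simp] lemma coe_wG [LevelGen G] (f : W G) : (wG G f : LaurentSeries ℂ) = qW G f := rfl

/-- The element is the function itself. -/
lemma toKW_wG [LevelGen G] (f : W G) :
    toKW G (RingHom.id ℂ) (wG G f) = algebraMap (W G) (KW G) f :=
  (qK G).injective (by
    rw [qK_toKW, qK_algebraMap, ModularCurve.coeffMap_id]
    rfl)

/-- The map `wG` into the function field is injective. -/
lemma wG_injective [LevelGen G] : Injective (wG G) := fun f g h =>
  algebraMap_W_injective G (by rw [← toKW_wG, ← toKW_wG, h])

/-! ### Cusp forms -/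

variable {G} [LevelBase G] {k : ℤ}

/-- A level has period one. -/
lemma one_mem_strictPeriods : (1 : ℝ) ∈
    (Subgroup.map (Matrix.SpecialLinearGroup.mapGL ℝ) G).strictPeriods := by
  rw [Subgroup.strictPeriods_eq_zmultiples_one_of_T_mem (LevelBase.T_mem (G := G))]
  exact AddSubgroup.mem_zmultiples (1 : ℝ)

/-- A cusp form is periodic and bounded at `∞`. -/
lemma bddPer_cuspForm (f : CuspForm G k) : BddPer ⇑f :=
  bddPer_of_modularFormClass f one_mem_strictPeriods

omit [LevelBase G] in
/-- A cusp form is invariant under the level. -/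
lemma slash_mem_eq (f : CuspForm G k) {γ : SL(2, ℤ)} (hγ : γ ∈ G) : ⇑f ∣[k] γ = ⇑f :=
  SlashInvariantFormClass.slash_action_eq f _ (Subgroup.mem_map_of_mem _ hγ)

/-- The translates vanish at `∞`. -/
lemma isZeroAtImInfty_slash (f : CuspForm G k) (γ : SL(2, ℤ)) :
    IsZeroAtImInfty (⇑f ∣[k] γ) := by
  have := LevelBase.finiteIndex (G := G)
  exact CuspFormClass.zero_at_infty_slash f γ

end Fermat.MC.Lvl

end
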