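import Fermat.Agent.MC.Fibres
import Fermat.Agent.MC.Lvl.Analytic

/-!
# Ramification of `j` and the genus, for a general level

`ord_eq_one`, `card_zeros_elliptic`, `card_poles_jL` and, from them, `genusFF_FL`. `DimS2`,
`MC/X0/Genus` and `RED/Full/Spec` use the genus.
-/

set_option autoImplicit false

attribute [local instance 10000] SubalgebraClass.toAlgebra HahnSeries.powerSeriesAlgebra

noncomputable section

open IntermediateField
open AlgebraicCurve Fermat.FF
open UpperHalfPlane hiding I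
open scoped MatrixGroups

namespace Fermat.MC.Lvl

variable (G : Subgroup SL(2, ℤ))

/-- The number of elliptic points of order two. -/
def nuTwoG : ℕ := Nat.card {q : Coset G // ModularGroup.S • q = q}

/-- The number of elliptic points of order three. -/
def nuThreeG : ℕ := Nat.card {q : Coset G // (ModularGroup.S * ModularGroup.T) • q = q}

/-- The number of cusps. -/
def cuspsG : ℕ :=
  Nat.card (MulAction.orbitRel.Quotient (Subgroup.zpowers ModularGroup.T) (Coset G))

/-- The genus formula. -/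
def genusFormulaG : ℚ :=
  1 + (psiG G : ℚ) / 12 - (nuTwoG G : ℚ) / 4 - (nuThreeG G : ℚ) / 3 - (cuspsG G : ℚ) / 2

variable [LevelGen G]

variable {L : Type*} [Field L] [Algebra ℚ L] [IsAlgClosed L] [CharZero L] (ι : L →+* ℂ)
  [IsFunctionField L (FL G L)]

include ι

omit [IsFunctionField L (FL G L)] [CharZero L] [IsAlgClosed L] in
/-- The degree over `L(j - a)` is the index. -/
lemma card_coset_eq_finrank (a : L) :
    Fintype.card (Coset G) =
      Module.finrank L⟮jL G L - algebraMap L (FL G L) a⟯ (FL G L) := by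
  rw [adjoin_simple_sub_algebraMap, (finrank_FL G ι).1, psiG_eq_card]

omit [IsFunctionField L (FL G L)] [CharZero L] [IsAlgClosed L] in
/-- The order of `j - a` in the expansions at a point over `a`. -/
lemma ordT_tauPt_jL_sub {a : L} {z : ℍ} (hz : jA z = ι a) (q : Coset G) :
    ordT (tauPt G ι z q) (jL G L - algebraMap L (FL G L) a) = (multJ z : ℤ) := by
  have h := order_evPtQ_jW G z q
  rw [map_sub, hz] at h
  rw [ordT, map_sub, tauPt, tau_jL, tau_algebraMap]
  exact h

/-- The zeros of `j - a` and their multiplicities. -/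
theorem card_zeros_jL {a : L} {z : ℍ} (hz : jA z = ι a) {δ : SL(2, ℤ)} (hfix : δ • z = z)
    (hdiv : ∀ (q : Coset G) (f : W G), f ≠ 0 →
      (multJ z : ℤ) ∣ (Nat.card {q' // orbClass δ q' = orbClass δ q} : ℤ) *
        (evPtQ G z q f).order) :
    ∃ T : Finset (Place L (FL G L)),
      (∀ P, P ∈ T ↔ 0 < P.ord (jL G L - algebraMap L (FL G L) a)) ∧
      (T.card : ℤ) = Nat.card (MulAction.orbitRel.Quotient (Subgroup.zpowers δ) (Coset G)) ∧
      ∑ P ∈ T, P.ord (jL G L - algebraMap L (FL G L) a) = psiG G := by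
  classical
  have : Finite (MulAction.orbitRel.Quotient (Subgroup.zpowers δ) (Coset G)) := Quotient.finite _
  have := Fintype.ofFinite (MulAction.orbitRel.Quotient (Subgroup.zpowers δ) (Coset G))
  obtain ⟨T, hT, hcard, hsum⟩ := card_zeros (τ := tauPt G ι z)
    (x := jL G L - algebraMap L (FL G L) a)
    (fun q c hc => ordT_tauPt_algebraMap G ι z q hc)
    (fun q q' c => by rw [tauPt_algebraMap, tauPt_algebraMap])
    (fun q q' => by rw [map_sub, map_sub, tauPt_jL G ι z q q', tauPt_algebraMap, tauPt_algebraMap])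
    (n := (multJ z : ℤ)) (by exact_mod_cast multJ_pos z) (ordT_tauPt_jL_sub G ι hz)
    ⟨yL G L, tauPt_injective G ι z⟩ (card_coset_eq_finrank G ι a) (orbClass δ)
    (fun q q' hqq h hh => by
      obtain ⟨k, rfl⟩ := (orbClass_eq_iff δ q q').mp hqq
      obtain ⟨x, y, hx, hy, -, he⟩ := ordT_tau G ι hh
      have hzk : (δ ^ k)⁻¹ • z = z :=
        MulAction.mem_stabilizer_iff.mp
          (inv_mem (Subgroup.zpow_mem _ (MulAction.mem_stabilizer_iff.mpr hfix) k))
      have h1 := order_evPtQ_smul G z hzk q' hx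
      have h2 := order_evPtQ_smul G z hzk q' hy
      rw [inv_inv] at h1 h2
      simp only [tauPt, he, h1, h2])
    (fun q h hh => by
      obtain ⟨x, y, hx, hy, -, he⟩ := ordT_tau G ι hh
      rw [tauPt, he, mul_sub]
      exact dvd_sub (hdiv q x hx) (hdiv q y hy))
  refine ⟨T, hT, ?_, by rw [hsum, psiG_eq_card]⟩
  rw [hcard, Finset.image_univ_of_surjective (orbClass_surjective δ), Finset.card_univ,
    Nat.card_eq_fintype_card]
  exact congrArg _ (Fintype.card_congr (Equiv.refl _))

/-- Over an ordinary value `j` is unramified. -/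
theorem ord_eq_one {a : L} (h0 : a ≠ 0) (h1 : a ≠ 1728) {P : Place L (FL G L)}
    (hP : 0 < P.ord (jL G L - algebraMap L (FL G L) a)) :
    P.ord (jL G L - algebraMap L (FL G L) a) = 1 := by
  classical
  obtain ⟨z, hz⟩ := exists_jA_eq (ι a)
  have hn : multJ z = 1 := by
    rw [multJ, hz, if_neg ((map_ne_zero ι).mpr h0), if_neg fun h => h1 (ι.injective (by
      rw [h, map_ofNat]))]
  obtain ⟨T, hT, hcard, hsum⟩ := card_zeros_jL G ι hz (δ := 1) (one_smul _ _) fun q f _ => by
    rw [hn, Nat.cast_one]; exact one_dvd _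
  exact ord_eq_one_of_sum_eq_card hT
    (hsum.trans (hcard.trans (congrArg Nat.cast card_orbits_one)).symm) hP

/-- The fibre of `j` over an elliptic value, from the fixed cosets. -/
theorem card_zeros_elliptic {a : L} {z : ℍ} (hz : jA z = ι a) {δ : SL(2, ℤ)} (hfix : δ • z = z)
    {n : ℕ} (hn : n.Prime) (hm : multJ z = n) (hδ : ∀ q : Coset G, δ ^ n • q = q)
    (hprim : IsPrimitiveRoot (denom δ (z : ℂ) ^ 2) n) :
    ∃ T : Finset (Place L (FL G L)),
      (∀ P, P ∈ T ↔ 0 < P.ord (jL G L - algebraMap L (FL G L) a)) ∧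
      (n * T.card : ℤ) = psiG G + (n - 1 : ℕ) * Nat.card {q : Coset G // δ • q = q} ∧
      ∑ P ∈ T, P.ord (jL G L - algebraMap L (FL G L) a) = psiG G := by
  obtain ⟨T, hT, hcard, hsum⟩ := card_zeros_jL G ι hz hfix fun q f hf => by
    rcases card_fibre_eq_one_or δ hn hδ q with ⟨h, hq⟩ | ⟨h, -⟩
    · rw [h, hm, Nat.cast_one, one_mul]
      exact dvd_order_evPtQ G z hfix hprim (inv_smul_eq_iff.mpr hq.symm) hf
    · rw [h, hm]; exact dvd_mul_right _ _
  refine ⟨T, hT, ?_, hsum⟩
  rw [hcard, psiG_eq_card]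
  exact_mod_cast card_orbits_mul δ hn hδ

/-- The poles of `j`: one for each cusp, their orders adding up to `psiG G`. -/
theorem card_poles_jL :
    ∃ T : Finset (Place L (FL G L)),
      (∀ P, P ∈ T ↔ 0 < P.ord (jL G L)⁻¹) ∧
      (T.card : ℤ) = cuspsG G ∧
      ∑ P ∈ T, P.ord (jL G L)⁻¹ = psiG G := by
  classical
  have : Finite (MulAction.orbitRel.Quotient (Subgroup.zpowers ModularGroup.T) (Coset G)) :=
    Quotient.finite _
  have := Fintype.ofFinite (MulAction.orbitRel.Quotient (Subgroup.zpowers ModularGroup.T) (Coset G))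
  obtain ⟨T, hT, hcard, hsum⟩ := card_zeros (τ := tauInf G ι) (x := (jL G L)⁻¹)
    (fun q c hc => ordT_tauInf_algebraMap G ι q hc)
    (fun q q' c => by rw [tauInf_algebraMap, tauInf_algebraMap])
    (fun q q' => by rw [map_inv₀, map_inv₀, tauInf_jL G ι q q'])
    (n := (wid G : ℤ)) (by exact_mod_cast NeZero.pos (wid G))
    (fun q => by rw [ordT_inv, ordT, tauInf, tau_jL, order_evInfQ_jW, neg_neg])
    ⟨yL G L, tauInf_injective G ι⟩
    (by rw [adjoin_inv_eq, (finrank_FL G ι).1, psiG_eq_card])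
    (orbClass ModularGroup.T)
    (fun q q' hqq h hh => by
      obtain ⟨k, rfl⟩ := (orbClass_eq_iff _ q q').mp hqq
      obtain ⟨x, y, hx, hy, -, he⟩ := ordT_tau G ι hh
      have h1 := order_evInfQ_smul G (-k) q' x
      have h2 := order_evInfQ_smul G (-k) q' y
      rw [zpow_neg, inv_inv] at h1 h2
      simp only [tauInf, he, h1, h2])
    (fun q h hh => by
      obtain ⟨x, y, hx, hy, -, he⟩ := ordT_tau G ι hh
      rw [card_fibre_orbClass]
      obtain ⟨_, hq⟩ := neZero_period_and_fix ModularGroup.T q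
      rw [tauInf, he, mul_sub]
      exact dvd_sub (dvd_order_evInfQ G _ hq x) (dvd_order_evInfQ G _ hq y))
  refine ⟨T, hT, ?_, by rw [hsum, psiG_eq_card]⟩
  rw [hcard, Finset.image_univ_of_surjective (orbClass_surjective _), Finset.card_univ,
    ← Nat.card_eq_fintype_card]
  rfl

/-- The genus of the modular curve of level `G`. -/
theorem genusFF_FL : (genusFF L (FL G L) : ℚ) = genusFormulaG G := by
  obtain ⟨T₀, hT₀, hc₀, hs₀⟩ := card_zeros_elliptic G ι (a := 0) (z := rhoH)
    (by rw [jA_rhoH, map_zero]) ST_smul_rhoH Nat.prime_three (by rw [multJ, if_pos jA_rhoH])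
    (SL2.ST_cube_smul_coset (neg_one_mem (G := G))) isPrimitiveRoot_ST
  obtain ⟨T₁, hT₁, hc₁, hs₁⟩ := card_zeros_elliptic G ι (a := 1728) (z := UpperHalfPlane.I)
    (by rw [jA_I, map_ofNat]) S_smul_I Nat.prime_two
    (by rw [multJ, jA_I, if_neg (by norm_num), if_pos rfl])
    (SL2.S_sq_smul_coset (neg_one_mem (G := G))) isPrimitiveRoot_S
  obtain ⟨T₂, hT₂, hc₂, hs₂⟩ := card_poles_jL G ι (L := L)
  rw [show Nat.card {q : Coset G // (ModularGroup.S * ModularGroup.T) • q = q} =
    nuThreeG G from rfl] at hc₀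
  rw [show Nat.card {q : Coset G // ModularGroup.S • q = q} = nuTwoG G from rfl] at hc₁
  have hg := genusFF_of_three_fibres (transcendental_jL G) (finrank_FL G ι).1 (by norm_num)
    hT₀ hs₀ hT₁ hs₁ hT₂ hs₂ fun c h0 h1 P hP => ord_eq_one G ι h0 h1 hP
  have hg' := congrArg (fun t : ℤ => (t : ℚ)) hg
  have hc₀' := congrArg (fun t : ℤ => (t : ℚ)) hc₀
  have hc₁' := congrArg (fun t : ℤ => (t : ℚ)) hc₁
  have hc₂' := congrArg (fun t : ℤ => (t : ℚ)) hc₂
  rw [genusFormulaG]
  push_cast at hg' hc₀' hc₁' hc₂' ⊢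
  linear_combination hg' / 2 - hc₀' / 6 - hc₁' / 4 - hc₂' / 2

end Fermat.MC.Lvl
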