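import Fermat.Agent.MC.Lvl.Interp
import Fermat.Agent.MC.Lvl.GammaH

/-!
# `Γ_H(N)` as a level

It is an instance of `LevelBase`; `Generator` supplies the separating function, so that all of
`MC/Lvl` applies to `Γ_H(N)`.
-/

set_option autoImplicit false

noncomputable section

open CongruenceSubgroup
open scoped MatrixGroups

namespace Fermat.MC.Lvl

/-- The lower right entry, as a unit modulo `N`. -/
def gamma0Units (N : ℕ) : Gamma0 N →* (ZMod N)ˣ := (Gamma0Map N).toHomUnits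

/-- The character is the lower right entry. -/
@[simp] lemma coe_gamma0Units (N : ℕ) (γ : Gamma0 N) :
    ((gamma0Units N γ : (ZMod N)ˣ) : ZMod N) = ((γ : SL(2, ℤ)) 1 1 : ℤ) := rfl

variable {N : ℕ} {H : Subgroup (ZMod N)ˣ}

/-- Every unit is a lower right entry. -/
lemma gamma0Units_surjective [NeZero N] : Function.Surjective (gamma0Units N) := by
  intro u
  have hcop : IsCoprime ((u : ZMod N).val : ℤ) (N : ℤ) :=
    by exact_mod_cast (ZMod.val_coe_unit_coprime u).isCoprime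
  obtain ⟨a, b, hab⟩ := hcop
  have hdet : Matrix.det !![a, -b; (N : ℤ), ((u : ZMod N).val : ℤ)] = 1 := by
    rw [Matrix.det_fin_two_of]; linarith
  refine ⟨⟨⟨_, hdet⟩, by simp [Gamma0_mem]⟩, Units.ext ?_⟩
  rw [coe_gamma0Units]
  simp

/-- Membership through the character. -/
lemma mem_GammaH {γ : SL(2, ℤ)} :
    γ ∈ GammaH N H ↔ ∃ h : γ ∈ Gamma0 N, gamma0Units N ⟨γ, h⟩ ∈ H := by
  constructor
  · rintro ⟨⟨δ, hδ⟩, hH, rfl⟩
    exact ⟨hδ, hH⟩
  · rintro ⟨h, hH⟩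
    exact ⟨⟨γ, h⟩, hH, rfl⟩

/-- Membership as a condition on the entry. -/
lemma mem_GammaH_iff_coe {γ : SL(2, ℤ)} :
    γ ∈ GammaH N H ↔ γ ∈ Gamma0 N ∧ ((γ 1 1 : ℤ) : ZMod N) ∈ Units.val '' (H : Set (ZMod N)ˣ) :=
  mem_GammaH_iff

/-- `Γ_H(N)` is a level. -/
instance levelBase_GammaH [NeZero N] : LevelBase (GammaH N H) :=
  ⟨inferInstance, T_mem_GammaH⟩

/-- `H` contains `-1`. -/
class NegMem (H : Subgroup (ZMod N)ˣ) : Prop where
  /-- `-1` belongs to `H`. -/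
  neg_one_mem : (-1 : (ZMod N)ˣ) ∈ H

/-- The full group of units contains `-1`. -/
instance : NegMem (⊤ : Subgroup (ZMod N)ˣ) := ⟨Subgroup.mem_top _⟩

/-- The preimage of `H` at a higher level contains `-1`. -/
instance negMem_comap {M : ℕ} (h : N ∣ M) [NegMem H] : NegMem (H.comap (ZMod.unitsMap h)) :=
  ⟨by
    rw [Subgroup.mem_comap, show ZMod.unitsMap h (-1) = -1 from Units.ext (by simp [ZMod.unitsMap])]
    exact NegMem.neg_one_mem⟩

/-- Conjugation by elements of `Γ₀(N)` preserves `Γ_H(N)`. -/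
lemma conj_mem_GammaH {δ γ : SL(2, ℤ)} (hδ : δ ∈ Gamma0 N) (hγ : γ ∈ GammaH N H) :
    δ * γ * δ⁻¹ ∈ GammaH N H := by
  obtain ⟨h0, hH⟩ := mem_GammaH.mp hγ
  refine mem_GammaH.mpr ⟨mul_mem (mul_mem hδ h0) (inv_mem hδ), ?_⟩
  rw [show (⟨δ * γ * δ⁻¹, mul_mem (mul_mem hδ h0) (inv_mem hδ)⟩ : Gamma0 N) =
    ⟨δ, hδ⟩ * ⟨γ, h0⟩ * ⟨δ, hδ⟩⁻¹ from rfl, map_mul, map_mul, map_inv,
    mul_comm (gamma0Units N ⟨δ, hδ⟩), mul_inv_cancel_right]
  exact hH

/-- `Γ_H(N) ∩ Γ₀(M)` is a group of the same kind. -/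
theorem GammaH_inf_Gamma0 {M : ℕ} (h : N ∣ M) :
    GammaH N H ⊓ Gamma0 M = GammaH M (H.comap (ZMod.unitsMap h)) := by
  ext γ
  rw [Subgroup.mem_inf, mem_GammaH, mem_GammaH]
  constructor
  · rintro ⟨⟨h0, hH⟩, hM⟩
    refine ⟨hM, ?_⟩
    rw [Subgroup.mem_comap]
    convert hH using 1
    exact Units.ext (by simp [ZMod.unitsMap])
  · rintro ⟨hM, hH⟩
    have h0 : γ ∈ Gamma0 N := by
      rw [Gamma0_mem, ZMod.intCast_zmod_eq_zero_iff_dvd] at hM ⊢
      exact dvd_trans (Int.natCast_dvd_natCast.mpr h) hM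
    refine ⟨⟨h0, ?_⟩, hM⟩
    rw [Subgroup.mem_comap] at hH
    convert hH using 1
    exact Units.ext (by simp [ZMod.unitsMap])

end Fermat.MC.Lvl

end
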