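import Fermat.Agent.MC.DimS2
import Fermat.Agent.MC.Lvl.Fibres

/-!
# Weight two cusp forms and regular differentials, for a general level

`exists_phiS2_eq` and `finrank_cuspForm_two`: `f ↦ f / θ j` identifies weight two cusp forms with `L
(div dj)`, so their dimension is the genus of `Fibres`. Used for differentials in `JAC/XH/DiffS2`
and by `CuspGenus`.
-/

set_option autoImplicit false

noncomputable section

open Filter Function
open UpperHalfPlane hiding I
open AlgebraicCurve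
open Fermat.FF
open ModularForm (E₄ E₆)
open ModularCurve (coeffEmb)
open scoped Manifold MatrixGroups ModularForm

local notation "Δ" => ModularForm.discriminant

namespace Fermat.MC.Lvl

variable (G : Subgroup SL(2, ℤ)) [LevelGen G]

/-- A translate of a cusp form, rescaled by the width. -/
lemma bddPer_slash_posN (f : CuspForm G 2) (γ : SL(2, ℤ)) :
    BddPer ((⇑f ∣[(2 : ℤ)] γ) ∘ affH (posN (wid G)) 0) := by
  have hmem : γ * ModularGroup.T ^ (wid G : ℤ) * γ⁻¹ ∈ G := by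
    simpa using T_pow_wid_mem G γ⁻¹
  have h2 : (⇑f ∣[(2 : ℤ)] γ) ∣[(2 : ℤ)] (ModularGroup.T ^ (wid G : ℤ)) = ⇑f ∣[(2 : ℤ)] γ := by
    rw [← SlashAction.slash_mul, show γ * ModularGroup.T ^ (wid G : ℤ) =
      (γ * ModularGroup.T ^ (wid G : ℤ) * γ⁻¹) * γ by group, SlashAction.slash_mul,
      slash_mem_eq f hmem]
  refine ⟨mdiff_comp_affH ?_ _ _, periodic_comp_posN (wid G) fun w => ?_,
    Asymptotics.IsBigO.comp_tendsto (isZeroAtImInfty_slash f γ).isBoundedAtImInfty
      (tendsto_affH _ _)⟩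
  · exact (ModularFormClass.holo f).slash 2 _
  · have := slash_eq_iff_smul.mp h2 w
    rwa [denom_T_zpow, one_zpow, one_mul] at this

variable {G}

omit [LevelGen G] in
/-- Translates of `f E₄ E₆ / Δ` use translates of `f`. -/
lemma compSL_weightTwo_aux (f : CuspForm G 2) (γ : SL(2, ℤ)) :
    compSL γ (fun z => f z * (E46 z / Δ z)) =
      fun z => (⇑f ∣[(2 : ℤ)] γ) z * (E46 z / Δ z) := by
  funext z
  have hD : Δ (γ • z) = denom γ z ^ (12 : ℤ) * Δ z :=
    smul_eq_denom_zpow CuspForm.discriminant γ z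
  have hd := denom_ne_zero γ z
  simp only [compSL_apply, smul_eq_of_slash (k := (2 : ℤ)) (f := ⇑f), E46_smul, hD]
  rw [show (12 : ℤ) = 10 + 2 from rfl, zpow_add₀ hd]
  field_simp

/-- `f E₄ E₆ / Δ` as a modular function. -/
def weightTwo (f : CuspForm G 2) : W G :=
  ⟨fun z => f z * (E46 z / Δ z), by
    refine ⟨(bddPer_cuspForm f).1.mul mdiff_E46_div, fun γ hγ => ?_, fun γ => ?_⟩
    · rw [compSL_weightTwo_aux, slash_mem_eq f hγ]
    · rw [compSL_weightTwo_aux]
      exact (ExpGrowth.of_isBoundedAtImInfty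
        (isZeroAtImInfty_slash f γ).isBoundedAtImInfty).mul expGrowth_E46_div⟩

/-- The series of `f E₄ E₆ / Δ`. -/
lemma qW_weightTwo (f : CuspForm G 2) :
    qW G (weightTwo f) = qS ⇑f * coeffEmb ℂ xiQ := by
  have h : (weightTwo f : ℍ → ℂ) * Δ ^ 1 = ⇑f * E46 ^ 1 := by
    funext z
    simp only [weightTwo, Pi.mul_apply, pow_one, mul_assoc]
    rw [div_mul_cancel₀ _ (ModularForm.discriminant_ne_zero z)]
  have hb : IsBoundedAtImInfty ((weightTwo f : ℍ → ℂ) * Δ ^ 1) := by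
    rw [h]; exact ((bddPer_cuspForm f).mul (bddPer_E46.pow 1)).2.2
  rw [qW_apply, qL_apply _ hb, h, qS_mul (bddPer_cuspForm f) (bddPer_E46.pow 1),
    qS_pow bddPer_E46, ← qS_E46_div, pow_one, pow_one, mul_div_assoc]

variable (G)

/-- `j (j - 1728)`. -/
def jj : W G := jW G * (jW G - algebraMap ℂ (W G) 1728)

attribute [local instance 10000] SubalgebraClass.toAlgebra HahnSeries.powerSeriesAlgebra

omit [LevelGen G] in
/-- `j (j - 1728) Δ ^ 2 = E₄ ^ 3 E₆ ^ 2`. -/
lemma jj_mul_eq (z : ℍ) : (jj G : ℍ → ℂ) z * Δ z ^ 2 = E₄ z ^ 3 * E₆ z ^ 2 := by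
  have hD := ModularForm.discriminant_ne_zero z
  change jA z * (jA z - 1728) * Δ z ^ 2 = _
  rw [jA_sub_eq, jA]
  field_simp

omit [LevelGen G] in
/-- `j (j - 1728)` is not zero. -/
lemma jj_ne_zero : jj G ≠ 0 := by
  refine mul_ne_zero (fun h => jA_not_const 0 (congrArg Subtype.val h))
    (sub_ne_zero.mpr fun h => ?_)
  exact jA_not_const 1728 (congrArg Subtype.val h)

omit [LevelGen G] in
/-- `j (j - 1728)` is invariant under the modular group. -/
lemma jj_smul (γ : SL(2, ℤ)) (z : ℍ) : (jj G : ℍ → ℂ) (γ • z) = (jj G : ℍ → ℂ) z := by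
  change jA (γ • z) * (jA (γ • z) - 1728) = jA z * (jA z - 1728)
  rw [jA_smul]

/-- Translates of the numerator of `phiS2 f` times `E₄² E₆` are `jj` times translates of `f Δ`. -/
lemma weightTwo_mul_thN (f : CuspForm G 2) (γ : SL(2, ℤ)) :
    compSL γ (weightTwo f : ℍ → ℂ) * thN = (jj G : ℍ → ℂ) * ((⇑f ∣[(2 : ℤ)] γ) * Δ) := by
  funext z
  have hd := denom_ne_zero γ z
  have hD := ModularForm.discriminant_ne_zero z
  have hDγ : Δ (γ • z) = denom γ z ^ (12 : ℤ) * Δ z :=
    smul_eq_denom_zpow CuspForm.discriminant γ z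
  have hj := jj_mul_eq G z
  simp only [Pi.mul_apply, compSL_apply, weightTwo, smul_eq_of_slash (k := (2 : ℤ)) (f := ⇑f),
    E46_smul, hDγ]
  rw [show (12 : ℤ) = 10 + 2 from rfl, zpow_add₀ hd]
  field_simp
  simp only [E46, thN, Pi.mul_apply, Pi.pow_apply, pow_one]
  linear_combination -((⇑f ∣[(2 : ℤ)] γ) z) * hj

/-- `f ↦ f Δ / (E₄² E₆)`, which is `f / θ j` up to sign (`θ = q d/dq`). -/
def phiS2 : CuspForm G 2 →ₗ[ℂ] FL G ℂ where
  toFun f := wG G (weightTwo f) / wG G (jj G)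
  map_add' f g := by
    rw [← add_div, ← map_add]
    congr 2
    exact Subtype.ext (funext fun z => add_mul (f z) (g z) _)
  map_smul' c f := by
    rw [RingHom.id_apply, Algebra.smul_def, mul_div_assoc', ← AlgHom.commutes (wG G), ← map_mul]
    congr 2
    exact Subtype.ext (funext fun z => mul_assoc c (f z) _)

/-- `phiS2 f` as a quotient of modular functions. -/
lemma toKW_phiS2 (f : CuspForm G 2) :
    toKW G (RingHom.id ℂ) (phiS2 G f) =
      algebraMap (W G) (KW G) (weightTwo f) / algebraMap (W G) (KW G) (jj G) := by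
  rw [← toKW_wG, ← toKW_wG, ← map_div₀]
  rfl

/-- `phiS2` is injective. -/
lemma phiS2_injective : Injective (phiS2 G) := by
  refine (injective_iff_map_eq_zero _).mpr fun f hf => ?_
  have h1 : wG G (weightTwo f) = 0 :=
    (div_eq_zero_iff.mp hf).resolve_right ((map_ne_zero_iff _ (wG_injective G)).mpr (jj_ne_zero G))
  have h2 := congrArg (qW G) ((map_eq_zero_iff _ (wG_injective G)).mp h1)
  rw [qW_weightTwo, map_zero] at h2
  apply DFunLike.coe_injective
  exact (qS_eq_zero_iff (bddPer_cuspForm f)).mp ((mul_eq_zero.mp h2).resolve_right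
    ((_root_.map_ne_zero _).mpr xiQ_ne_zero))

variable [IsFunctionField ℂ (FL G ℂ)]

/-- `dj` is not zero. -/
lemma D_jL_ne_zero : KaehlerDifferential.D ℂ (FL G ℂ) (jL G ℂ) ≠ 0 :=
  D_ne_zero_of_separable (transcendental_jL G) (separable_of_charZero (transcendental_jL G))

/-- The divisor of `dj`. -/
def divDj : Divisor ℂ (FL G ℂ) := canonicalDivisorOf (D_jL_ne_zero G)

/-- At a place where `j` takes the value `a` the order of `dj` is that of `j - a` minus one. -/
lemma divDj_finite {v : Place ℂ (FL G ℂ)} (h : 0 ≤ v.ord (jL G ℂ)) :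
    0 < v.ord (jL G ℂ - algebraMap ℂ (FL G ℂ) (evalAt v (jL G ℂ))) ∧
      divDj G v = v.ord (jL G ℂ - algebraMap ℂ (FL G ℂ) (evalAt v (jL G ℂ))) - 1 :=
  divD_finite (transcendental_jL G) _ h

/-- At a pole of `j` the order of `dj` is minus that of `1 / j`, minus one. -/
lemma divDj_pole {v : Place ℂ (FL G ℂ)} (h : v.ord (jL G ℂ) < 0) :
    0 < v.ord (jL G ℂ)⁻¹ ∧ divDj G v = -v.ord (jL G ℂ)⁻¹ - 1 :=
  divD_pole (transcendental_jL G) _ h

omit [IsFunctionField ℂ (FL G ℂ)] in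
/-- A rescaled translate of a modular function is periodic. -/
lemma compSL_mem_perAlg (γ : SL(2, ℤ)) (a : W G) :
    compSL γ (a : ℍ → ℂ) ∘ affH (posN (wid G)) 0 ∈ perAlg := by
  have h := comp_posN_mem G ((γ⁻¹ : SL(2, ℤ)) : Coset G) a
  rw [conjHom_mk, inv_inv] at h
  exact h

omit [IsFunctionField ℂ (FL G ℂ)] in
/-- The expansion at the cusp of `γ` is that of the translate by `γ`. -/
lemma evInfQ_mk (γ : SL(2, ℤ)) (a : W G) :
    evInfQ G ((γ⁻¹ : SL(2, ℤ)) : Coset G) a = qL ⟨_, compSL_mem_perAlg G γ a⟩ := by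
  rw [evInfQ_apply]
  refine congrArg qL (Subtype.ext ?_)
  change (conjHom G ((γ⁻¹ : SL(2, ℤ)) : Coset G) a : ℍ → ℂ) ∘ _ = _
  rw [conjHom_mk, inv_inv]
  rfl

omit [IsFunctionField ℂ (FL G ℂ)] in
/-- The modular function behind a nonzero `φ f` is nonzero. -/
lemma phiS2_num_ne_zero {f : CuspForm G 2} (h0 : phiS2 G f ≠ 0) : weightTwo f ≠ 0 :=
  fun h => h0 (by
    change wG G (weightTwo f) / wG G (jj G) = 0
    rw [h, map_zero, zero_div])

omit [IsFunctionField ℂ (FL G ℂ)] in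
/-- The order of an expansion of `φ f`. -/
lemma ordT_tau_phiS2 {f : CuspForm G 2} (h0 : phiS2 G f ≠ 0) (ev : W G →+* LaurentSeries ℂ)
    (hev : Injective ev) : ordT (tau G (RingHom.id ℂ) ev hev) (phiS2 G f) =
      (ev (weightTwo f)).order - (ev (jj G)).order := by
  rw [ordT, tau_div G _ ev hev (toKW_phiS2 G f), order_div_eq
    ((map_ne_zero_iff _ hev).mpr (phiS2_num_ne_zero G h0))
    ((map_ne_zero_iff _ hev).mpr (jj_ne_zero G))]

omit [IsFunctionField ℂ (FL G ℂ)] in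
/-- `φ f` has order above `-multJ` at a point. -/
lemma neg_multJ_lt_ordT_tauPt_phiS2 {f : CuspForm G 2} (h0 : phiS2 G f ≠ 0) (z : ℍ)
    (q : Coset G) :
    -(multJ z : ℤ) < ordT (tauPt G (RingHom.id ℂ) z q) (phiS2 G f) := by
  induction q using QuotientGroup.induction_on with
  | H γ =>
  set A := compSL γ⁻¹ (weightTwo f : ℍ → ℂ)
  have hA' : A ≠ 0 := fun h => phiS2_num_ne_zero G h0 (conjHom_injective G (γ : Coset G) (by
    rw [conjHom_mk, map_zero]; exact Subtype.ext h))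
  have hA1 : evPtQ G z (γ : Coset G) (weightTwo f) = tsL z A := by
    change evPt z (conjHom G (γ : Coset G) (weightTwo f)) = _
    rw [conjHom_mk]; rfl
  have hB1 : evPtQ G z (γ : Coset G) (jj G) = tsL z (jj G : ℍ → ℂ) := by
    change evPt z (conjHom G (γ : Coset G) (jj G)) = _
    rw [conjHom_mk]
    change tsL z (compSL γ⁻¹ (jj G : ℍ → ℂ)) = _
    exact congrArg _ (funext fun w => jj_smul G _ w)
  rw [tauPt, ordT_tau_phiS2 G h0, hA1, hB1]
  exact neg_multJ_lt_order_tsL_sub (mdiff_compSL _ (weightTwo f).2.1) (jj G).2.1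
    ((ModularFormClass.holo f).slash 2 _) hA' (fun h => jj_ne_zero G (Subtype.ext h))
    (weightTwo_mul_thN G f γ⁻¹) z

omit [IsFunctionField ℂ ↥(FL G ℂ)] in
/-- `φ f` has order above the width at a cusp. -/
lemma lt_ordT_tauInf_phiS2 {f : CuspForm G 2} (h0 : phiS2 G f ≠ 0) (q : Coset G) :
    (wid G : ℤ) < ordT (tauInf G (RingHom.id ℂ) q) (phiS2 G f) := by
  induction q using QuotientGroup.induction_on with
  | H γ =>
  obtain ⟨γ, rfl⟩ : ∃ δ : SL(2, ℤ), γ = δ⁻¹ := ⟨γ⁻¹, (inv_inv γ).symm⟩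
  rw [tauInf, ordT_tau_phiS2 G h0, evInfQ_mk, evInfQ_mk]
  refine lt_order_qL_sub (wid G) (bddPer_slash_posN G f γ)
    ((isZeroAtImInfty_slash f γ).comp (tendsto_affH _ _)) ?_ ?_ (funext fun w => ?_)
  · rw [← evInfQ_mk]
    exact (map_ne_zero_iff _ (evInfQ_injective G _)).mpr (phiS2_num_ne_zero G h0)
  · rw [← evInfQ_mk]; exact (map_ne_zero_iff _ (evInfQ_injective G _)).mpr (jj_ne_zero G)
  · have h := congrFun (weightTwo_mul_thN G f γ) (affH (posN (wid G)) 0 w)
    simp only [Pi.mul_apply, comp_apply, compSL_apply, jj_smul] at h ⊢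
    exact h

/-- `phiS2 f` lies in the Riemann–Roch space of the divisor of `dj`. -/
lemma phiS2_mem (f : CuspForm G 2) : phiS2 G f ∈ riemannRochSpace (divDj G) := by
  rw [mem_riemannRochSpace]
  intro v
  rcases eq_or_ne (phiS2 G f) 0 with h0 | h0
  · rw [h0]; exact ordGE_zero v _
  refine ordGE_iff.mpr (Or.inr ?_)
  -- a finite place is the pullback of a point of the half plane, a pole of `j` that of a cusp
  rcases le_or_gt 0 (v.ord (jL G ℂ)) with hv | hv
  · obtain ⟨hpos, hW⟩ := divDj_finite G hv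
    set a := evalAt v (jL G ℂ)
    obtain ⟨z, hz⟩ := exists_jA_eq a
    obtain ⟨q, m, hm, hpull⟩ := exists_eq_pullback (τ := tauPt G (RingHom.id ℂ) z)
      (fun q c hc => ordT_tauPt_algebraMap G _ z q hc)
      (fun q q' c => by rw [tauPt_algebraMap, tauPt_algebraMap])
      (fun q q' => by
        rw [map_sub, map_sub, tauPt_jL G _ z q q', tauPt_algebraMap, tauPt_algebraMap])
      (n := (multJ z : ℤ)) (by exact_mod_cast multJ_pos z)
      (ordT_tauPt_jL_sub G (RingHom.id ℂ) (a := a) hz) ⟨yL G ℂ, tauPt_injective G _ z⟩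
      (card_coset_eq_finrank G (RingHom.id ℂ) a) v hpos
    have hne : jL G ℂ - algebraMap ℂ (FL G ℂ) a ≠ 0 := fun h => by rw [h, v.ord_zero] at hpos; omega
    have := lt_ord_of_pullback hm hpull hne h0 (c := -1) (by
      rw [ordT_tauPt_jL_sub G (RingHom.id ℂ) (a := a) hz q, neg_one_mul]
      exact neg_multJ_lt_ordT_tauPt_phiS2 G h0 z q)
    rw [hW]
    omega
  · obtain ⟨hpos, hW⟩ := divDj_pole G hv
    obtain ⟨q, m, hm, hpull⟩ := exists_eq_pullback (τ := tauInf G (RingHom.id ℂ))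
      (x := (jL G ℂ)⁻¹)
      (fun q c hc => ordT_tauInf_algebraMap G _ q hc)
      (fun q q' c => by rw [tauInf_algebraMap, tauInf_algebraMap])
      (fun q q' => by rw [map_inv₀, map_inv₀, tauInf_jL G _ q q'])
      (n := (wid G : ℤ)) (by exact_mod_cast NeZero.pos (wid G))
      (fun q => by rw [ordT_inv, ordT, tauInf, tau_jL, order_evInfQ_jW, neg_neg])
      ⟨yL G ℂ, tauInf_injective G _⟩
      (by rw [adjoin_inv_eq, (finrank_FL G (RingHom.id ℂ)).1, psiG_eq_card G]) v hpos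
    have hne : (jL G ℂ)⁻¹ ≠ 0 := fun h => by rw [h, v.ord_zero] at hpos; omega
    have := lt_ord_of_pullback hm hpull hne h0 (c := 1) (by
      rw [ordT_inv, ordT, tauInf, tau_jL, order_evInfQ_jW, neg_neg, one_mul]
      exact lt_ordT_tauInf_phiS2 G h0 q)
    rw [hW]
    omega

/-- `div (dj)` at a zero of `j - a`. -/
lemma divDj_of_pos {v : Place ℂ (FL G ℂ)} {a : ℂ}
    (h : 0 < v.ord (jL G ℂ - algebraMap ℂ (FL G ℂ) a)) :
    divDj G v = v.ord (jL G ℂ - algebraMap ℂ (FL G ℂ) a) - 1 := by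
  set x := jL G ℂ - algebraMap ℂ (FL G ℂ) a
  have hge : OrdGE v (jL G ℂ) 0 := by
    simpa [x] using ((ordGE_iff.mpr (Or.inr h) : OrdGE v x 1).mono zero_le_one).add
      (ordGE_algebraMap v a)
  have hnn : 0 ≤ v.ord (jL G ℂ) := by
    rcases ordGE_iff.mp hge with h | h
    · simp [h]
    · exact h
  obtain ⟨-, hW⟩ := divDj_finite G hnn
  rwa [evalAt_eq (ordGE_iff.mpr (Or.inr h) : OrdGE v x 1)] at hW

/-- A function in `L(div dj)` has order above `-multJ` at a point. -/
lemma neg_multJ_lt_ordT_tauPt {h : FL G ℂ} (h0 : h ≠ 0) (hh : h ∈ riemannRochSpace (divDj G))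
    (z : ℍ) (q : Coset G) : -(multJ z : ℤ) < ordT (tauPt G (RingHom.id ℂ) z q) h := by
  have := lt_ordT_of_mem_riemannRochSpace (tauPt G (RingHom.id ℂ) z q)
    (fun c hc => ordT_tauPt_algebraMap G _ z q hc)
    (ordT_tauPt_jL_sub G (RingHom.id ℂ) (a := jA z) rfl q) (by exact_mod_cast multJ_pos z) (-1)
    (fun P hP => by rw [divDj_of_pos G hP]; ring) h0 hh
  linarith

/-- A function in `L(div dj)` has order above the width at a cusp. -/
lemma lt_ordT_tauInf {h : FL G ℂ} (h0 : h ≠ 0) (hh : h ∈ riemannRochSpace (divDj G)) (q : Coset G) :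
    (wid G : ℤ) < ordT (tauInf G (RingHom.id ℂ) q) h := by
  have hnx : ordT (tauInf G (RingHom.id ℂ) q) (jL G ℂ)⁻¹ = (wid G : ℤ) := by
    rw [ordT_inv, ordT, tauInf, tau_jL, order_evInfQ_jW, neg_neg]
  have := lt_ordT_of_mem_riemannRochSpace (tauInf G (RingHom.id ℂ) q)
    (fun c hc => ordT_tauInf_algebraMap G _ q hc) hnx (by exact_mod_cast NeZero.pos (wid G)) 1
    (fun P hP => by rw [(divDj_pole G (v := P) (by rw [P.ord_inv] at hP; omega)).2, one_mul])
    h0 hh
  rwa [one_mul] at this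

/-- Every function in that Riemann–Roch space comes from a cusp form of weight two. -/
lemma exists_phiS2_eq (h : FL G ℂ) (hh : h ∈ riemannRochSpace (divDj G)) :
    ∃ f, phiS2 G f = h := by
  rcases eq_or_ne h 0 with rfl | h0
  · exact ⟨0, map_zero _⟩
  obtain ⟨a, b, ha, hb, hab, hord⟩ := ordT_tau G (RingHom.id ℂ) h0
  have ha' : (a : ℍ → ℂ) ≠ 0 := fun h => ha (Subtype.ext h)
  have hb' : (b : ℍ → ℂ) ≠ 0 := fun h => hb (Subtype.ext h)
  -- the quotient is holomorphic
  obtain ⟨w, hwm, huw⟩ := exists_mdiff_thN_eq_mul a.2.1 b.2.1 ha' hb' fun z => by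
    set q₀ : Coset G := ((1 : SL(2, ℤ)) : Coset G)
    have hev : ∀ g : W G, evPtQ G z q₀ g = tsL z (g : ℍ → ℂ) := fun g => by
      change evPt z (conjHom G q₀ g) = _
      rw [conjHom_one]; rfl
    have := neg_multJ_lt_ordT_tauPt G h0 hh z q₀
    rwa [tauPt, hord _ (evPtQ_injective G z q₀), hev, hev] at this
  -- weight two invariance
  have hwinv : ∀ γ ∈ G, w ∣[(2 : ℤ)] γ = w := fun γ hγ =>
    slash_two_eq_of_thN_eq hwm b.2.1 hb' huw (a.2.2.1 γ hγ) (b.2.2.1 γ hγ)
  -- vanishing at the cusps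
  have hwzero : ∀ γ : SL(2, ℤ), IsZeroAtImInfty (w ∣[(2 : ℤ)] γ) := fun γ => by
    set q : Coset G := ((γ⁻¹ : SL(2, ℤ)) : Coset G)
    have ho := lt_ordT_tauInf G h0 hh q
    rw [tauInf, hord _ (evInfQ_injective G q), evInfQ_mk, evInfQ_mk] at ho
    refine isZeroAtImInfty_slash_two (wid G) huw γ (A := ⟨_, compSL_mem_perAlg G γ a⟩)
      (B := ⟨_, compSL_mem_perAlg G γ b⟩) rfl rfl ?_ ?_ ho <;> rw [← evInfQ_mk]
    exacts [(map_ne_zero_iff _ (evInfQ_injective G _)).mpr ha,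
      (map_ne_zero_iff _ (evInfQ_injective G _)).mpr hb]
  let f : CuspForm (G) 2 :=
    { toFun := w
      slash_action_eq' := by
        rintro _ ⟨γ, hγ, rfl⟩
        exact hwinv γ hγ
      holo' := hwm
      zero_at_cusps' := fun hc => by
        have := LevelBase.finiteIndex (G := G)
        rw [Subgroup.IsArithmetic.isCusp_iff_isCusp_SL2Z] at hc
        rw [OnePoint.isZeroAt_iff_forall_SL2Z hc]
        exact fun γ _ => hwzero γ }
  refine ⟨f, (toKW G (RingHom.id ℂ)).injective ?_⟩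
  rw [toKW_phiS2, hab, div_eq_div_iff
    ((map_ne_zero_iff _ (algebraMap_W_injective G)).mpr (jj_ne_zero G))
    ((map_ne_zero_iff _ (algebraMap_W_injective G)).mpr hb), ← map_mul, ← map_mul]
  refine congrArg _ (Subtype.ext (funext fun z => ?_))
  change w z * (E46 z / Δ z) * (b : ℍ → ℂ) z = (a : ℍ → ℂ) z * (jj G : ℍ → ℂ) z
  exact mul_E46_div_mul_eq huw (jj_mul_eq G) z

/-- The dimension of the space of weight two cusp forms is the genus. -/
theorem finrank_cuspForm_two :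
    Module.finrank ℂ (CuspForm G 2) = genusFF ℂ (FL G ℂ) := by
  rw [← (isCanonical_canonicalDivisorOf (D_jL_ne_zero G)).2]
  exact LinearEquiv.finrank_eq (LinearEquiv.ofBijective
    ((phiS2 G).codRestrict (riemannRochSpace (divDj G)) (phiS2_mem G))
    ⟨fun x y h => phiS2_injective G (congrArg Subtype.val h),
      fun h => (exists_phiS2_eq G h.1 h.2).imp fun f hf => Subtype.ext hf⟩)

end Fermat.MC.Lvl
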