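import Fermat.Agent.MC.Lvl.Degeneracy

/-!
# Any separating function generates

`adjoin_pair_eq_top_of_injective`: so a map is determined by two values (Fricke maps of `JAC/XH`);
`exists_rat_gen`: rationality may be tested on any such function (`Diamond`).
-/

set_option autoImplicit false

noncomputable section

open Function Polynomial IntermediateField
open ModularCurve (coeffEmb coeffEmb_mem_laurentBaseChange)
open scoped MatrixGroups

namespace Fermat.MC.Lvl

variable {G : Subgroup SL(2, ℤ)} [LevelGen G] {L : Type*} [Field L] [Algebra ℚ L] (ι : L →+* ℂ)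

include ι in
/-- A function with distinct conjugates generates the field over `L(j)`. -/
theorem adjoin_eq_top_of_injective {x : FL G L} {f : W G}
    (hx : toKW G ι x = algebraMap (W G) (KW G) f)
    (hinj : Injective fun q => conjHom G q f) :
    adjoin L⟮jL G L⟯ {x} = (⊤ : IntermediateField L⟮jL G L⟯ (FL G L)) := by
  obtain ⟨hrank, hfin⟩ := finrank_FL G ι
  have := hfin
  have hint : IsIntegral L⟮jL G L⟯ x := IsIntegral.of_finite _ x
  refine IntermediateField.eq_of_le_of_finrank_le le_top ?_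
  rw [finrank_top', hrank, adjoin.finrank hint]
  by_contra hlt
  set σ := fun q : Coset G => tauPt G ι UpperHalfPlane.I q
  have hσ : ∀ q q' (a : L⟮jL G L⟯), σ q (algebraMap _ (FL G L) a) =
      σ q' (algebraMap _ (FL G L) a) :=
    fun q q' a => eq_on_adjoin (fun c => by simp only [tauPt_algebraMap])
      (tauPt_jL G ι _ q q') a
  have hinj' : Injective fun q => σ q x := fun q q' h => by
    simp only [σ, tauPt, tau_of_toKW G ι _ _ hx] at h
    exact hinj (evPt_injective _ h)
  set q₀ : Coset G := ((1 : SL(2, ℤ)) : Coset G)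
  refine ((minpoly.monic hint).map ((σ q₀).comp (algebraMap _ (FL G L)))).ne_zero ?_
  refine eq_zero_of_natDegree_lt_card_of_eval_eq_zero _ hinj' (fun q => ?_) ?_
  · rw [eval_map, show (σ q₀).comp (algebraMap _ (FL G L)) = (σ q).comp (algebraMap _ (FL G L)) from
      RingHom.ext (hσ q₀ q), ← hom_eval₂, ← aeval_def, minpoly.aeval, map_zero]
  · rw [(minpoly.monic hint).natDegree_map, ← psiG_eq_card]
    exact not_le.mp hlt

include ι in
/-- `j` and a function with distinct conjugates generate the field over `L`. -/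
theorem adjoin_pair_eq_top_of_injective {x : FL G L} {f : W G}
    (hx : toKW G ι x = algebraMap (W G) (KW G) f)
    (hinj : Injective fun q => conjHom G q f) :
    adjoin L {jL G L, x} = (⊤ : IntermediateField L (FL G L)) := by
  rw [← adjoin_simple_adjoin_simple, adjoin_eq_top_of_injective ι hx hinj, restrictScalars_top]

variable {G' : Subgroup SL(2, ℤ)} [LevelGen G']

/-- Rationality may be tested on any separating function. -/
theorem exists_rat_gen (Φ : W G →ₐ[ℂ] W G') (hΦ : Injective Φ)
    (hj : ∃ r : LaurentSeries ℚ, qW G' (Φ (jW G)) = coeffEmb ℂ r)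
    (f : W G) (r : LaurentSeries ℚ) (hf : qW G f = coeffEmb ℂ r)
    (hinj : Injective fun q => conjHom G q f)
    (hΦf : ∃ r' : LaurentSeries ℚ, qW G' (Φ f) = coeffEmb ℂ r') :
    ∃ r' : LaurentSeries ℚ, qW G' (Φ (genY G)) = coeffEmb ℂ r' := by
  let : Algebra ℚ (FL G ℚ) := SubalgebraClass.toAlgebra (FL G ℚ)
  set ι₀ := algebraMap ℚ ℂ
  set x : FL G ℚ := ⟨coeffEmb ℚ r, coeffEmb_mem_laurentBaseChange ℚ (mem_FQ_of_qW G f hf)⟩
  have hx : toKW G ι₀ x = algebraMap (W G) (KW G) f :=
    (qK G).injective (by rw [qK_toKW, qK_algebraMap, hf]; exact coeffMap_ι_coeffEmb ι₀ r)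
  set ΦK : KW G →+* KW G' := IsFractionRing.lift (A := W G)
    (g := (algebraMap (W G') (KW G')).comp Φ.toRingHom) ((algebraMap_W_injective G').comp hΦ)
  have hK : ∀ g : W G, ΦK (algebraMap (W G) (KW G) g) = algebraMap (W G') (KW G') (Φ g) :=
    fun g => IsFractionRing.lift_algebraMap (K := KW G)
      (g := (algebraMap (W G') (KW G')).comp Φ.toRingHom) _ g
  suffices h : ∀ z : FL G ℚ, qK G' (ΦK (toKW G ι₀ z)) ∈ (coeffEmb ℂ).fieldRange by
    obtain ⟨r', hr'⟩ := h (yL G ℚ)
    rw [toKW_yL, hK, qK_algebraMap] at hr'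
    exact ⟨r', hr'.symm⟩
  intro z
  have htop := adjoin_pair_eq_top_of_injective ι₀ hx hinj
  have hz := htop.ge (mem_top (x := z))
  refine IntermediateField.adjoin_induction ℚ (fun y hy => ?_) (fun c => ?_)
    (fun _ _ _ _ h h' => ?_) (fun _ _ h => ?_) (fun _ _ _ _ h h' => ?_) hz
  · rcases hy with rfl | rfl
    · obtain ⟨r₀, hr₀⟩ := hj
      exact ⟨r₀, by rw [toKW_jL, hK, qK_algebraMap, hr₀]⟩
    · obtain ⟨r', hr'⟩ := hΦf
      exact ⟨r', by rw [hx, hK, qK_algebraMap, hr']⟩
  · refine ⟨algebraMap ℚ (LaurentSeries ℚ) c, Eq.symm ?_⟩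
    erw [toKW_algebraMap G ι₀ c]
    rw [hK, qK_algebraMap, AlgHom.commutes, AlgHom.commutes, ← coeffMap_ι_algebraMap ι₀ c]
    rfl
  · rw [map_add, map_add, map_add]; exact add_mem h h'
  · rw [map_inv₀, map_inv₀, map_inv₀]; exact inv_mem h
  · rw [map_mul, map_mul, map_mul]; exact mul_mem h h'

end Fermat.MC.Lvl

end
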