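import Fermat.Agent.MC.Rational

/-!
# Weakly holomorphic modular functions for a general level

`LevelBase` is a level with its algebra `W G`; `LevelGen` adds a separating function with rational
series, which `Rational` and `Field` use to define the function field.
-/

set_option autoImplicit false

noncomputable section

open Filter Function
open UpperHalfPlane hiding I
open Polynomial
open scoped Manifold MatrixGroups Polynomial

namespace Fermat.MC.Lvl

/-- Modular functions lie in `Wfull`. -/
lemma W_le_Wfull (G : Subgroup SL(2, ℤ)) : W G ≤ Wfull := fun _ hf => ⟨hf.1, hf.2.2⟩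

/-- Inclusion. -/
def toFull (G : Subgroup SL(2, ℤ)) : W G →ₐ[ℂ] Wfull := Subalgebra.inclusion (W_le_Wfull G)

/-- The inclusion keeps the function. -/
@[simp] lemma coe_toFull (G : Subgroup SL(2, ℤ)) (f : W G) : (toFull G f : ℍ → ℂ) = f := rfl

/-- The inclusion is injective. -/
lemma toFull_injective (G : Subgroup SL(2, ℤ)) : Injective (toFull G) :=
  Subalgebra.inclusion_injective _

/-- The cosets indexing the conjugates. -/
abbrev Coset (G : Subgroup SL(2, ℤ)) : Type := SL(2, ℤ) ⧸ G

/-- There are finitely many cosets. -/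
noncomputable instance cosetFintype (G : Subgroup SL(2, ℤ)) [LevelBase G] : Fintype (Coset G) :=
  haveI := LevelBase.finiteIndex (G := G)
  Subgroup.fintypeQuotientOfFiniteIndex

/-- Classical decidable equality of cosets. -/
noncomputable instance (priority := high) cosetDecEq (G : Subgroup SL(2, ℤ)) :
    DecidableEq (Coset G) :=
  Classical.decEq _

/-- The index of `G`. -/
def psiG (G : Subgroup SL(2, ℤ)) : ℕ := Nat.card (Coset G)

/-- The index as a cardinality. -/
lemma psiG_eq_card (G : Subgroup SL(2, ℤ)) [LevelBase G] : psiG G = Fintype.card (Coset G) :=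
  Nat.card_eq_fintype_card

/-- The index is positive. -/
lemma psiG_pos (G : Subgroup SL(2, ℤ)) [LevelBase G] : 0 < psiG G := Nat.card_pos

/-- The conjugates of a function in `W G`. -/
def conjHom (G : Subgroup SL(2, ℤ)) (q : Coset G) : W G →ₐ[ℂ] Wfull :=
  (compHom q.out⁻¹).comp (toFull G)

/-- The conjugate at the coset of `γ`. -/
lemma conjHom_mk (G : Subgroup SL(2, ℤ)) (γ : SL(2, ℤ)) (f : W G) :
    conjHom G (γ : Coset G) f = compHom γ⁻¹ (toFull G f) := by
  obtain ⟨h, hh⟩ := QuotientGroup.mk_out_eq_mul (G) γ
  simp only [conjHom, AlgHom.comp_apply, hh, mul_inv_rev, compHom_mul]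
  congr 1
  exact Subtype.ext (f.2.2.1 _ (inv_mem h.2))

/-- The conjugate at the trivial coset. -/
lemma conjHom_one (G : Subgroup SL(2, ℤ)) (f : W G) : conjHom G ((1 : SL(2, ℤ)) : Coset G) f =
    toFull G f := by
  rw [conjHom_mk, inv_one, compHom_one]

/-- The modular group permutes the conjugates. -/
lemma compHom_conjHom (G : Subgroup SL(2, ℤ)) (δ : SL(2, ℤ)) (q : Coset G) (f : W G) :
    compHom δ (conjHom G q f) = conjHom G (δ⁻¹ • q) f := by
  induction q using QuotientGroup.induction_on with
  | H γ =>
    rw [MulAction.Quotient.smul_mk, smul_eq_mul, conjHom_mk, conjHom_mk, ← compHom_mul]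
    congr 2
    simp

/-- Each conjugation is injective. -/
lemma conjHom_injective (G : Subgroup SL(2, ℤ)) (q : Coset G) : Injective (conjHom G q) :=
  (compHom_injective _).comp (toFull_injective G)

/-- Modular functions of a level form a domain. -/
instance (G : Subgroup SL(2, ℤ)) : IsDomain (W G) :=
  Injective.isDomain (toFull G).toRingHom (toFull_injective G)

/-- `j` in `W G`. -/
def jW (G : Subgroup SL(2, ℤ)) : W G := ⟨jA, jA_mem_W G⟩

/-- The expansion of `j`. -/
lemma qW_jW (G : Subgroup SL(2, ℤ)) [LevelBase G] :
    qW G (jW G) = ModularCurve.coeffEmb ℂ ModularCurve.jq := by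
  rw [qW_apply]; exact qL_jA

/-- Conjugation fixes `j`. -/
lemma conjHom_jW (G : Subgroup SL(2, ℤ)) (q : Coset G) : conjHom G q (jW G) = jFull :=
  Subtype.ext (funext fun z => jA_smul _ z)

/-- Conjugation fixes polynomials in `j`. -/
lemma conjHom_aeval_jW (G : Subgroup SL(2, ℤ)) (q : Coset G) (p : ℂ[X]) :
    conjHom G q (aeval (jW G) p) = jHom p :=
  (aeval_algHom_apply (conjHom G q) (jW G) p).symm.trans (by rw [conjHom_jW]; rfl)

/-- A separating function with rational q-series. -/
class LevelGen (G : Subgroup SL(2, ℤ)) extends LevelBase G where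
  /-- The separating function. -/
  gen : W G
  /-- Its rational q-series. -/
  genSeries : LaurentSeries ℚ
  /-- The expansion of the function is the rational series. -/
  qW_gen : qW G gen = ModularCurve.coeffEmb ℂ genSeries
  /-- Distinct cosets give distinct conjugates. -/
  gen_injective : Injective fun q => conjHom G q gen

/-- The conjugates of `j (N τ)` are distinct. -/
theorem conjHom_jN_injective (N : ℕ) [NeZero N] :
    Injective fun q : Coset (CongruenceSubgroup.Gamma0 N) =>
      conjHom (CongruenceSubgroup.Gamma0 N) q ⟨jN N, jN_mem_W N⟩ := by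
  intro q q' h
  induction q using QuotientGroup.induction_on with
  | H γ =>
  induction q' using QuotientGroup.induction_on with
  | H γ' =>
    simp only [conjHom_mk] at h
    apply QuotientGroup.eq.mpr
    apply mem_Gamma0_of_compSL_jN_eq
    have h' := congrArg (compHom γ') h
    rw [← compHom_mul, ← compHom_mul, inv_mul_cancel, compHom_one] at h'
    exact congrArg Subtype.val h'

/-- `j (N τ)` separates at level `Γ₀(N)`. -/
instance levelGen_Gamma0 (N : ℕ) [NeZero N] : LevelGen (CongruenceSubgroup.Gamma0 N) where
  gen := ⟨jN N, jN_mem_W N⟩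
  genSeries := ModularCurve.qExpand ℚ N ModularCurve.jq
  qW_gen := qW_jN N
  gen_injective := conjHom_jN_injective N

end Fermat.MC.Lvl

namespace Fermat.MC

/-- The cosets indexing the conjugates at level `Γ₀(N)`. -/
abbrev CosetN (N : ℕ) : Type := Lvl.Coset (CongruenceSubgroup.Gamma0 N)

/-- The degree `[SL(2, ℤ) : Γ₀(N)]`. -/
abbrev psiN (N : ℕ) : ℕ := Lvl.psiG (CongruenceSubgroup.Gamma0 N)

/-- The degree as a cardinality. -/
lemma psiN_eq_card (N : ℕ) [NeZero N] : psiN N = Fintype.card (CosetN N) := Lvl.psiG_eq_card _

end Fermat.MC
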