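import Fermat.Agent.MC.Lvl.Maps

/-!
# Inclusion of levels, scaling `τ ↦ ℓ τ` and translates by normalisers

These are the maps behind degeneracy, Atkin-Lehner and diamond operators on the curves
(`JAC/XH/Maps`, `Diamond`).
-/

set_option autoImplicit false

noncomputable section

open Function Polynomial IntermediateField
open ModularCurve (coeffEmb coeffMap qExpand jq coeffEmb_mem_laurentBaseChange)
open scoped Polynomial MatrixGroups

namespace Fermat.MC.Lvl

variable {G G' : Subgroup SL(2, ℤ)}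

/-! ### Inclusion -/

section Incl

variable [LevelGen G] [LevelGen G'] (h : G' ≤ G)

/-- The inclusion as a map of levels. -/
def inclMap : RatMap G G' where
  hom := Subalgebra.inclusion (W_anti h)
  injective := Subalgebra.inclusion_injective _
  rat_j := ⟨jq, qW_jW G'⟩
  rat_gen := ⟨genQ G, qW_genY G⟩

include h in
/-- Inclusion keeps expansions. -/
lemma qK_homK_inclMap (k : KW G) : qK G' ((inclMap h).homK k) = qK G k := by
  obtain ⟨a, b, -, rfl⟩ := IsFractionRing.div_surjective (A := W G) k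
  rw [map_div₀, map_div₀, map_div₀, RatMap.homK_algebraMap, RatMap.homK_algebraMap,
    qK_algebraMap, qK_algebraMap, qK_algebraMap, qK_algebraMap]
  rfl

/-- Inclusion keeps series. -/
theorem coe_mapL_inclMap {L : Type*} [Field L] [Algebra ℚ L] (ι : L →+* ℂ) (x : FL G L) :
    ((inclMap h).mapL ι x : LaurentSeries L) = (x : LaurentSeries L) :=
  (coeffMap ι).injective (by rw [RatMap.coeffMap_mapL, qK_homK_inclMap, qK_toKW])

end Incl

/-! ### Scaling -/

section Scale

variable (ℓ : ℕ) [NeZero ℓ]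

/-- The condition for `f ↦ f (ℓ τ)` to map level `G` to level `G'`. -/
def ScaleLe (G G' : Subgroup SL(2, ℤ)) : Prop :=
  ∀ γ ∈ G', ∃ δ ∈ G, δ 0 0 = γ 0 0 ∧ δ 0 1 = (ℓ : ℤ) * γ 0 1 ∧ (ℓ : ℤ) * δ 1 0 = γ 1 0 ∧
    δ 1 1 = γ 1 1

variable {ℓ}

/-- Scaling by `ℓ` maps functions of one level to the other. -/
lemma comp_posN_mem_W (h : ScaleLe ℓ G G') (f : W G) :
    (f : UpperHalfPlane → ℂ) ∘ affH (posN ℓ) 0 ∈ W G' := by
  refine ⟨mdiff_comp_affH f.2.1 _ _, fun γ hγ => funext fun z => ?_, fun γ => ?_⟩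
  · obtain ⟨δ, hδ, h1, h2, h3, h4⟩ := h γ hγ
    simp only [compSL_apply, comp_apply]
    rw [affH_posN_smul ℓ γ δ (g := ℓ) (b := 0) (d := 1) (by exact_mod_cast NeZero.pos ℓ) one_pos
      (by rw [h1]; ring) (by rw [h2]; ring) (by rw [← h3]; ring) (by rw [h4]; ring)]
    have hinv := congrFun (f.2.2.1 δ hδ)
    simp only [compSL_apply] at hinv
    rw [hinv]
    simp [posN]
  · obtain ⟨δ, g, b, d, hg, hd, -, h1, h2, h3, h4⟩ := exists_decomp ℓ γ
    have hfun : compSL γ ((f : UpperHalfPlane → ℂ) ∘ affH (posN ℓ) 0) =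
        compSL δ (f : UpperHalfPlane → ℂ) ∘ affH ⟨(g : ℝ) / d,
          div_pos (by exact_mod_cast hg) (by exact_mod_cast hd)⟩ (b / d) := funext fun z => by
      simp only [compSL_apply, comp_apply]
      rw [affH_posN_smul ℓ γ δ hg hd h1 h2 h3 h4]
    rw [hfun]
    exact (f.2.2.2 δ).comp_affH _ _

variable [LevelGen G] [LevelGen G'] (h : ScaleLe ℓ G G')

/-- `f ↦ f (ℓ τ)` on modular functions. -/
def scaleW : W G →ₐ[ℂ] W G' where
  toFun f := ⟨_, comp_posN_mem_W h f⟩
  map_one' := rfl
  map_mul' _ _ := rfl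
  map_zero' := rfl
  map_add' _ _ := rfl
  commutes' _ := rfl

include h in
/-- Scaling substitutes `q ^ ℓ`. -/
lemma qW_scaleW (f : W G) : qW G' (scaleW h f) = qExpand ℂ ℓ (qW G f) := by
  rw [qW_apply, qW_apply, ← qL_comp_posN ℓ ⟨_, W_le_perAlg G f.2⟩]
  rfl

/-- Substitution commutes with extending coefficients. -/
lemma qExpand_coeffEmb {L : Type*} [Field L] [Algebra ℚ L] (x : LaurentSeries ℚ) :
    qExpand L ℓ (coeffEmb L x) = coeffEmb L (qExpand ℚ ℓ x) := by
  rw [coeffEmb, ModularCurve.coeffMap_qExpand]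

/-- Scaling as a map of levels. -/
def scaleMap : RatMap G G' where
  hom := scaleW h
  injective := fun f g hfg => qW_injective G ((qExpand ℂ ℓ).injective (by
    rw [← qW_scaleW h, ← qW_scaleW h, hfg]))
  rat_j := ⟨qExpand ℚ ℓ jq, by rw [qW_scaleW h, qW_jW, qExpand_coeffEmb]⟩
  rat_gen := ⟨qExpand ℚ ℓ (genQ G), by rw [qW_scaleW h, qW_genY, qExpand_coeffEmb]⟩

include h in
/-- Scaling substitutes `q ^ ℓ` on meromorphic functions. -/
lemma qK_homK_scaleMap (k : KW G) : qK G' ((scaleMap h).homK k) = qExpand ℂ ℓ (qK G k) := by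
  obtain ⟨a, b, -, rfl⟩ := IsFractionRing.div_surjective (A := W G) k
  rw [map_div₀, map_div₀, map_div₀, RatMap.homK_algebraMap, RatMap.homK_algebraMap,
    qK_algebraMap, qK_algebraMap, qK_algebraMap, qK_algebraMap, map_div₀,
    show (scaleMap h).hom a = scaleW h a from rfl, show (scaleMap h).hom b = scaleW h b from rfl,
    qW_scaleW h, qW_scaleW h]

/-- Scaling substitutes `q ^ ℓ` on series. -/
theorem coe_mapL_scaleMap {L : Type*} [Field L] [Algebra ℚ L] (ι : L →+* ℂ) (x : FL G L) :
    ((scaleMap h).mapL ι x : LaurentSeries L) = qExpand L ℓ (x : LaurentSeries L) :=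
  (coeffMap ι).injective (by
    rw [RatMap.coeffMap_mapL, qK_homK_scaleMap, qK_toKW, ModularCurve.coeffMap_qExpand])

include h in
/-- Substitution maps the rational field into that of the smaller level. -/
theorem qExpand_mem_FQ {x : LaurentSeries ℚ} (hx : x ∈ FQ G) : qExpand ℚ ℓ x ∈ FQ G' := by
  obtain ⟨a, b, hb, hab⟩ := (mem_FQ_iff G).mp hx
  refine (mem_FQ_iff G').mpr ⟨scaleW h a, scaleW h b, fun h0 => hb ((scaleMap h).injective
    (h0.trans (map_zero (scaleMap h).hom).symm)), ?_⟩
  rw [qW_scaleW h, qW_scaleW h, ← hab, map_mul, qExpand_coeffEmb]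

end Scale

/-! ### Translates by normalisers -/

section Trans

/-- `δ` normalises `G` and preserves rationality of the generator's q-series. -/
structure RatNormal (G : Subgroup SL(2, ℤ)) [LevelGen G] (δ : SL(2, ℤ)) : Prop where
  /-- `δ` normalises the level. -/
  conj_mem : ∀ γ ∈ G, δ * γ * δ⁻¹ ∈ G
  /-- The generator composed with `δ` has rational q-series. -/
  rat_gen : ∃ r : LaurentSeries ℚ, ∀ hmem : compSL δ (genY G : UpperHalfPlane → ℂ) ∈ W G,
    qW G ⟨_, hmem⟩ = coeffEmb ℂ r

variable [LevelGen G]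

/-- Translates by a normaliser keep the level. -/
lemma compSL_mem_W {δ : SL(2, ℤ)} (hδ : RatNormal G δ) (f : W G) :
    compSL δ (f : UpperHalfPlane → ℂ) ∈ W G := by
  refine ⟨mdiff_compSL δ f.2.1, fun γ hγ => ?_, fun γ => ?_⟩
  · rw [← compSL_mul]
    calc compSL (δ * γ) (f : UpperHalfPlane → ℂ)
        = compSL (δ * γ * δ⁻¹ * δ) (f : UpperHalfPlane → ℂ) := by rw [inv_mul_cancel_right]
      _ = compSL δ (f : UpperHalfPlane → ℂ) := by rw [compSL_mul, f.2.2.1 _ (hδ.conj_mem γ hγ)]
  · rw [← compSL_mul]; exact f.2.2.2 _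

/-- `f ↦ f ∘ δ` on modular functions. -/
def transW {δ : SL(2, ℤ)} (hδ : RatNormal G δ) : W G →ₐ[ℂ] W G where
  toFun f := ⟨_, compSL_mem_W hδ f⟩
  map_one' := rfl
  map_mul' _ _ := rfl
  map_zero' := rfl
  map_add' _ _ := rfl
  commutes' _ := rfl

/-- The translate as a map of levels. -/
def transMap {δ : SL(2, ℤ)} (hδ : RatNormal G δ) : RatMap G G where
  hom := transW hδ
  injective := fun f g h => toFull_injective G (compHom_injective δ
    (a₁ := toFull G f) (a₂ := toFull G g) (Subtype.ext (congrArg Subtype.val h :)))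
  rat_j := ⟨jq, by
    rw [← qW_jW G]
    exact congrArg (qW G) (Subtype.ext (funext fun z => jA_smul δ z))⟩
  rat_gen := by
    obtain ⟨r, hr⟩ := hδ.rat_gen
    exact ⟨r, hr _⟩

/-- Translations compose. -/
lemma homK_transMap_comp {δ δ' : SL(2, ℤ)} (hδ : RatNormal G δ) (hδ' : RatNormal G δ')
    (hmul : RatNormal G (δ' * δ)) (k : KW G) :
    (transMap hδ).homK ((transMap hδ').homK k) = (transMap hmul).homK k := by
  obtain ⟨a, b, -, rfl⟩ := IsFractionRing.div_surjective (A := W G) k
  simp only [map_div₀, RatMap.homK_algebraMap]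
  have e : ∀ f : W G, transW hδ (transW hδ' f) = transW hmul f := fun f =>
    Subtype.ext (compSL_mul δ' δ _).symm
  exact congrArg₂ (· / ·) (congrArg _ (e a)) (congrArg _ (e b))

/-- Translation by the level is trivial. -/
lemma homK_transMap_of_mem {δ : SL(2, ℤ)} (hδ : RatNormal G δ) (hG : δ ∈ G) (k : KW G) :
    (transMap hδ).homK k = k := by
  obtain ⟨a, b, -, rfl⟩ := IsFractionRing.div_surjective (A := W G) k
  simp only [map_div₀, RatMap.homK_algebraMap]
  have e : ∀ f : W G, transW hδ f = f := fun f => Subtype.ext (f.2.2.1 δ hG)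
  exact congrArg₂ (· / ·) (congrArg _ (e a)) (congrArg _ (e b))

variable {L : Type*} [Field L] [Algebra ℚ L] (ι : L →+* ℂ)

/-- Translations compose on the field over `L`. -/
theorem mapL_transMap_comp {δ δ' : SL(2, ℤ)} (hδ : RatNormal G δ) (hδ' : RatNormal G δ')
    (hmul : RatNormal G (δ' * δ)) (x : FL G L) :
    (transMap hδ).mapL ι ((transMap hδ').mapL ι x) = (transMap hmul).mapL ι x :=
  Subtype.ext ((coeffMap ι).injective (by
    rw [RatMap.coeffMap_mapL, RatMap.coeffMap_mapL, RatMap.toKW_mapL,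
      homK_transMap_comp hδ hδ' hmul]))

/-- Translation by the level is trivial on the field over `L`. -/
theorem mapL_transMap_of_mem {δ : SL(2, ℤ)} (hδ : RatNormal G δ) (hG : δ ∈ G) (x : FL G L) :
    (transMap hδ).mapL ι x = x :=
  Subtype.ext ((coeffMap ι).injective (by
    rw [RatMap.coeffMap_mapL, homK_transMap_of_mem hδ hG, qK_toKW]))

/-- The automorphism of the function field given by a translate. -/
def transEquiv {δ : SL(2, ℤ)} (hδ : RatNormal G δ) (hinv : RatNormal G δ⁻¹) :
    FL G L ≃ₐ[L] FL G L :=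
  AlgEquiv.ofAlgHom ((transMap hδ).mapL ι) ((transMap hinv).mapL ι)
    (AlgHom.ext fun x => by
      have hmul : RatNormal G (δ⁻¹ * δ) := by
        rw [inv_mul_cancel]
        exact ⟨fun γ hγ => by simpa using hγ, genQ G, fun _ => by
          rw [← qW_genY G]
          exact congrArg (qW G) (Subtype.ext (funext fun z => by simp [compSL_apply]))⟩
      rw [AlgHom.comp_apply, mapL_transMap_comp ι hδ hinv hmul]
      exact mapL_transMap_of_mem ι hmul (by rw [inv_mul_cancel]; exact one_mem G) x)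
    (AlgHom.ext fun x => by
      have hmul : RatNormal G (δ * δ⁻¹) := by
        rw [mul_inv_cancel]
        exact ⟨fun γ hγ => by simpa using hγ, genQ G, fun _ => by
          rw [← qW_genY G]
          exact congrArg (qW G) (Subtype.ext (funext fun z => by simp [compSL_apply]))⟩
      rw [AlgHom.comp_apply, mapL_transMap_comp ι hinv hδ hmul]
      exact mapL_transMap_of_mem ι hmul (by rw [mul_inv_cancel]; exact one_mem G) x)

/-- The automorphism is the translation map. -/
@[simp] lemma transEquiv_apply {δ : SL(2, ℤ)} (hδ : RatNormal G δ) (hinv : RatNormal G δ⁻¹)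
    (x : FL G L) : transEquiv ι hδ hinv x = (transMap hδ).mapL ι x := rfl

end Trans

end Fermat.MC.Lvl

end
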