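import Fermat.Agent.MC.Lvl.Basic

/-!
# Interpolation for a general level

`exists_interp`: `Φ'(g) · W G ⊆ ℂ[j][g]` for a separating `g`, the reason why `j` and `g` generate
all functions of the level (`Rational`).
-/

set_option autoImplicit false

noncomputable section

open Filter Function
open UpperHalfPlane hiding I
open Polynomial
open scoped Manifold MatrixGroups Polynomial

namespace Fermat.MC.Lvl

variable (G : Subgroup SL(2, ℤ)) [LevelGen G]

/-- The chosen separating function. -/
def genY : W G := LevelGen.gen

/-- The rational `q`-series of the generator. -/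
def genQ : LaurentSeries ℚ := LevelGen.genSeries G

/-- The generator has a rational expansion. -/
lemma qW_genY : qW G (genY G) = ModularCurve.coeffEmb ℂ (genQ G) :=
  LevelGen.qW_gen

/-- The conjugates of the generator are distinct. -/
lemma genY_injective : Injective fun q : Coset G => conjHom G q (genY G) :=
  LevelGen.gen_injective

/-- The generator and `j` evaluated in `W G`. -/
def bW : ℂ[X][X] →+* W G := eval₂RingHom (aeval (jW G)).toRingHom (genY G)

/-- The conjugates of a polynomial in `j` and the generator. -/
lemma conjHom_bW (q : Coset G) (H : ℂ[X][X]) :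
    conjHom G q (bW G H) = (H.map jHom.toRingHom).eval (conjHom G q (genY G)) := by
  rw [bW, coe_eval₂RingHom, ← AlgHom.coe_toRingHom, hom_eval₂, eval_map]
  congr 1
  exact RingHom.ext fun p => conjHom_aeval_jW G q p

/-- The characteristic polynomial of an element of `W G`. -/
def conjPoly (f : W G) : Wfull[X] := ∏ q : Coset G, (X - C (conjHom G q f))

/-- The characteristic polynomial is invariant. -/
lemma conjPoly_map (f : W G) (δ : SL(2, ℤ)) :
    (conjPoly G f).map (compHom δ).toRingHom = conjPoly G f := by
  simp only [conjPoly, Polynomial.map_prod, Polynomial.map_sub, map_X, map_C,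
    AlgHom.toRingHom_eq_coe, RingHom.coe_coe, compHom_conjHom]
  exact Equiv.prod_comp (MulAction.toPerm δ⁻¹) fun q => X - C (conjHom G q f)

/-- The characteristic polynomial is monic. -/
lemma conjPoly_monic (f : W G) : (conjPoly G f).Monic :=
  monic_prod_of_monic _ _ fun _ _ => monic_X_sub_C _

/-- The characteristic polynomial has degree the index. -/
lemma natDegree_conjPoly (f : W G) : (conjPoly G f).natDegree = psiG G := by
  rw [conjPoly, natDegree_finsetProd_X_sub_C_eq_card, Finset.card_univ, psiG_eq_card G]

/-- The characteristic polynomial of the generator is defined over `ℂ[j]`. -/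
theorem exists_phiG : ∃ P : ℂ[X][X], P.Monic ∧ P.natDegree = psiG G ∧
    P.map jHom.toRingHom = conjPoly G (genY G) := by
  obtain ⟨P, hP, hdeg, hm⟩ := lifts_and_degree_eq_and_monic
    (mem_lifts_jHom (conjPoly_map G (genY G))) (conjPoly_monic G _)
  exact ⟨P, hm, by rw [← natDegree_conjPoly G (genY G)]; exact natDegree_eq_of_degree_eq hdeg, hP⟩

/-- The modular equation of level `G` over `ℂ`. -/
def phiG : ℂ[X][X] := (exists_phiG G).choose

/-- The equation is monic. -/
lemma phiG_monic : (phiG G).Monic := (exists_phiG G).choose_spec.1
/-- The equation has degree the index. -/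
lemma natDegree_phiG : (phiG G).natDegree = psiG G := (exists_phiG G).choose_spec.2.1
/-- The equation is the characteristic polynomial. -/
lemma map_phiG : (phiG G).map jHom.toRingHom = conjPoly G (genY G) :=
  (exists_phiG G).choose_spec.2.2

/-- No relation has degree below the index. -/
theorem bW_eq_zero_imp {H : ℂ[X][X]} (h : H.natDegree < psiG G) (h0 : bW G H = 0) : H = 0 := by
  apply Polynomial.map_injective jHom.toRingHom jHom_injective
  rw [Polynomial.map_zero]
  refine eq_zero_of_natDegree_lt_card_of_eval_eq_zero _ (genY_injective G) (fun q => ?_) ?_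
  · rw [← conjHom_bW, h0, map_zero]
  · rw [← psiG_eq_card G]
    exact lt_of_le_of_lt natDegree_map_le h

/-- The generator satisfies its equation. -/
theorem bW_phiG : bW G (phiG G) = 0 := by
  apply toFull_injective
  rw [map_zero, ← conjHom_one, conjHom_bW, map_phiG, conjPoly, eval_prod]
  exact Finset.prod_eq_zero (Finset.mem_univ ((1 : SL(2, ℤ)) : Coset G)) (by simp)

/-- The interpolation denominator `Φ'(g)`, with `Φ` the equation and `g` the generator. -/
def denG : W G := bW G (derivative (phiG G))

/-- The denominator is nonzero. -/
lemma denG_ne_zero : denG G ≠ 0 :=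
  map_derivative_ne_zero (psiG_pos G) (natDegree_phiG G) (fun _ => bW_eq_zero_imp G)

/-- The Lagrange interpolation polynomial of `f` at the conjugates of the generator. -/
def interpPoly (f : W G) : Wfull[X] :=
  ∑ q : Coset G, C (conjHom G q f) *
    ∏ q' ∈ Finset.univ.erase q, (X - C (conjHom G q' (genY G)))

/-- The interpolation polynomial is invariant. -/
lemma interpPoly_map (f : W G) (δ : SL(2, ℤ)) :
    (interpPoly G f).map (compHom δ).toRingHom = interpPoly G f := by
  have hC : ∀ g : W G, ∀ q : Coset G, C ((compHom δ).toRingHom (conjHom G q g)) =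
      C (conjHom G (δ⁻¹ • q) g) := fun g q => congrArg C (compHom_conjHom G δ q g)
  rw [interpPoly, Polynomial.map_sum]
  simp_rw [Polynomial.map_mul, Polynomial.map_prod, Polynomial.map_sub, map_X, map_C, hC]
  exact sum_prod_erase_comp_equiv (MulAction.toPerm δ⁻¹) (fun q => C (conjHom G q f))
    (fun q => X - C (conjHom G q (genY G)))

/-- The interpolation polynomial has degree below the index. -/
lemma natDegree_interpPoly (f : W G) : (interpPoly G f).natDegree < psiG G := by
  rw [psiG_eq_card G]
  exact natDegree_sum_mul_prod_erase_lt _ _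

/-- The values of the interpolation polynomial at the nodes. -/
lemma eval_interpPoly (f : W G) (q₀ : Coset G) :
    (interpPoly G f).eval (conjHom G q₀ (genY G)) =
      conjHom G q₀ f * (derivative (conjPoly G (genY G))).eval (conjHom G q₀ (genY G)) := by
  rw [interpPoly, conjPoly]
  exact eval_sum_mul_prod_erase _ (fun q => conjHom G q (genY G)) q₀

/-- Lagrange interpolation: `Φ'(g) · W G ⊆ ℂ[j][g]` for the generator `g`. -/
theorem exists_interp (f : W G) :
    ∃ H : ℂ[X][X], H.natDegree < psiG G ∧ f * denG G = bW G H := by
  obtain ⟨H, hH, hHdeg⟩ := exists_degree_eq_of_mem_lifts (mem_lifts_jHom (interpPoly_map G f))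
  refine ⟨H, by rw [natDegree_eq_of_degree_eq hHdeg]; exact natDegree_interpPoly G f, ?_⟩
  apply toFull_injective
  rw [← conjHom_one, ← conjHom_one, map_mul, denG, conjHom_bW, conjHom_bW, hH, ← derivative_map,
    map_phiG, eval_interpPoly]

end Fermat.MC.Lvl
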