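import Fermat.Agent.MC.Lvl.Field

/-!
# Maps of levels: inclusions, scalings and translates

`mapL`: a map of levels gives a map of the fields over any `L`, compatible with rational series and
coefficientwise field maps; `Degeneracy` specialises it.
-/

set_option autoImplicit false

noncomputable section

open Function IntermediateField
open ModularCurve (coeffEmb coeffMap jq coeffEmb_mem_laurentBaseChange)
open scoped MatrixGroups

-- tried first: the other routes unfold the fraction field and take seconds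
attribute [local instance 10000] RingHomClass.toAddMonoidHomClass AddMonoidHomClass.toAddHomClass

namespace Fermat.MC.Lvl

variable (G G' : Subgroup SL(2, ℤ))

/-- A homomorphism of algebras of modular functions sending `j` and the generator to functions
with rational q-series. -/
structure RatMap [LevelGen G] [LevelBase G'] where
  /-- The homomorphism of algebras of modular functions. -/
  hom : W G →ₐ[ℂ] W G'
  /-- The map is injective. -/
  injective : Injective hom
  /-- The image of `j` has rational q-series. -/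
  rat_j : ∃ r : LaurentSeries ℚ, qW G' (hom (jW G)) = coeffEmb ℂ r
  /-- The image of the generator has rational q-series. -/
  rat_gen : ∃ r : LaurentSeries ℚ, qW G' (hom (genY G)) = coeffEmb ℂ r

namespace RatMap

variable {G G'} [LevelGen G] [LevelGen G'] (Φ : RatMap G G')

/-- The induced map of meromorphic functions. -/
def homK : KW G →+* KW G' :=
  IsFractionRing.lift (A := W G) (g := (algebraMap (W G') (KW G')).comp Φ.hom.toRingHom)
    ((algebraMap_W_injective G').comp Φ.injective)

/-- On functions holomorphic on `ℍ` the extension is the map itself. -/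
lemma homK_algebraMap (f : W G) :
    Φ.homK (algebraMap (W G) (KW G) f) = algebraMap (W G') (KW G') (Φ.hom f) :=
  IsFractionRing.lift_algebraMap (K := KW G)
    (g := (algebraMap (W G') (KW G')).comp Φ.hom.toRingHom) _ f

attribute [local instance 10000] SubalgebraClass.toAlgebra HahnSeries.powerSeriesAlgebra

variable {L : Type*} [Field L] [Algebra ℚ L] (ι : L →+* ℂ)

/-- A map of levels preserves the fields defined over `L`. -/
lemma mem_range_mapL (x : FL G L) :
    qK G' (Φ.homK (toKW G ι x)) ∈ ((coeffMap ι).comp (FL G' L).val.toRingHom).fieldRange := by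
  have hx : (x : LaurentSeries L) ∈ adjoin L {coeffEmb L jq, coeffEmb L (genQ G)} := by
    rw [← FL_eq_adjoin]; exact x.2
  obtain ⟨x, hxF⟩ := x
  have hmem : ∀ y, y ∈ adjoin L {coeffEmb L jq, coeffEmb L (genQ G)} → y ∈ FL G L :=
    fun y hy => by rwa [FL_eq_adjoin]
  set R := ((coeffMap ι).comp (FL G' L).val.toRingHom).fieldRange
  -- a function with rational expansion at the new level lands in the range
  have hgen : ∀ (f : W G) (r : LaurentSeries ℚ), qW G' (Φ.hom f) = coeffEmb ℂ r →
      qK G' (Φ.homK (algebraMap (W G) (KW G) f)) ∈ R := fun f r hr =>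
    ⟨⟨coeffEmb L r, coeffEmb_mem_laurentBaseChange L (mem_FQ_of_qW G' (Φ.hom f) hr)⟩, by
      rw [homK_algebraMap, qK_algebraMap, hr]
      exact coeffMap_ι_coeffEmb ι r⟩
  -- induction on the field generated by `j` and the generator, where the hypotheses on `Φ` apply
  refine IntermediateField.adjoin_induction L
    (p := fun y hy => qK G' (Φ.homK (toKW G ι ⟨y, hmem y hy⟩)) ∈ R)
    (fun y hy => ?_) (fun c => ?_) (fun u v hu hv h h' => ?_) (fun u hu h => ?_)
    (fun u v hu hv h h' => ?_) hx
  · rcases hy with rfl | rfl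
    · obtain ⟨r, hr⟩ := Φ.rat_j
      have := hgen _ r hr
      rwa [← toKW_jL G ι] at this
    · obtain ⟨r, hr⟩ := Φ.rat_gen
      have := hgen _ r hr
      rwa [← toKW_yL G ι] at this
  · refine ⟨algebraMap L (FL G' L) c, ?_⟩
    rw [show (⟨algebraMap L (LaurentSeries L) c, hmem _ (IntermediateField.algebraMap_mem _ c)⟩ :
      FL G L) = algebraMap L (FL G L) c from rfl, toKW_algebraMap, homK_algebraMap, qK_algebraMap,
      AlgHom.commutes, AlgHom.commutes]
    exact coeffMap_ι_algebraMap ι c
  · rw [show (⟨u + v, hmem _ (add_mem hu hv)⟩ : FL G L) = ⟨u, hmem u hu⟩ + ⟨v, hmem v hv⟩ from rfl,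
      map_add, map_add, map_add]
    exact add_mem h h'
  · rw [show (⟨u⁻¹, hmem _ (inv_mem hu)⟩ : FL G L) = (⟨u, hmem u hu⟩ : FL G L)⁻¹ from rfl,
      map_inv₀, map_inv₀, map_inv₀]
    exact inv_mem h
  · rw [show (⟨u * v, hmem _ (mul_mem hu hv)⟩ : FL G L) = ⟨u, hmem u hu⟩ * ⟨v, hmem v hv⟩ from rfl,
      map_mul, map_mul, map_mul]
    exact mul_mem h h'

/-- The image of `x` under the map of levels, in the rational structure. -/
def mapLFun (x : FL G L) : FL G' L := (Φ.mem_range_mapL ι x).choose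

/-- The expansion of the image. -/
lemma coeffMap_mapLFun (x : FL G L) :
    coeffMap ι (Φ.mapLFun ι x : LaurentSeries L) = qK G' (Φ.homK (toKW G ι x)) :=
  (Φ.mem_range_mapL ι x).choose_spec

/-- The image is characterised by its expansion. -/
lemma eq_mapLFun {x : FL G L} {z : FL G' L}
    (h : coeffMap ι (z : LaurentSeries L) = qK G' (Φ.homK (toKW G ι x))) : Φ.mapLFun ι x = z :=
  Subtype.ext (((coeffMap ι).comp (FL G' L).val.toRingHom).injective
    ((Φ.coeffMap_mapLFun ι x).trans h.symm) |> congrArg Subtype.val)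

/-- The induced map of function fields over `L`. -/
def mapL : FL G L →ₐ[L] FL G' L where
  toFun := Φ.mapLFun ι
  map_one' := Φ.eq_mapLFun ι (by simp)
  map_mul' x y := Φ.eq_mapLFun ι (by
    rw [MulMemClass.coe_mul, map_mul, coeffMap_mapLFun, coeffMap_mapLFun, map_mul, map_mul,
      map_mul])
  map_zero' := Φ.eq_mapLFun ι (by simp)
  map_add' x y := Φ.eq_mapLFun ι (by
    rw [AddMemClass.coe_add, map_add, coeffMap_mapLFun, coeffMap_mapLFun, map_add, map_add,
      map_add])
  commutes' c := Φ.eq_mapLFun ι (by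
    rw [toKW_algebraMap, homK_algebraMap, qK_algebraMap, AlgHom.commutes, AlgHom.commutes]
    exact coeffMap_ι_algebraMap ι c)

/-- The expansion of the image under the algebra map. -/
lemma coeffMap_mapL (x : FL G L) :
    coeffMap ι (Φ.mapL ι x : LaurentSeries L) = qK G' (Φ.homK (toKW G ι x)) :=
  Φ.coeffMap_mapLFun ι x

/-- Read through `toKW`, the map `mapL` is `homK`. -/
lemma toKW_mapL (x : FL G L) : toKW G' ι (Φ.mapL ι x) = Φ.homK (toKW G ι x) :=
  (qK G').injective (by rw [qK_toKW, coeffMap_mapL])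

/-- A map of levels preserves the fields defined over `ℚ`. -/
lemma mem_range_mapQ (x : FQ G) :
    ∃ z : FQ G', ∀ k : KW G, qK G k = coeffEmb ℂ (x : LaurentSeries ℚ) →
      qK G' (Φ.homK k) = coeffEmb ℂ (z : LaurentSeries ℚ) := by
  have hid : ∀ y : LaurentSeries ℚ, coeffEmb ℚ y = y := fun y => by
    ext n; rw [ModularCurve.coeffEmb_coeff, Algebra.algebraMap_self_apply]
  set ι₀ := algebraMap ℚ ℂ
  set x' : FL G ℚ := ⟨coeffEmb ℚ (x : LaurentSeries ℚ), coeffEmb_mem_laurentBaseChange ℚ x.2⟩
  have hz : (Φ.mapL ι₀ x' : LaurentSeries ℚ) ∈ FQ G' := by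
    rw [mem_FQ]
    exact ⟨Φ.homK (toKW G ι₀ x'), (Φ.coeffMap_mapL ι₀ x').symm⟩
  refine ⟨⟨_, hz⟩, fun k hk => ?_⟩
  have h1 : k = toKW G ι₀ x' := (qK G).injective (by
    rw [hk, qK_toKW]
    exact congrArg _ (hid _).symm)
  rw [h1, ← coeffMap_mapL]
  rfl

/-- The induced map on rational q-series. -/
def mapQ (x : FQ G) : FQ G' := (Φ.mem_range_mapQ x).choose

/-- The rational image has the expansion of the image. -/
lemma qK_homK {x : FQ G} {k : KW G} (h : qK G k = coeffEmb ℂ (x : LaurentSeries ℚ)) :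
    qK G' (Φ.homK k) = coeffEmb ℂ (Φ.mapQ x : LaurentSeries ℚ) :=
  (Φ.mem_range_mapQ x).choose_spec k h

/-- The extension of scalars of the map on rational q-series. -/
theorem mapL_coeffEmb (x : FQ G) :
    (Φ.mapL ι ⟨coeffEmb L (x : LaurentSeries ℚ), coeffEmb_mem_laurentBaseChange L x.2⟩ :
      LaurentSeries L) = coeffEmb L (Φ.mapQ x : LaurentSeries ℚ) := by
  refine (coeffMap ι).injective ?_
  rw [coeffMap_mapL, coeffMap_ι_coeffEmb]
  refine Φ.qK_homK ?_
  rw [qK_toKW]
  exact coeffMap_ι_coeffEmb ι _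

/-- A semilinear comparison: `mapL` commutes with coefficientwise field maps fixing `ℚ`. -/
theorem mapL_coeffMap (σ : L →ₐ[ℚ] L) (x : FL G L)
    (h : coeffMap σ.toRingHom (x : LaurentSeries L) ∈ FL G L) :
    (Φ.mapL ι ⟨_, h⟩ : LaurentSeries L) = coeffMap σ.toRingHom (Φ.mapL ι x : LaurentSeries L) := by
  have hfix : ∀ y : LaurentSeries ℚ, coeffMap σ.toRingHom (coeffEmb L y) = coeffEmb L y :=
    fun y => by
      rw [coeffEmb, ModularCurve.coeffMap_coeffMap]
      exact ModularCurve.coeffMap_congr (RingHom.ext fun q => σ.commutes q) y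
  have hpres : ∀ y ∈ FL G L, coeffMap σ.toRingHom y ∈ FL G L := by
    intro y hy
    rw [FL, ModularCurve.laurentBaseChange] at hy ⊢
    -- Both sides agree on the rational series and the constants, and are multiplicative.
    refine IntermediateField.adjoin_induction L (fun z hz => ?_) (fun c => ?_)
      (fun _ _ _ _ h h' => ?_) (fun _ _ h => ?_) (fun _ _ _ _ h h' => ?_) hy
    · obtain ⟨w, hw, rfl⟩ := hz
      rw [hfix]
      exact subset_adjoin L _ ⟨w, hw, rfl⟩
    · rw [ModularCurve.coeffMap_algebraMap]; exact IntermediateField.algebraMap_mem _ _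
    · rw [map_add]; exact add_mem h h'
    · rw [map_inv₀]; exact inv_mem h
    · rw [map_mul]; exact mul_mem h h'
  obtain ⟨x, hx⟩ := x
  have hx' : x ∈ adjoin L (coeffEmb L '' (FQ G : Set (LaurentSeries ℚ))) := hx
  refine IntermediateField.adjoin_induction L
    (p := fun y hy => (Φ.mapL ι ⟨_, hpres y hy⟩ : LaurentSeries L) =
      coeffMap σ.toRingHom (Φ.mapL ι ⟨y, hy⟩ : LaurentSeries L))
    (fun y hy => ?_) (fun c => ?_) (fun u v hu hv h h' => ?_) (fun u hu h => ?_)
    (fun u v hu hv h h' => ?_) hx'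
  · obtain ⟨w, hw, rfl⟩ := hy
    rw [show (⟨coeffMap σ.toRingHom (coeffEmb L w), hpres _ (subset_adjoin L _ ⟨w, hw, rfl⟩)⟩ :
      FL G L) = ⟨coeffEmb L w, subset_adjoin L _ ⟨w, hw, rfl⟩⟩ from Subtype.ext (hfix w),
      Φ.mapL_coeffEmb ι ⟨w, hw⟩, hfix]
  · have e1 : (⟨coeffMap σ.toRingHom (algebraMap L (LaurentSeries L) c),
        hpres _ (IntermediateField.algebraMap_mem _ c)⟩ : FL G L) = algebraMap L (FL G L) (σ c) :=
      Subtype.ext (ModularCurve.coeffMap_algebraMap _ c)
    rw [e1, show (⟨algebraMap L (LaurentSeries L) c, IntermediateField.algebraMap_mem _ c⟩ :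
      FL G L) = algebraMap L (FL G L) c from rfl, AlgHom.commutes, AlgHom.commutes]
    exact (ModularCurve.coeffMap_algebraMap _ c).symm
  · rw [show (⟨coeffMap σ.toRingHom (u + v), hpres _ (add_mem hu hv)⟩ : FL G L) =
      ⟨_, hpres u hu⟩ + ⟨_, hpres v hv⟩ from Subtype.ext (map_add _ u v),
      show (⟨u + v, add_mem hu hv⟩ : FL G L) = ⟨u, hu⟩ + ⟨v, hv⟩ from rfl, map_add, map_add,
      AddMemClass.coe_add, AddMemClass.coe_add, map_add, h, h']
  · rw [show (⟨coeffMap σ.toRingHom u⁻¹, hpres _ (inv_mem hu)⟩ : FL G L) =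
      (⟨_, hpres u hu⟩ : FL G L)⁻¹ from Subtype.ext (map_inv₀ _ u),
      show (⟨u⁻¹, inv_mem hu⟩ : FL G L) = (⟨u, hu⟩ : FL G L)⁻¹ from rfl, map_inv₀, map_inv₀,
      IntermediateField.coe_inv, IntermediateField.coe_inv, map_inv₀, h]
  · rw [show (⟨coeffMap σ.toRingHom (u * v), hpres _ (mul_mem hu hv)⟩ : FL G L) =
      ⟨_, hpres u hu⟩ * ⟨_, hpres v hv⟩ from Subtype.ext (map_mul _ u v),
      show (⟨u * v, mul_mem hu hv⟩ : FL G L) = ⟨u, hu⟩ * ⟨v, hv⟩ from rfl, map_mul, map_mul,
      MulMemClass.coe_mul, MulMemClass.coe_mul, map_mul, h, h']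

end RatMap

end Fermat.MC.Lvl

end
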